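import Fermat.Agent.TOR.T1.Defs

/-!
# CAR / P1 : the middle vertical prime `p_m` is locally principal (THE COUNT).  Definitions (no sorry).

ABSTRACT SETTING.  `K = ℚ̄^I` (discretely valued, uniformiser `ϖ = q`), `E = F_K` the function field of level
`q² M'` over `K`, three vertical valuations `vo, vm, vz` (`∞`, middle, `0`) with reduction maps `ρo, ρm, ρz` into
`k((Q))`;  `vo ϖ`, `vz ϖ` generate the value groups of `vo`, `vz`;  `vm ν₀` generates that of `vm`,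
`vm ν₀ ^ e = vm ϖ` (`e = q - 1`).  `t = x(τ) x(q²τ)`.  `R = R'` the reduced ring of level `M'`
(functions regular outside the cusp `∞`, `order` = order at that cusp).

Everything is elementwise: `IsInt K t z` (integral over `K[t]`), `T1.Rd ρ z φ` (`z` is integral and reduces to `φ`).
-/

set_option autoImplicit false

open Polynomial

noncomputable section

namespace Fermat.Agent.CAR.P1

open Fermat.Agent.GAL.KL Fermat.Agent.GAL.KLC Fermat.Agent.TOR.T1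

/-! ## degree theory in `k((Q))` -/

section Deg

variable {k : Type*} [Field k]

/-- `{ξ ∈ N | -n ≤ order ξ}`, written with coefficients. -/
def Tr (N : Submodule k (LaurentSeries k)) (n : ℤ) : Submodule k (LaurentSeries k) where
  carrier := {ξ | ξ ∈ N ∧ ∀ i : ℤ, i < -n → ξ.coeff i = 0}
  add_mem' := fun h h' => ⟨N.add_mem h.1 h'.1, fun i hi => by
    rw [HahnSeries.coeff_add, h.2 i hi, h'.2 i hi, add_zero]⟩
  zero_mem' := ⟨N.zero_mem, fun _ _ => rfl⟩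
  smul_mem' := fun c ξ h => ⟨N.smul_mem c h.1, fun i hi => by
    rw [HahnSeries.coeff_smul, h.2 i hi, smul_zero]⟩

theorem mem_Tr {N : Submodule k (LaurentSeries k)} {n : ℤ} {ξ : LaurentSeries k} :
    ξ ∈ Tr N n ↔ ξ ∈ N ∧ ∀ i : ℤ, i < -n → ξ.coeff i = 0 := Iff.rfl

/-- `dim {ξ ∈ N | -n ≤ order ξ} = n + c` for all large `n`. -/
def HasChi (N : Submodule k (LaurentSeries k)) (c : ℤ) : Prop :=
  ∃ n₀ : ℤ, ∀ n, n₀ ≤ n → FiniteDimensional k (Tr N n) ∧ (Module.finrank k (Tr N n) : ℤ) = n + c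

/-- `ξ N`. -/
def sm (ξ : LaurentSeries k) (N : Submodule k (LaurentSeries k)) : Submodule k (LaurentSeries k) :=
  Submodule.span k {ζ | ∃ η ∈ N, ξ * η = ζ}

/-- `N N'` (NB the `k`-module structure on `k((Q))` is `HahnSeries.instModule`, `c • ξ = C c * ξ` by
`HahnSeries.C_mul_eq_smul`; it is NOT defeq to `Algebra.toModule`, so `Submodule.mul` is not available). -/
def mulS (N N' : Submodule k (LaurentSeries k)) : Submodule k (LaurentSeries k) :=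
  Submodule.span k {ζ | ∃ ξ ∈ N, ∃ η ∈ N', ξ * η = ζ}

/-- `N ^ n`. -/
def powS (N : Submodule k (LaurentSeries k)) : ℕ → Submodule k (LaurentSeries k)
  | 0 => Submodule.span k {1}
  | 1 => N
  | (n + 2) => mulS (powS N (n + 1)) N

/-- a subring as a `k`-subspace. -/
def Rs (R : Subring (LaurentSeries k)) : Submodule k (LaurentSeries k) :=
  Submodule.span k (R : Set (LaurentSeries k))

/-- `N` is a fractional ideal of `R` (inside `k((Q))`). -/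
structure IsFrac (R : Subring (LaurentSeries k)) (N : Submodule k (LaurentSeries k)) : Prop where
  ne : N ≠ ⊥
  mul_mem : ∀ r ∈ R, ∀ η ∈ N, r * η ∈ N
  den : ∃ ξ : LaurentSeries k, ξ ≠ 0 ∧ ∀ η ∈ N, ξ * η ∈ R

/-- the degree theory of `R`: Euler characteristic `χ`, existence and additivity of `HasChi` on fractional ideals. -/
structure DegTh (R : Subring (LaurentSeries k)) (χ : ℤ) : Prop where
  C_mem : ∀ c : k, HahnSeries.C c ∈ R
  chiR : HasChi (Rs R) χ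
  ex : ∀ N, IsFrac R N → ∃ c, HasChi N c
  mul : ∀ N N' c c', IsFrac R N → IsFrac R N' → HasChi N c → HasChi N' c' →
    HasChi (mulS N N') (c + c' - χ)

end Deg

/-! ## the datum -/

/-- the datum of the count. -/
structure Dat (K E k Γ₀ : Type*) [Field K] [Field E] [Algebra K E] [Field k]
    [LinearOrderedCommGroupWithZero Γ₀] where
  /-- the three vertical valuations -/
  vo : Valuation E Γ₀
  vm : Valuation E Γ₀
  vz : Valuation E Γ₀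
  ρo : vo.integer →+* LaurentSeries k
  ρm : vm.integer →+* LaurentSeries k
  ρz : vz.integer →+* LaurentSeries k
  /-- parameter of the chart, uniformiser of `K`, uniformiser of `vm`, ramification index of `vm` -/
  t : E
  ϖ : K
  ν₀ : E
  e : ℕ
  /-- the reduced ring of level `M'` -/
  R : Subring (LaurentSeries k)
  χ : ℤ
  /-- reductions of `t` and their pole orders -/
  τo : LaurentSeries k
  τm : LaurentSeries k
  τz : LaurentSeries k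
  no : ℕ
  nm : ℕ
  /-- `c0 = red_m (ϖ / ν₀ ^ e)` -/
  c0 : LaurentSeries k
  /-- the modular units `X_∞`, `X_0`, their weight `n = 12 e₀`, their reduction `H`, `h = - order H` -/
  Xo : E
  Xz : E
  n : ℕ
  H : LaurentSeries k
  h : ℕ
  /-- `Q`-expansion coefficients -/
  cf : ℤ → E →ₗ[K] K
  /-- `χ₂ = 1 - g₂` -/
  χ₂ : ℤ
  -- constants
  eqm : ∀ a : K, vm (algebraMap K E a) = vo (algebraMap K E a)
  eqz : ∀ a : K, vz (algebraMap K E a) = vo (algebraMap K E a)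
  cst : ∀ c : k, ∃ a : K, Rd ρo (algebraMap K E a) (HahnSeries.C c) ∧
    Rd ρm (algebraMap K E a) (HahnSeries.C c) ∧ Rd ρz (algebraMap K E a) (HahnSeries.C c)
  -- valuations
  archo : Arch vo
  archm : Arch vm
  archz : Arch vz
  kero : ∀ z : vo.integer, ρo z = 0 ↔ vo (z : E) < 1
  kerm : ∀ z : vm.integer, ρm z = 0 ↔ vm (z : E) < 1
  kerz : ∀ z : vz.integer, ρz z = 0 ↔ vz (z : E) < 1
  ϖ_ne : ϖ ≠ 0
  ϖ_lt : vo (algebraMap K E ϖ) < 1
  disco : ∀ z : E, vo z < 1 → vo z ≤ vo (algebraMap K E ϖ)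
  discz : ∀ z : E, vz z < 1 → vz z ≤ vz (algebraMap K E ϖ)
  discm : ∀ z : E, vm z < 1 → vm z ≤ vm ν₀
  he : 1 ≤ e
  ν_pow : vm ν₀ ^ e = vm (algebraMap K E ϖ)
  ν_int : IsInt K t ν₀
  ν_o : vo ν₀ < 1
  ν_z : vz ν₀ < 1
  rc0 : Rd ρm (algebraMap K E ϖ / ν₀ ^ e) c0
  -- the parameter
  rto : Rd ρo t τo
  rtm : Rd ρm t τm
  rtz : Rd ρz t τz
  oτo : τo.order = -(no : ℤ)
  oτm : τm.order = -(nm : ℤ)
  oτz : τz.order = -(no : ℤ)
  no_pos : 0 < no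
  nm_pos : 0 < nm
  -- the chart `t`: reductions of `B = {IsInt K t, vo, vm, vz ≤ 1}` lie in `R`, and `r_m`, `r_0` are onto
  into : ∀ z φ, IsInt K t z → vm z ≤ 1 → vz z ≤ 1 → Rd ρo z φ → φ ∈ R
  intm : ∀ z φ, IsInt K t z → vo z ≤ 1 → vz z ≤ 1 → Rd ρm z φ → φ ∈ R
  intz : ∀ z φ, IsInt K t z → vo z ≤ 1 → vm z ≤ 1 → Rd ρz z φ → φ ∈ R
  surjm : ∀ φ ∈ R, ∃ z, IsInt K t z ∧ vo z ≤ 1 ∧ vz z ≤ 1 ∧ Rd ρm z φ
  surjz : ∀ φ ∈ R, ∃ z, IsInt K t z ∧ vo z ≤ 1 ∧ vm z ≤ 1 ∧ Rd ρz z φ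
  -- the chart `t⁻¹`: no pole at `Q = 0`
  polo : ∀ z φ, IsInt K t⁻¹ z → vm z ≤ 1 → vz z ≤ 1 → Rd ρo z φ → ∀ i : ℤ, i < 0 → φ.coeff i = 0
  polm : ∀ z φ, IsInt K t⁻¹ z → vo z ≤ 1 → vz z ≤ 1 → Rd ρm z φ → ∀ i : ℤ, i < 0 → φ.coeff i = 0
  polz : ∀ z φ, IsInt K t⁻¹ z → vo z ≤ 1 → vm z ≤ 1 → Rd ρz z φ → ∀ i : ℤ, i < 0 → φ.coeff i = 0
  -- the modular units
  n_pos : 0 < n
  Xo_int : IsInt K t Xo
  Xo_inv : IsInt K t Xo⁻¹
  Xo_o : vo Xo = vo (algebraMap K E ϖ) ^ n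
  Xo_m : Rd ρm Xo H
  Xo_z : Rd ρz Xo H
  Xz_int : IsInt K t Xz
  Xz_inv : IsInt K t Xz⁻¹
  Xz_z : vz Xz = vz (algebraMap K E ϖ) ^ n
  Xz_o : vo Xz = 1
  Xz_m : Rd ρm Xz H
  H_ne : H ≠ 0
  oH : H.order = -(h : ℤ)
  -- lattices
  cf_inj : ∀ z : E, (∀ i, cf i z = 0) → z = 0
  cf_int : ∀ z : E, IsInt K t z → vo z ≤ 1 → vm z ≤ 1 → vz z ≤ 1 → ∀ i, vo (algebraMap K E (cf i z)) ≤ 1
  -- Riemann's inequality at level `q² M'`, numerics, degree theory of `R`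
  fin : ∀ a : ℕ, FiniteDimensional K (LL K t a)
  ri : ∀ a : ℕ, (a : ℤ) * (2 * no + e * nm) + χ₂ ≤ (Module.finrank K (LL K t a) : ℤ)
  num : (n : ℤ) * χ₂ = (e + 2) * (n * χ - h)
  deg : DegTh R χ

namespace Dat

variable {K E k Γ₀ : Type*} [Field K] [Field E] [Algebra K E] [Field k]
  [LinearOrderedCommGroupWithZero Γ₀] (D : Dat K E k Γ₀)

/-- the uniformiser of `K` as an element of `E`. -/
def pi : E := algebraMap K E D.ϖ

/-- `z` is integral for the three valuations. -/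
def Ball (z : E) : Prop := D.vo z ≤ 1 ∧ D.vm z ≤ 1 ∧ D.vz z ≤ 1

/-- `𝔟_j = {vo < 1, vz < 1, vm ≤ |ν₀|^j}`. -/
def Bj (j : ℕ) (z : E) : Prop := D.vo z < 1 ∧ D.vz z < 1 ∧ D.vm z ≤ D.vm D.ν₀ ^ j

/-- graded piece at `∞` of `Λ_a = LL_a ∩ Ball`. -/
def So (a : ℕ) : Submodule k (LaurentSeries k) :=
  Submodule.span k {φ | ∃ z ∈ LL K D.t a, D.vm z ≤ 1 ∧ D.vz z ≤ 1 ∧ Rd D.ρo z φ}

/-- graded piece at `0` of `Λ_a ∩ p_∞`. -/
def Sz (a : ℕ) : Submodule k (LaurentSeries k) :=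
  Submodule.span k {φ | ∃ z ∈ LL K D.t a, D.vo z < 1 ∧ D.vm z ≤ 1 ∧ Rd D.ρz z φ}

/-- `j`-th graded piece in the middle: `λ_j (Λ_a ∩ 𝔟_j)`, `λ_j z = red_m (z / ν₀ ^ j)`. -/
def Sj (j a : ℕ) : Submodule k (LaurentSeries k) :=
  Submodule.span k {φ | ∃ z ∈ LL K D.t a, D.Bj j z ∧ Rd D.ρm (z / D.ν₀ ^ j) φ}

/-- `I_0 = r_0 (p_∞)`. -/
def Iz : Submodule k (LaurentSeries k) :=
  Submodule.span k {φ | ∃ z, IsInt K D.t z ∧ D.vo z < 1 ∧ D.vm z ≤ 1 ∧ Rd D.ρz z φ}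

/-- `N_j = λ_j (𝔟_j)`. -/
def Nj (j : ℕ) : Submodule k (LaurentSeries k) :=
  Submodule.span k {φ | ∃ z, IsInt K D.t z ∧ D.Bj j z ∧ Rd D.ρm (z / D.ν₀ ^ j) φ}

end Dat

end Fermat.Agent.CAR.P1
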