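import Fermat.Agent.CAR.P1.Export
import Fermat.Agent.CAR.NS.Asm3

/-!
# CAR / P1 / Adapt : [P1-ADAPT] from the exports of the count to the hypotheses `PRm`, `PRoz`, `Disc3` of [NS]

ABSTRACT FORM.  `D : P1.Dat K E k Γ₀`, `B : Subring E` a chart ring, `v : ι → Valuation E Γ₀`, `p : ι → Ideal B`,
`V : NS.Vert B v p`; three named indices `o m z : ι` with `v o = D.vo`, `v m = D.vm`, `v z = D.vz`; `π : B`, `(π : E) = D.pi`
(structure `Adp`).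

* `Adp.ne_om`, `Adp.ne_zm`, `Adp.ne_oz` : the three indices are distinct;
* `Adp.disc3`   : `NS.Disc3 B v o m z π ν' D.e` for every `ν' : B` with `D.vm ν' = D.vm D.ν₀`;
* `Adp.prm_of_exp`  : an export `ν β = y₀ π`, `y₀ ∉ P`, `vm ν = vm ν₀` gives `GenOn` of `p m` near `P` (`P` on `m` only);
* `Adp.prm_t`   : hypothesis `PRm` of `NS.pr_of_cases` (chart `t`), from `Dat.export_t`;
* `Adp.proz_of_exp`, `Adp.proz` : hypothesis `PRoz` of `NS.pr_of_cases`, from an export (E-oo)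
  `ν β = y₀ π ^ N`, `y₀ ∉ P`, `vo ν = vo π`, `vm ν = vz ν = 1` (explicit hypothesis `EXP`);
* `Adp.prm_inf` : hypothesis `PRm` of `NS.pr_inf_of_cases` (chart `1/t`), from `Dat.export_inv`;
* `NS`-level: `prm_of_e_one`, `prm_inf_of_e_one` : the case `e = 1` (`q = 2`): `π` itself generates `p m`.
-/

set_option autoImplicit false
set_option linter.unusedSectionVars false

open Polynomial

noncomputable section

namespace Fermat.Agent.CAR.P1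

open Fermat.Agent.GAL.KL Fermat.Agent.GAL.KLC Fermat.Agent.TOR.T1 Fermat.Agent.CAR.NS

/-! ### the case `e = 1`, in the language of [NS] -/

section EOne

variable {F Γ₀ ι : Type*} [Field F] [LinearOrderedCommGroupWithZero Γ₀] [Fintype ι]
  {B : Subring F} {v : ι → Valuation F Γ₀} {p : ι → Ideal B}

/-- `e = 1`: hypothesis `PRm` of `NS.pr_of_cases`. -/
theorem prm_of_e_one (V : Vert B v p) {π : B} (hπ0 : π ≠ 0)
    (KR : ∀ z : F, (∃ N : ℕ, (π : F) ^ N * z ∈ B) → (∀ i, v i z ≤ 1) → z ∈ B)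
    {o m z : ι} {ν₀ : B} (D : Disc3 B v o m z π ν₀ 1) :
    ∀ P : Ideal B, P.IsMaximal → p m ≤ P → ¬ p o ≤ P → ¬ p z ≤ P →
      ∃ ν y : B, y ∉ P ∧ GenOn B (v m) (p m) ν y := by
  intro P hP _ ho hz
  have hν : v m (ν₀ : F) = v m (π : F) := by have := D.νe; rwa [pow_one] at this
  obtain ⟨y, hy, hg⟩ := genOn_pi V hπ0 KR hP.isPrime (i := m) (hν ▸ D.νm)
    (fun x hx => hν ▸ D.um x hx) (fun j hj hjP => by
      rcases D.h3 j with h | h | h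
      · exact ho (h ▸ hjP)
      · exact hj h
      · exact hz (h ▸ hjP))
  exact ⟨π, y, hy, hg⟩

/-- `e = 1`: hypothesis `PRm` of `NS.pr_inf_of_cases`. -/
theorem prm_inf_of_e_one (V : Vert B v p) {π : B} (hπ0 : π ≠ 0)
    (KR : ∀ z : F, (∃ N : ℕ, (π : F) ^ N * z ∈ B) → (∀ i, v i z ≤ 1) → z ∈ B)
    {o m z : ι} {ν₀ : B} (D : Disc3 B v o m z π ν₀ 1) (s : B)
    (ONE : ∀ P : Ideal B, P.IsMaximal → s ∈ P → ∀ i j, p i ≤ P → p j ≤ P → i = j) :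
    ∀ P : Ideal B, P.IsMaximal → s ∈ P → p m ≤ P → ∃ ν y : B, y ∉ P ∧ GenOn B (v m) (p m) ν y := by
  intro P hP hs hm
  have hν : v m (ν₀ : F) = v m (π : F) := by have := D.νe; rwa [pow_one] at this
  obtain ⟨y, hy, hg⟩ := genOn_pi V hπ0 KR hP.isPrime (i := m) (hν ▸ D.νm)
    (fun x hx => hν ▸ D.um x hx) (fun j hj hjP => hj (ONE P hP hs j m hjP hm))
  exact ⟨π, y, hy, hg⟩

end EOne

variable {K E k Γ₀ ι : Type*} [Field K] [Field E] [Algebra K E] [Field k]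
  [LinearOrderedCommGroupWithZero Γ₀]

/-- the dictionary between the datum of the count and the family of vertical valuations of [NS]. -/
structure Adp (D : Dat K E k Γ₀) (B : Subring E) (v : ι → Valuation E Γ₀) (o m z : ι) (π : B) :
    Prop where
  h3 : ∀ i, i = o ∨ i = m ∨ i = z
  vo : v o = D.vo
  vm : v m = D.vm
  vz : v z = D.vz
  pi : (π : E) = D.pi

namespace Dat

variable (D : Dat K E k Γ₀)

theorem adapt_vo_Xo : D.vo D.Xo < 1 := by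
  rw [D.Xo_o]; exact pow_lt_one₀ zero_le D.ϖ_lt D.n_pos.ne'

theorem adapt_vm_Xo : D.vm D.Xo = 1 := Rd.val_eq_one D.kerm D.Xo_m D.H_ne

theorem adapt_vz_Xo : D.vz D.Xo = 1 := Rd.val_eq_one D.kerz D.Xo_z D.H_ne

theorem adapt_vz_Xz : D.vz D.Xz < 1 := by
  rw [D.Xz_z, D.eqz]; exact pow_lt_one₀ zero_le D.ϖ_lt D.n_pos.ne'

theorem adapt_vm_Xz : D.vm D.Xz = 1 := Rd.val_eq_one D.kerm D.Xz_m D.H_ne

end Dat

namespace Adp

variable {D : Dat K E k Γ₀} {B : Subring E} {v : ι → Valuation E Γ₀} {o m z : ι} {π : B}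

theorem ne_om (A : Adp D B v o m z π) : o ≠ m := by
  intro h
  have h1 : D.vo = D.vm := by rw [← A.vo, ← A.vm, h]
  have h2 := D.adapt_vo_Xo
  rw [h1, D.adapt_vm_Xo] at h2
  exact lt_irrefl _ h2

theorem ne_zm (A : Adp D B v o m z π) : z ≠ m := by
  intro h
  have h1 : D.vz = D.vm := by rw [← A.vz, ← A.vm, h]
  have h2 := D.adapt_vz_Xz
  rw [h1, D.adapt_vm_Xz] at h2
  exact lt_irrefl _ h2

theorem ne_oz (A : Adp D B v o m z π) : o ≠ z := by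
  intro h
  have h1 : D.vo = D.vz := by rw [← A.vo, ← A.vz, h]
  have h2 := D.adapt_vo_Xo
  rw [h1, D.adapt_vz_Xo] at h2
  exact lt_irrefl _ h2

theorem pi_ne_zero (A : Adp D B v o m z π) : π ≠ 0 := by
  intro h
  apply D.pi_ne
  rw [← A.pi, h]; rfl

/-- discreteness data in the shape of [NS]. -/
theorem disc3 (A : Adp D B v o m z π) {ν' : B} (hν' : D.vm (ν' : E) = D.vm D.ν₀) :
    Disc3 B v o m z π ν' D.e where
  h3 := A.h3
  πo := by rw [A.vo, A.pi]; exact D.vo_pi_lt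
  πz := by rw [A.vz, A.pi, D.vz_pi]; exact D.vo_pi_lt
  uo := by rw [A.vo, A.pi]; exact D.disco
  uz := by rw [A.vz, A.pi]; exact D.discz
  e0 := by have := D.he; omega
  νm := by rw [A.vm, hν']; exact D.vm_nu_lt
  um := by rw [A.vm, hν']; exact D.discm
  νe := by rw [A.vm, hν', A.pi]; exact D.ν_pow

variable [Fintype ι] {p : ι → Ideal B}

/-- `p j ≤ P` in terms of elements. -/
theorem le_iff (V : Vert B v p) (j : ι) (P : Ideal B) :
    p j ≤ P ↔ ∀ x : B, v j (x : E) < 1 → x ∈ P :=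
  ⟨fun h x hx => h ((V.mem_p j x).2 hx), fun h x hx => h x ((V.mem_p j x).1 hx)⟩

theorem exists_of_not_le (V : Vert B v p) {j : ι} {P : Ideal B} (h : ¬ p j ≤ P) :
    ∃ x : B, v j (x : E) < 1 ∧ x ∉ P := by
  rw [le_iff V] at h
  push Not at h
  exact h

/-- an export of the count at a point `P` lying on the middle component only. -/
theorem prm_of_exp (A : Adp D B v o m z π) (V : Vert B v p)
    (KR : ∀ x : E, (∃ N : ℕ, (π : E) ^ N * x ∈ B) → (∀ i, v i x ≤ 1) → x ∈ B)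
    {P : Ideal B} (hP : P.IsPrime) (ho : ¬ p o ≤ P) (hz : ¬ p z ≤ P)
    (EXP : ∃ ν β y₀ : B, y₀ ∉ P ∧ (ν : E) * β = y₀ * D.pi ∧ D.vm (ν : E) = D.vm D.ν₀) :
    ∃ ν y : B, y ∉ P ∧ GenOn B (v m) (p m) ν y := by
  obtain ⟨ν, β, y₀, hy₀, hdvd, hν⟩ := EXP
  obtain ⟨y, hy, hg⟩ := genOn_of_dvd V A.pi_ne_zero KR hP (i := m) (ν := ν)
    (by rw [A.vm, hν]; exact D.vm_nu_lt) (by rw [A.vm, hν]; exact D.discm)
    (fun j hj hjP => by
      rcases A.h3 j with h | h | h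
      · exact absurd (h ▸ hjP) ho
      · exact absurd h hj
      · exact absurd (h ▸ hjP) hz)
    (β := β) (y₀ := y₀) (N := 1) hy₀ (by
      apply Subtype.ext
      rw [pow_one]
      show (ν : E) * β = y₀ * (π : E)
      rw [A.pi]; exact hdvd)
  exact ⟨ν, y, hy, hg⟩

/-- **(a)** hypothesis `PRm` of `NS.pr_of_cases` (chart `t`). -/
theorem prm_t (A : Adp D B v o m z π) (V : Vert B v p)
    (KR : ∀ x : E, (∃ N : ℕ, (π : E) ^ N * x ∈ B) → (∀ i, v i x ≤ 1) → x ∈ B)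
    (hB : ∀ x, x ∈ B ↔ IsInt K D.t x ∧ D.Ball x) :
    ∀ P : Ideal B, P.IsMaximal → p m ≤ P → ¬ p o ≤ P → ¬ p z ≤ P →
      ∃ ν y : B, y ∉ P ∧ GenOn B (v m) (p m) ν y := by
  intro P hP hm ho hz
  refine A.prm_of_exp V KR hP.isPrime ho hz (D.export_t B hB P hP.isPrime ?_ ?_ ?_)
  · rw [← A.vm]; exact (le_iff V m P).1 hm
  · rw [← A.vo]; exact exists_of_not_le V ho
  · rw [← A.vz]; exact exists_of_not_le V hz

/-- an export (E-oo) at a triple point. -/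
theorem proz_of_exp (A : Adp D B v o m z π) (V : Vert B v p)
    (KR : ∀ x : E, (∃ N : ℕ, (π : E) ^ N * x ∈ B) → (∀ i, v i x ≤ 1) → x ∈ B)
    {P : Ideal B} (hP : P.IsPrime)
    (EXP : ∃ (N : ℕ) (ν β y₀ : B), y₀ ∉ P ∧ (ν : E) * β = y₀ * D.pi ^ N ∧ D.vo (ν : E) = D.vo D.pi ∧
      D.vm (ν : E) = 1 ∧ D.vz (ν : E) = 1) :
    ∃ ν y : B, y ∉ P ∧ GenOn B (v o) (p o) ν y := by
  obtain ⟨N, ν, β, y₀, hy₀, hdvd, hνo, hνm, hνz⟩ := EXP
  obtain ⟨y, hy, hg⟩ := genOn_of_dvd V A.pi_ne_zero KR hP (i := o) (ν := ν)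
    (by rw [A.vo, hνo]; exact D.vo_pi_lt) (by rw [A.vo, hνo]; exact D.disco)
    (fun j hj _ => by
      rcases A.h3 j with h | h | h
      · exact absurd h hj
      · rw [h, A.vm]; exact hνm
      · rw [h, A.vz]; exact hνz)
    (β := β) (y₀ := y₀) (N := N) hy₀ (by
      apply Subtype.ext
      show (ν : E) * β = y₀ * (π : E) ^ N
      rw [A.pi]; exact hdvd)
  exact ⟨ν, y, hy, hg⟩

/-- **(b)** hypothesis `PRoz` of `NS.pr_of_cases` from the export (E-oo) of the count (`EXP`) and `INC`. -/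
theorem proz (A : Adp D B v o m z π) (V : Vert B v p)
    (KR : ∀ x : E, (∃ N : ℕ, (π : E) ^ N * x ∈ B) → (∀ i, v i x ≤ 1) → x ∈ B)
    (INC : ∀ P : Ideal B, P.IsMaximal → ∀ i j, i ≠ j → p i ≤ P → p j ≤ P → ∀ l, p l ≤ P)
    (EXP : ∀ P : Ideal B, P.IsPrime → (∀ x : B, D.vo (x : E) < 1 → x ∈ P) →
      (∀ x : B, D.vm (x : E) < 1 → x ∈ P) → (∀ x : B, D.vz (x : E) < 1 → x ∈ P) →
      ∃ ν β y₀ : B, y₀ ∉ P ∧ (ν : E) * β = y₀ * D.pi ^ D.n ∧ D.vo (ν : E) = D.vo D.pi ∧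
        D.vm (ν : E) = 1 ∧ D.vz (ν : E) = 1) :
    ∀ P : Ideal B, P.IsMaximal → p o ≤ P → p z ≤ P → ∃ ν y : B, y ∉ P ∧ GenOn B (v o) (p o) ν y := by
  intro P hP ho hz
  have hm : p m ≤ P := INC P hP o z A.ne_oz ho hz m
  refine A.proz_of_exp V KR hP.isPrime ⟨D.n, EXP P hP.isPrime ?_ ?_ ?_⟩
  · rw [← A.vo]; exact (le_iff V o P).1 ho
  · rw [← A.vm]; exact (le_iff V m P).1 hm
  · rw [← A.vz]; exact (le_iff V z P).1 hz

/-- **(c)** hypothesis `PRm` of `NS.pr_inf_of_cases` (chart `1/t`). -/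
theorem prm_inf (A : Adp D B v o m z π) (V : Vert B v p)
    (KR : ∀ x : E, (∃ N : ℕ, (π : E) ^ N * x ∈ B) → (∀ i, v i x ≤ 1) → x ∈ B)
    (hB : ∀ x, x ∈ B ↔ IsInt K D.t⁻¹ x ∧ D.Ball x)
    (intm' : ∀ x φ, IsInt K D.t⁻¹ x → D.Ball x → Rd D.ρm x φ → IsInt k D.τm⁻¹ φ)
    (surj' : ∀ x φ, Rd D.ρm x φ → IsInt k D.τm⁻¹ φ → ∃ β, IsInt K D.t⁻¹ β ∧ D.Ball β ∧ Rd D.ρm β φ)
    (uniq : ∀ x φ, Rd D.ρm x φ → IsInt k D.τm⁻¹ φ → (∀ i : ℤ, i ≤ 0 → φ.coeff i = 0) →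
      ∃ N : ℕ, IsInt k D.τm⁻¹ (φ ^ N * D.τm))
    (s : B) (ONE : ∀ P : Ideal B, P.IsMaximal → s ∈ P → ∀ i j, p i ≤ P → p j ≤ P → i = j) :
    ∀ P : Ideal B, P.IsMaximal → s ∈ P → p m ≤ P → ∃ ν y : B, y ∉ P ∧ GenOn B (v m) (p m) ν y := by
  intro P hP hs hm
  have ho : ¬ p o ≤ P := fun h => A.ne_om (ONE P hP hs o m h hm)
  have hz : ¬ p z ≤ P := fun h => A.ne_zm (ONE P hP hs z m h hm)
  refine A.prm_of_exp V KR hP.isPrime ho hz
    (D.export_inv B hB intm' surj' uniq P hP.isPrime ?_ ?_ ?_)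
  · rw [← A.vm]; exact (le_iff V m P).1 hm
  · rw [← A.vo]; exact exists_of_not_le V ho
  · rw [← A.vz]; exact exists_of_not_le V hz

end Adp

end Fermat.Agent.CAR.P1
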