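import Fermat.Agent.CAR.P1.ApiA

/-!
# CAR / P1 : elementary consequences of the datum   (package P1-A2)

All proofs are a few lines of valuation calculus.  `T1.Rd` API: `Rd.add/mul/sub/neg/pow/sum/unique/le_one`,
`exists_rd` (TOR/T1/Defs.lean).  NB `T1.rd_zero_iff`, `Rd.inv`, `Rd.div`, `Rd.v_eq_one` there need `IsRed`, which we do
NOT have for `vm` (its value group is bigger than that of the constants): re-prove them from `D.kero/kerm/kerz`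
(first block below, stated for an arbitrary valuation with the kernel property).
-/

set_option autoImplicit false

open Polynomial

noncomputable section

namespace Fermat.Agent.CAR.P1

open Fermat.Agent.GAL.KL Fermat.Agent.GAL.KLC Fermat.Agent.TOR.T1

/-- a subset closed under the linear operations is its own span. -/
theorem ApiB_mem_span_iff {k V : Type*} [Field k] [AddCommGroup V] [Module k V] {S : Set V}
    (h0 : (0 : V) ∈ S) (hadd : ∀ x y, x ∈ S → y ∈ S → x + y ∈ S)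
    (hsmul : ∀ (c : k) x, x ∈ S → c • x ∈ S) {x : V} : x ∈ Submodule.span k S ↔ x ∈ S :=
  ⟨fun h => Submodule.span_induction (p := fun x _ => x ∈ S) (fun _ h => h) h0
    (fun x y _ _ => hadd x y) (fun c x _ => hsmul c x) h, fun h => Submodule.subset_span h⟩

theorem ApiB_mul_lt_one {Γ₀ : Type*} [LinearOrderedCommGroupWithZero Γ₀] {a b : Γ₀} (ha : a ≤ 1)
    (hb : b < 1) : a * b < 1 :=
  lt_of_le_of_lt (mul_le_of_le_one_left' ha) hb

theorem ApiB_mul_lt {Γ₀ : Type*} [LinearOrderedCommGroupWithZero Γ₀] {a b P : Γ₀} (ha : a ≤ P)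
    (hb : b < 1) (hP : P ≠ 0) : a * b < P := by
  calc a * b ≤ P * b := mul_le_mul_left ha b
    _ < P * 1 := mul_lt_mul_of_pos_left hb (zero_lt_iff.mpr hP)
    _ = P := mul_one P

variable {K E k Γ₀ : Type*} [Field K] [Field E] [Algebra K E] [Field k]
  [LinearOrderedCommGroupWithZero Γ₀] (D : Dat K E k Γ₀)

namespace Dat

/-! ### P1-A2 : the spans are the images -/

theorem Bj.add {j : ℕ} {z z' : E} (h : D.Bj j z) (h' : D.Bj j z') : D.Bj j (z + z') :=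
  ⟨D.vo.map_add_lt h.1 h'.1, D.vz.map_add_lt h.2.1 h'.2.1, D.vm.map_add_le h.2.2 h'.2.2⟩

theorem Bj.mul_ball {j : ℕ} {z b : E} (h : D.Bj j z) (hb : D.Ball b) : D.Bj j (b * z) := by
  refine ⟨?_, ?_, ?_⟩
  · rw [map_mul]; exact ApiB_mul_lt_one hb.1 h.1
  · rw [map_mul]; exact ApiB_mul_lt_one hb.2.2 h.2.1
  · rw [map_mul]; exact le_trans (mul_le_of_le_one_left' hb.2.1) h.2.2

theorem Bj.vm_div_le {j : ℕ} {z : E} (h : D.Bj j z) : D.vm (z / D.ν₀ ^ j) ≤ 1 := by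
  rw [map_div₀, map_pow, div_le_one₀ (zero_lt_iff.mpr (pow_ne_zero _ D.vm_nu_ne))]
  exact h.2.2

theorem Bj.ball {j : ℕ} {z : E} (h : D.Bj j z) : D.Ball z :=
  ⟨h.1.le, le_trans h.2.2 (pow_le_one' D.vm_nu_lt.le j), h.2.1.le⟩

/-- the product of an element of `𝔟_i` and an element of `𝔟_j`, `i + j = e`, is divisible by `π` and the quotient lies
in `𝔟_0` (discreteness of `vo`, `vz`: `vo (z z') ≤ vo π * vo z' < vo π`). -/
theorem Bj.mul_div_pi {i j : ℕ} (hij : i + j = D.e) {z z' : E} (h : D.Bj i z) (h' : D.Bj j z') :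
    D.Bj 0 (z * z' / D.pi) := by
  have hpo : D.vo D.pi ≠ 0 := (Valuation.ne_zero_iff _).mpr D.pi_ne
  have hpz : D.vz D.pi ≠ 0 := (Valuation.ne_zero_iff _).mpr D.pi_ne
  have hpm : D.vm D.pi ≠ 0 := (Valuation.ne_zero_iff _).mpr D.pi_ne
  refine ⟨?_, ?_, ?_⟩
  · rw [map_div₀, map_mul, div_lt_one₀ (zero_lt_iff.mpr hpo)]
    exact ApiB_mul_lt (D.disco z h.1) h'.1 hpo
  · rw [map_div₀, map_mul, div_lt_one₀ (zero_lt_iff.mpr hpz)]
    exact ApiB_mul_lt (D.discz z h.2.1) h'.2.1 hpz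
  · rw [pow_zero, map_div₀, map_mul, div_le_one₀ (zero_lt_iff.mpr hpm)]
    have h1 : D.vm D.pi = D.vm D.ν₀ ^ i * D.vm D.ν₀ ^ j := by
      rw [← pow_add, hij]; exact D.ν_pow.symm
    rw [h1]
    exact mul_le_mul' h.2.2 h'.2.2

theorem bj_nu_pow (j : ℕ) (hj : 0 < j) : D.Bj j (D.ν₀ ^ j) := by
  refine ⟨?_, ?_, ?_⟩
  · rw [map_pow]; exact pow_lt_one' D.ν_o hj.ne'
  · rw [map_pow]; exact pow_lt_one' D.ν_z hj.ne'
  · rw [map_pow]

theorem ApiB_bj_zero (j : ℕ) : D.Bj j 0 := by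
  refine ⟨?_, ?_, ?_⟩
  · rw [map_zero]; exact zero_lt_one
  · rw [map_zero]; exact zero_lt_one
  · rw [map_zero]; exact zero_le

theorem mem_So {a : ℕ} {φ : LaurentSeries k} :
    φ ∈ D.So a ↔ ∃ z ∈ LL K D.t a, D.vm z ≤ 1 ∧ D.vz z ≤ 1 ∧ Rd D.ρo z φ := by
  refine ApiB_mem_span_iff ?_ ?_ ?_
  · exact ⟨0, Submodule.zero_mem _, by rw [map_zero]; exact zero_le, by
      rw [map_zero]; exact zero_le, Rd.zero⟩
  · rintro φ φ' ⟨z, hz, h1, h2, h3⟩ ⟨z', hz', h1', h2', h3'⟩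
    exact ⟨z + z', Submodule.add_mem _ hz hz', D.vm.map_add_le h1 h1', D.vz.map_add_le h2 h2',
      h3.add h3'⟩
  · rintro c φ ⟨z, hz, h1, h2, h3⟩
    obtain ⟨a', hb, ho, -, -⟩ := D.exists_const c
    refine ⟨algebraMap K E a' * z, D.LL_const_mul a' hz, ?_, ?_, ?_⟩
    · rw [map_mul]; exact mul_le_one' hb.2.1 h1
    · rw [map_mul]; exact mul_le_one' hb.2.2 h2
    · rw [← HahnSeries.C_mul_eq_smul]; exact ho.mul h3

theorem mem_Sz {a : ℕ} {φ : LaurentSeries k} :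
    φ ∈ D.Sz a ↔ ∃ z ∈ LL K D.t a, D.vo z < 1 ∧ D.vm z ≤ 1 ∧ Rd D.ρz z φ := by
  refine ApiB_mem_span_iff ?_ ?_ ?_
  · exact ⟨0, Submodule.zero_mem _, by rw [map_zero]; exact zero_lt_one, by
      rw [map_zero]; exact zero_le, Rd.zero⟩
  · rintro φ φ' ⟨z, hz, h1, h2, h3⟩ ⟨z', hz', h1', h2', h3'⟩
    exact ⟨z + z', Submodule.add_mem _ hz hz', D.vo.map_add_lt h1 h1', D.vm.map_add_le h2 h2',
      h3.add h3'⟩
  · rintro c φ ⟨z, hz, h1, h2, h3⟩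
    obtain ⟨a', hb, -, -, hz'⟩ := D.exists_const c
    refine ⟨algebraMap K E a' * z, D.LL_const_mul a' hz, ?_, ?_, ?_⟩
    · rw [map_mul]; exact ApiB_mul_lt_one hb.1 h1
    · rw [map_mul]; exact mul_le_one' hb.2.1 h2
    · rw [← HahnSeries.C_mul_eq_smul]; exact hz'.mul h3

theorem mem_Sj {j a : ℕ} {φ : LaurentSeries k} :
    φ ∈ D.Sj j a ↔ ∃ z ∈ LL K D.t a, D.Bj j z ∧ Rd D.ρm (z / D.ν₀ ^ j) φ := by
  refine ApiB_mem_span_iff ?_ ?_ ?_
  · exact ⟨0, Submodule.zero_mem _, D.ApiB_bj_zero j, by rw [zero_div]; exact Rd.zero⟩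
  · rintro φ φ' ⟨z, hz, h1, h2⟩ ⟨z', hz', h1', h2'⟩
    exact ⟨z + z', Submodule.add_mem _ hz hz', Bj.add D h1 h1', by
      rw [add_div]; exact h2.add h2'⟩
  · rintro c φ ⟨z, hz, h1, h2⟩
    obtain ⟨a', hb, -, hm, -⟩ := D.exists_const c
    refine ⟨algebraMap K E a' * z, D.LL_const_mul a' hz, Bj.mul_ball D h1 hb, ?_⟩
    rw [← HahnSeries.C_mul_eq_smul, mul_div_assoc]; exact hm.mul h2

theorem mem_Iz {φ : LaurentSeries k} :
    φ ∈ D.Iz ↔ ∃ z, IsInt K D.t z ∧ D.vo z < 1 ∧ D.vm z ≤ 1 ∧ Rd D.ρz z φ := by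
  refine ApiB_mem_span_iff ?_ ?_ ?_
  · exact ⟨0, IsInt.zero, by rw [map_zero]; exact zero_lt_one, by
      rw [map_zero]; exact zero_le, Rd.zero⟩
  · rintro φ φ' ⟨z, hz, h1, h2, h3⟩ ⟨z', hz', h1', h2', h3'⟩
    exact ⟨z + z', hz.add hz', D.vo.map_add_lt h1 h1', D.vm.map_add_le h2 h2', h3.add h3'⟩
  · rintro c φ ⟨z, hz, h1, h2, h3⟩
    obtain ⟨a', hb, -, -, hz'⟩ := D.exists_const c
    refine ⟨algebraMap K E a' * z, (IsInt.algebraMap a').mul hz, ?_, ?_, ?_⟩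
    · rw [map_mul]; exact ApiB_mul_lt_one hb.1 h1
    · rw [map_mul]; exact mul_le_one' hb.2.1 h2
    · rw [← HahnSeries.C_mul_eq_smul]; exact hz'.mul h3

theorem mem_Nj {j : ℕ} {φ : LaurentSeries k} :
    φ ∈ D.Nj j ↔ ∃ z, IsInt K D.t z ∧ D.Bj j z ∧ Rd D.ρm (z / D.ν₀ ^ j) φ := by
  refine ApiB_mem_span_iff ?_ ?_ ?_
  · exact ⟨0, IsInt.zero, D.ApiB_bj_zero j, by rw [zero_div]; exact Rd.zero⟩
  · rintro φ φ' ⟨z, hz, h1, h2⟩ ⟨z', hz', h1', h2'⟩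
    exact ⟨z + z', hz.add hz', Bj.add D h1 h1', by rw [add_div]; exact h2.add h2'⟩
  · rintro c φ ⟨z, hz, h1, h2⟩
    obtain ⟨a', hb, -, hm, -⟩ := D.exists_const c
    refine ⟨algebraMap K E a' * z, (IsInt.algebraMap a').mul hz, Bj.mul_ball D h1 hb, ?_⟩
    rw [← HahnSeries.C_mul_eq_smul, mul_div_assoc]; exact hm.mul h2

theorem Sz_le_Iz (a : ℕ) : D.Sz a ≤ D.Iz := by
  apply Submodule.span_mono
  rintro φ ⟨z, hz, h⟩
  exact ⟨z, ((mem_LL K).1 hz).1, h⟩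

theorem Sj_le_Nj (j a : ℕ) : D.Sj j a ≤ D.Nj j := by
  apply Submodule.span_mono
  rintro φ ⟨z, hz, h⟩
  exact ⟨z, ((mem_LL K).1 hz).1, h⟩

end Dat

end Fermat.Agent.CAR.P1
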