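import Fermat.Agent.CAR.P1.Deg

/-!
# CAR / P1 : elementary consequences of the datum   (package P1-A1)

All proofs are a few lines of valuation calculus.  `T1.Rd` API: `Rd.add/mul/sub/neg/pow/sum/unique/le_one`,
`exists_rd` (TOR/T1/Defs.lean).  NB `T1.rd_zero_iff`, `Rd.inv`, `Rd.div`, `Rd.v_eq_one` there need `IsRed`, which we do
NOT have for `vm` (its value group is bigger than that of the constants): re-prove them from `D.kero/kerm/kerz`
(first block below, stated for an arbitrary valuation with the kernel property).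
-/

set_option autoImplicit false

open Polynomial

noncomputable section

namespace Fermat.Agent.CAR.P1

open Fermat.Agent.GAL.KL Fermat.Agent.GAL.KLC Fermat.Agent.TOR.T1

/-! ### P1-A1 : `Rd` for a valuation with the kernel property -/

section Ker

variable {E k Γ₀ : Type*} [Field E] [Field k] [LinearOrderedCommGroupWithZero Γ₀]
  {v : Valuation E Γ₀} {ρ : v.integer →+* LaurentSeries k}

theorem rd_zero_iff' (hk : ∀ z : v.integer, ρ z = 0 ↔ v (z : E) < 1) {z : E} :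
    Rd ρ z 0 ↔ v z < 1 := by
  constructor
  · rintro ⟨h, h0⟩
    exact (hk ⟨z, h⟩).1 h0
  · intro h
    exact ⟨h.le, (hk ⟨z, h.le⟩).2 h⟩

theorem Rd.val_eq_one (hk : ∀ z : v.integer, ρ z = 0 ↔ v (z : E) < 1) {z : E}
    {φ : LaurentSeries k} (h : Rd ρ z φ) (hφ : φ ≠ 0) : v z = 1 := by
  refine le_antisymm h.le_one (not_lt.1 fun hlt => hφ ?_)
  exact h.unique ((rd_zero_iff' hk).2 hlt)

theorem Rd.ne_zero_of_val (hk : ∀ z : v.integer, ρ z = 0 ↔ v (z : E) < 1) {z : E}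
    {φ : LaurentSeries k} (h : Rd ρ z φ) (hz : v z = 1) : φ ≠ 0 := by
  rintro rfl
  have h1 := (rd_zero_iff' hk).1 h
  rw [hz] at h1
  exact lt_irrefl _ h1

theorem Rd.inv' (hk : ∀ z : v.integer, ρ z = 0 ↔ v (z : E) < 1) {z : E} {φ : LaurentSeries k}
    (h : Rd ρ z φ) (hφ : φ ≠ 0) : Rd ρ z⁻¹ φ⁻¹ := by
  have h1 := Rd.val_eq_one hk h hφ
  have hz : z ≠ 0 := by
    rintro rfl
    rw [map_zero] at h1
    exact zero_ne_one h1
  have h2 : v z⁻¹ ≤ 1 := by rw [map_inv₀, h1, inv_one]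
  obtain ⟨ψ, hψ⟩ := exists_rd (ρ := ρ) h2
  have h3 := (h.mul hψ).unique (by rw [mul_inv_cancel₀ hz]; exact Rd.one)
  rwa [← eq_inv_of_mul_eq_one_right h3]

theorem Rd.div' (hk : ∀ z : v.integer, ρ z = 0 ↔ v (z : E) < 1) {z z' : E}
    {φ φ' : LaurentSeries k} (h : Rd ρ z φ) (h' : Rd ρ z' φ') (hφ : φ' ≠ 0) :
    Rd ρ (z / z') (φ / φ') := by
  rw [div_eq_mul_inv, div_eq_mul_inv]
  exact h.mul (Rd.inv' hk h' hφ)

theorem Rd.sub_lt' (hk : ∀ z : v.integer, ρ z = 0 ↔ v (z : E) < 1) {z z' : E}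
    {φ : LaurentSeries k} (h : Rd ρ z φ) (h' : Rd ρ z' φ) : v (z - z') < 1 := by
  rw [← rd_zero_iff' hk]
  have h1 := h.sub h'
  rwa [sub_self] at h1

theorem Rd.of_sub_lt' (hk : ∀ z : v.integer, ρ z = 0 ↔ v (z : E) < 1) {z z' : E}
    {φ : LaurentSeries k} (h : Rd ρ z φ) (h' : v (z' - z) < 1) : Rd ρ z' φ := by
  have h1 := ((rd_zero_iff' hk).2 h').add h
  rwa [sub_add_cancel, zero_add] at h1

end Ker

variable {K E k Γ₀ : Type*} [Field K] [Field E] [Algebra K E] [Field k]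
  [LinearOrderedCommGroupWithZero Γ₀] (D : Dat K E k Γ₀)

namespace Dat

/-! ### P1-A1 (continued) : the constants, `π`, `ν₀`, `t` -/

theorem pi_ne : D.pi ≠ 0 := by
  exact (map_ne_zero (algebraMap K E)).2 D.ϖ_ne

theorem vo_pi_lt : D.vo D.pi < 1 := D.ϖ_lt

theorem vm_pi : D.vm D.pi = D.vo D.pi := D.eqm _

theorem vz_pi : D.vz D.pi = D.vo D.pi := D.eqz _

theorem isInt_pi (u : E) : IsInt K u D.pi := IsInt.algebraMap _

theorem isInt_pi_inv (u : E) : IsInt K u D.pi⁻¹ := by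
  have h : D.pi⁻¹ = algebraMap K E D.ϖ⁻¹ := (map_inv₀ (algebraMap K E) D.ϖ).symm
  rw [h]
  exact IsInt.algebraMap _

theorem vm_nu_lt : D.vm D.ν₀ < 1 := by
  by_contra hcon
  have h1 : 1 ≤ D.vm D.ν₀ := not_lt.1 hcon
  have h2 : 1 ≤ D.vm D.ν₀ ^ D.e := one_le_pow₀ h1
  rw [D.ν_pow, D.eqm] at h2
  exact absurd D.ϖ_lt (not_lt.2 h2)

theorem nu_ne : D.ν₀ ≠ 0 := by
  intro h0
  have h1 := D.ν_pow
  have he : D.e ≠ 0 := by have := D.he; omega
  rw [h0, map_zero, zero_pow he] at h1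
  exact D.pi_ne ((map_eq_zero D.vm).1 h1.symm)

theorem vm_nu_ne : D.vm D.ν₀ ≠ 0 := by
  exact (Valuation.ne_zero_iff _).2 D.nu_ne

theorem c0_ne : D.c0 ≠ 0 := by
  refine Rd.ne_zero_of_val D.kerm D.rc0 ?_
  rw [map_div₀, map_pow, D.ν_pow]
  exact div_self ((Valuation.ne_zero_iff _).2 D.pi_ne)

theorem τo_ne : D.τo ≠ 0 := by
  intro h0
  have h1 := D.oτo
  have h2 := D.no_pos
  rw [h0, HahnSeries.order_zero] at h1
  omega

theorem τm_ne : D.τm ≠ 0 := by
  intro h0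
  have h1 := D.oτm
  have h2 := D.nm_pos
  rw [h0, HahnSeries.order_zero] at h1
  omega

theorem τz_ne : D.τz ≠ 0 := by
  intro h0
  have h1 := D.oτz
  have h2 := D.no_pos
  rw [h0, HahnSeries.order_zero] at h1
  omega

theorem vo_t : D.vo D.t = 1 := by
  exact Rd.val_eq_one D.kero D.rto D.τo_ne

theorem vm_t : D.vm D.t = 1 := by
  exact Rd.val_eq_one D.kerm D.rtm D.τm_ne

theorem vz_t : D.vz D.t = 1 := by
  exact Rd.val_eq_one D.kerz D.rtz D.τz_ne

theorem t_ne : D.t ≠ 0 := by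
  intro h0
  have h1 := D.vo_t
  rw [h0, map_zero] at h1
  exact zero_ne_one h1

/-- a constant which is integral for one of the valuations is integral for all. -/
theorem ball_const {a : K} (h : D.vo (algebraMap K E a) ≤ 1) : D.Ball (algebraMap K E a) := by
  exact ⟨h, by rw [D.eqm]; exact h, by rw [D.eqz]; exact h⟩

/-- lifting of constants, with all the properties one needs. -/
theorem exists_const (c : k) : ∃ a : K, D.Ball (algebraMap K E a) ∧
    Rd D.ρo (algebraMap K E a) (HahnSeries.C c) ∧ Rd D.ρm (algebraMap K E a) (HahnSeries.C c) ∧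
    Rd D.ρz (algebraMap K E a) (HahnSeries.C c) := by
  obtain ⟨a, h1, h2, h3⟩ := D.cst c
  exact ⟨a, ⟨h1.le_one, h2.le_one, h3.le_one⟩, h1, h2, h3⟩

/-- every element of `B_t` lies in some `LL_a` (`IsInt.shift` applied to `t⁻¹`), and then in all bigger ones. -/
theorem exists_mem_LL {z : E} (h : IsInt K D.t z) : ∃ a₀ : ℕ, ∀ a, a₀ ≤ a → z ∈ LL K D.t a := by
  have h1 : IsInt K (D.t⁻¹)⁻¹ z := by rw [inv_inv]; exact h
  obtain ⟨a₀, ha₀⟩ := IsInt.shift (inv_ne_zero D.t_ne) h1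
  exact ⟨a₀, fun a ha => ⟨h, ha₀ a ha⟩⟩

theorem LL_mul {a a' : ℕ} {z z' : E} (h : z ∈ LL K D.t a) (h' : z' ∈ LL K D.t a') :
    z * z' ∈ LL K D.t (a + a') := by
  refine ⟨h.1.mul h'.1, ?_⟩
  rw [pow_add, mul_mul_mul_comm]
  exact h.2.mul h'.2

theorem LL_const_mul {a : ℕ} {z : E} (c : K) (h : z ∈ LL K D.t a) :
    algebraMap K E c * z ∈ LL K D.t a := by
  rw [← Algebra.smul_def]
  exact (LL K D.t a).smul_mem c h

end Dat

end Fermat.Agent.CAR.P1
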