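import Fermat.Agent.CAR.P1.BoundsA

/-!
# CAR / P1 : pole orders of the graded pieces   (package P1-B2)
-/

set_option autoImplicit false

open Polynomial

noncomputable section

namespace Fermat.Agent.CAR.P1

open Fermat.Agent.GAL.KL Fermat.Agent.GAL.KLC Fermat.Agent.TOR.T1

variable {K E k Γ₀ : Type*} [Field K] [Field E] [Algebra K E] [Field k]
  [LinearOrderedCommGroupWithZero Γ₀] (D : Dat K E k Γ₀)

namespace Dat

/-! ### P1-B2 : the orders at infinity of the higher graded pieces -/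

/-- `pairing` + `S0_le` (`z z'/π ∈ LL_(a+a')`, `LL_mul`, `LL_const_mul`) + `HahnSeries.order_mul`. -/
theorem order_pairing {i j : ℕ} (hij : i + j = D.e) {a a' : ℕ} {z z' : E} (hz : z ∈ LL K D.t a)
    (hz' : z' ∈ LL K D.t a') (h : D.Bj i z) (h' : D.Bj j z') {φ φ' : LaurentSeries k}
    (hφ : Rd D.ρm (z / D.ν₀ ^ i) φ) (hφ' : Rd D.ρm (z' / D.ν₀ ^ j) φ') (h0 : φ ≠ 0) (h0' : φ' ≠ 0) :
    D.c0.order ≤ (φ.order + a * D.nm) + (φ'.order + a' * D.nm) := by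
  obtain ⟨ψ, hψ, hmul⟩ := D.pairing hij h h' hφ hφ'
  have hLL : z * z' / D.pi ∈ LL K D.t (a + a') := by
    have h1 := D.LL_const_mul D.ϖ⁻¹ (D.LL_mul hz hz')
    have h2 : algebraMap K E D.ϖ⁻¹ * (z * z') = z * z' / D.pi := by
      rw [map_inv₀, div_eq_mul_inv, mul_comm]
      rfl
    rwa [h2] at h1
  have hS : ψ ∈ D.Sj 0 (a + a') := D.mem_Sj.2 ⟨_, hLL, Bj.mul_div_pi D hij h h', hψ⟩
  have hT := (mem_Tr.1 (D.S0_le (a + a') hS)).2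
  have hψ0 : ψ ≠ 0 := by
    rintro rfl
    rw [mul_zero] at hmul
    exact mul_ne_zero h0 h0' hmul
  have hord : -(((a + a' : ℕ) : ℤ) * D.nm) ≤ ψ.order := by
    by_contra hcon
    exact hψ0 (HahnSeries.coeff_order_eq_zero.1 (hT _ (not_le.1 hcon)))
  have e1 := congrArg HahnSeries.order hmul
  rw [HahnSeries.order_mul h0 h0', HahnSeries.order_mul D.c0_ne hψ0] at e1
  push_cast at hord
  linarith

/-- the exact order at infinity `c_j` of `λ_j(𝔟_j)`.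
The set `{order φ + a nm}` (over all `a`, `z ∈ LL_a ∩ 𝔟_j`, `φ = λ_j z ≠ 0`) is non empty (`ν₀^j`, `exists_mem_LL`,
`φ = 1`) and bounded below (`order_pairing` with the fixed element `z' = ν₀^(e-j)`, `φ' = 1`): take its minimum
(`Int.exists_least_of_bdd`). -/
theorem exists_cj {j : ℕ} (hj0 : 0 < j) (hj : j < D.e) : ∃ c : ℤ,
    (∀ a : ℕ, D.Sj j a ≤ Tr (D.Nj j) ((a : ℤ) * D.nm - c)) ∧
    ∃ (a : ℕ) (z : E) (φ : LaurentSeries k), z ∈ LL K D.t a ∧ D.Bj j z ∧ Rd D.ρm (z / D.ν₀ ^ j) φ ∧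
      φ ≠ 0 ∧ φ.order + a * D.nm = c := by
  have hnu : ∀ i : ℕ, 0 < i → ∃ a : ℕ, D.ν₀ ^ i ∈ LL K D.t a ∧ D.Bj i (D.ν₀ ^ i) ∧
      Rd D.ρm (D.ν₀ ^ i / D.ν₀ ^ i) 1 := by
    intro i hi
    obtain ⟨a₀, ha₀⟩ := D.exists_mem_LL (D.ν_int.pow i)
    refine ⟨a₀, ha₀ a₀ le_rfl, D.bj_nu_pow i hi, ?_⟩
    rw [div_self (pow_ne_zero _ D.nu_ne)]
    exact Rd.one
  obtain ⟨a₁, h1L, h1B, h1R⟩ := hnu j hj0
  obtain ⟨a₂, h2L, h2B, h2R⟩ := hnu (D.e - j) (by omega)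
  obtain ⟨c, ⟨a, z, φ, hz, hB, hR, hφ0, hc⟩, hmin⟩ := Int.exists_least_of_bdd
    (P := fun c : ℤ => ∃ (a : ℕ) (z : E) (φ : LaurentSeries k), z ∈ LL K D.t a ∧ D.Bj j z ∧
      Rd D.ρm (z / D.ν₀ ^ j) φ ∧ φ ≠ 0 ∧ φ.order + a * D.nm = c)
    ⟨D.c0.order - a₂ * D.nm, by
      rintro c ⟨a, z, φ, hz, hB, hR, hφ0, rfl⟩
      have := D.order_pairing (by omega : j + (D.e - j) = D.e) hz h2L hB h2B hR h2R hφ0 one_ne_zero
      rw [HahnSeries.order_one] at this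
      linarith⟩
    ⟨_, a₁, _, 1, h1L, h1B, h1R, one_ne_zero, rfl⟩
  refine ⟨c, fun b ξ hξ => mem_Tr.2 ⟨D.Sj_le_Nj j b hξ, fun i hi => ?_⟩, a, z, φ, hz, hB, hR, hφ0, hc⟩
  obtain ⟨y, hy, hyB, hyR⟩ := D.mem_Sj.1 hξ
  rcases eq_or_ne ξ 0 with rfl | hξ0
  · rfl
  · have := hmin _ ⟨b, y, ξ, hy, hyB, hyR, hξ0, rfl⟩
    exact HahnSeries.coeff_eq_zero_of_lt_order (by linarith)

end Dat

end Fermat.Agent.CAR.P1
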