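import Fermat.Agent.CAR.P1.BoundsA
import Fermat.Agent.CAR.P1.BoundsB
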