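import Fermat.Agent.CAR.P1.Frac

/-!
# CAR / P1 : pole orders of the graded pieces   (package P1-B1)
-/

set_option autoImplicit false

open Polynomial

noncomputable section

namespace Fermat.Agent.CAR.P1

open Fermat.Agent.GAL.KL Fermat.Agent.GAL.KLC Fermat.Agent.TOR.T1

variable {K E k Γ₀ : Type*} [Field K] [Field E] [Algebra K E] [Field k]
  [LinearOrderedCommGroupWithZero Γ₀] (D : Dat K E k Γ₀)

/-! ### P1-B1 -/

/-- pure Laurent series: if `τ⁻¹ ^ a * φ` has no pole and `order τ = -N` then `φ` has a pole of order `≤ a N`. -/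
theorem coeff_eq_zero_of_mul {τ φ : LaurentSeries k} {N a : ℕ} (hτ : τ ≠ 0)
    (oτ : τ.order = -(N : ℤ)) (h : ∀ i : ℤ, i < 0 → (τ⁻¹ ^ a * φ).coeff i = 0) :
    ∀ i : ℤ, i < -((a : ℤ) * N) → φ.coeff i = 0 := by
  intro i hi
  by_cases hφ : φ = 0
  · rw [hφ]; rfl
  have hτa : τ⁻¹ ^ a ≠ 0 := pow_ne_zero a (inv_ne_zero hτ)
  have hψ : τ⁻¹ ^ a * φ ≠ 0 := mul_ne_zero hτa hφ
  have hψo : 0 ≤ (τ⁻¹ ^ a * φ).order := by
    by_contra hlt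
    exact hψ (HahnSeries.coeff_order_eq_zero.mp (h _ (not_le.mp hlt)))
  have hφe : φ = τ ^ a * (τ⁻¹ ^ a * φ) := by
    rw [← mul_assoc, ← mul_pow, mul_inv_cancel₀ hτ, one_pow, one_mul]
  have ho : φ.order = -((a : ℤ) * N) + (τ⁻¹ ^ a * φ).order := by
    conv_lhs => rw [hφe]
    rw [HahnSeries.order_mul (pow_ne_zero a hτ) hψ, HahnSeries.order_pow, oτ]
    simp
  apply HahnSeries.coeff_eq_zero_of_lt_order
  rw [ho]
  omega

namespace Dat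

/-- `z ∈ LL_a`: `t⁻¹^a z` is integral over `K[t⁻¹]`, has the same valuations (`vo_t` ..), reduces to `τo⁻¹^a φ`
(`Rd.inv'`, `Rd.pow`, `Rd.mul`); `polo` and `coeff_eq_zero_of_mul`.  `φ ∈ R` by `into`. -/
theorem So_le (a : ℕ) : D.So a ≤ Tr (Rs D.R) ((a : ℤ) * D.no) := by
  intro φ hφ
  obtain ⟨z, hz, hm, hzz, hr⟩ := D.mem_So.mp hφ
  refine mem_Tr.mpr ⟨Submodule.subset_span (D.into z φ hz.1 hm hzz hr), ?_⟩
  refine coeff_eq_zero_of_mul D.τo_ne D.oτo (D.polo (D.t⁻¹ ^ a * z) _ hz.2 ?_ ?_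
    (((Rd.inv' D.kero D.rto D.τo_ne).pow a).mul hr))
  · rw [map_mul, map_pow, map_inv₀, D.vm_t, inv_one, one_pow, one_mul]; exact hm
  · rw [map_mul, map_pow, map_inv₀, D.vz_t, inv_one, one_pow, one_mul]; exact hzz

theorem Sz_le (a : ℕ) : D.Sz a ≤ Tr D.Iz ((a : ℤ) * D.no) := by
  intro φ hφ
  obtain ⟨z, hz, ho, hm, hr⟩ := D.mem_Sz.mp hφ
  refine mem_Tr.mpr ⟨D.Sz_le_Iz a hφ, ?_⟩
  refine coeff_eq_zero_of_mul D.τz_ne D.oτz (D.polz (D.t⁻¹ ^ a * z) _ hz.2 ?_ ?_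
    (((Rd.inv' D.kerz D.rtz D.τz_ne).pow a).mul hr))
  · rw [map_mul, map_pow, map_inv₀, D.vo_t, inv_one, one_pow, one_mul]; exact ho.le
  · rw [map_mul, map_pow, map_inv₀, D.vm_t, inv_one, one_pow, one_mul]; exact hm

theorem S0_le (a : ℕ) : D.Sj 0 a ≤ Tr (D.Nj 0) ((a : ℤ) * D.nm) := by
  intro φ hφ
  obtain ⟨z, hz, hB, hr⟩ := D.mem_Sj.mp hφ
  rw [pow_zero, div_one] at hr
  refine mem_Tr.mpr ⟨D.Sj_le_Nj 0 a hφ, ?_⟩
  refine coeff_eq_zero_of_mul D.τm_ne D.oτm (D.polm (D.t⁻¹ ^ a * z) _ hz.2 ?_ ?_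
    (((Rd.inv' D.kerm D.rtm D.τm_ne).pow a).mul hr))
  · rw [map_mul, map_pow, map_inv₀, D.vo_t, inv_one, one_pow, one_mul]; exact hB.1.le
  · rw [map_mul, map_pow, map_inv₀, D.vz_t, inv_one, one_pow, one_mul]; exact hB.2.1.le

end Dat

end Fermat.Agent.CAR.P1
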