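import Fermat.Agent.CAR.P1.Main

/-!
# CAR / P1 : the count   (package P1-M3)
-/

set_option autoImplicit false

open Polynomial

noncomputable section

namespace Fermat.Agent.CAR.P1

open Fermat.Agent.GAL.KL Fermat.Agent.GAL.KLC Fermat.Agent.TOR.T1

variable {K E k Γ₀ : Type*} [Field K] [Field E] [Algebra K E] [Field k]
  [LinearOrderedCommGroupWithZero Γ₀] (D : Dat K E k Γ₀)

/-- the order of an inverse. -/
theorem C12_order_inv {ξ : LaurentSeries k} (hξ : ξ ≠ 0) : ξ⁻¹.order = -ξ.order := by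
  have h := HahnSeries.order_mul hξ (inv_ne_zero hξ)
  rw [mul_inv_cancel₀ hξ, HahnSeries.order_one] at h
  omega

/-- the order of a power. -/
theorem C12_order_pow {ξ : LaurentSeries k} (hξ : ξ ≠ 0) (n : ℕ) :
    (ξ ^ n).order = n * ξ.order := by
  induction n with
  | zero => simp
  | succ n ih =>
    rw [pow_succ, HahnSeries.order_mul (pow_ne_zero n hξ) hξ, ih]
    push_cast
    ring

namespace Dat

theorem C12_one_add : 1 + (D.e - 1) = D.e := by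
  have := D.he
  omega

/-- `t⁻¹ ^ a` is a unit for the three valuations. -/
theorem C12_ball_t_inv_pow (a : ℕ) : D.Ball (D.t⁻¹ ^ a) := by
  refine ⟨?_, ?_, ?_⟩
  · rw [map_pow, map_inv₀, D.vo_t, inv_one, one_pow]
  · rw [map_pow, map_inv₀, D.vm_t, inv_one, one_pow]
  · rw [map_pow, map_inv₀, D.vz_t, inv_one, one_pow]

/-- **(C1)** every `y ∈ B ∩ p_∞ ∩ p_0` is, modulo `p_m`, a sum of elements `b b' / π` with `b ∈ B ∩ 𝔟_1`, `b' ∈ B ∩ 𝔟_(e-1)`.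
`r_m y ∈ N_0`, so `c0 r_m y ∈ N_1 N_(e-1)` (`main`), `exists_sum_of_mem_mulS`, `mem_Nj`, `pairing`; cancel `c0`;
`Rd.sum`, `Rd.sub_lt'`. -/
theorem c1 (he2 : 2 ≤ D.e) {y : E} (hy : IsInt K D.t y) (hB : D.Bj 0 y) :
    ∃ (r : ℕ) (b b' : Fin r → E), (∀ i, IsInt K D.t (b i) ∧ D.Bj 1 (b i)) ∧
      (∀ i, IsInt K D.t (b' i) ∧ D.Bj (D.e - 1) (b' i)) ∧
      D.vm (y - ∑ i, b i * b' i / D.pi) < 1 := by
  obtain ⟨ψ, hψ⟩ := exists_rd (ρ := D.ρm) (Bj.vm_div_le D hB)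
  have h0 : ψ ∈ D.Nj 0 := D.mem_Nj.2 ⟨y, hy, hB, hψ⟩
  have h1 : D.c0 * ψ ∈ mulS (D.Nj 1) (D.Nj (D.e - 1)) := by
    rw [(D.main he2).1]
    exact mul_mem_sm h0
  obtain ⟨r, ξ, η, hξ, hη, hsum⟩ := exists_sum_of_mem_mulS h1
  have hb : ∀ i, ∃ z, IsInt K D.t z ∧ D.Bj 1 z ∧ Rd D.ρm (z / D.ν₀ ^ 1) (ξ i) :=
    fun i => D.mem_Nj.1 (hξ i)
  have hb' : ∀ i, ∃ z, IsInt K D.t z ∧ D.Bj (D.e - 1) z ∧ Rd D.ρm (z / D.ν₀ ^ (D.e - 1)) (η i) :=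
    fun i => D.mem_Nj.1 (hη i)
  choose b hb1 hb2 hb3 using hb
  choose b' hb1' hb2' hb3' using hb'
  have hp : ∀ i, ∃ χ, Rd D.ρm (b i * b' i / D.pi / D.ν₀ ^ 0) χ ∧ ξ i * η i = D.c0 * χ :=
    fun i => D.pairing D.C12_one_add (hb2 i) (hb2' i) (hb3 i) (hb3' i)
  choose χ hχ1 hχ2 using hp
  refine ⟨r, b, b', fun i => ⟨hb1 i, hb2 i⟩, fun i => ⟨hb1' i, hb2' i⟩, ?_⟩
  have h2 : ψ = ∑ i, χ i := by
    apply mul_left_cancel₀ D.c0_ne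
    rw [hsum, Finset.mul_sum]
    exact Finset.sum_congr rfl fun i _ => hχ2 i
  have h3 : Rd D.ρm (∑ i, b i * b' i / D.pi) ψ := by
    rw [h2]
    refine Rd.sum _ fun i _ => ?_
    have := hχ1 i
    rwa [pow_zero, div_one] at this
  rw [pow_zero, div_one] at hψ
  exact Rd.sub_lt' D.kerm hψ h3

/-- **(C2)** at the point at infinity of the middle component.
With the witnesses of `main`: `b := t⁻¹^a z`, `b' := t⁻¹^a' z'`; `r_m (b b'/π) = τm⁻¹^(a+a') φ φ' / c0` has order `0`. -/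
theorem c2 (he2 : 2 ≤ D.e) : ∃ (b b' : E) (ψ : LaurentSeries k), IsInt K D.t⁻¹ b ∧ D.Bj 1 b ∧ IsInt K D.t⁻¹ b' ∧
    D.Bj (D.e - 1) b' ∧ Rd D.ρm (b * b' / D.pi) ψ ∧ ψ ≠ 0 ∧ ψ.order = 0 := by
  obtain ⟨a, a', z, z', φ, φ', hz, hB, hφ, hφ0, hz', hB', hφ', hφ0', hord⟩ := (D.main he2).2
  obtain ⟨χ, hχ1, hχ2⟩ := D.pairing D.C12_one_add hB hB' hφ hφ'
  rw [pow_zero, div_one] at hχ1
  have hχ0 : χ ≠ 0 := by
    rintro rfl
    rw [mul_zero] at hχ2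
    exact mul_ne_zero hφ0 hφ0' hχ2
  have hτ : Rd D.ρm D.t⁻¹ D.τm⁻¹ := Rd.inv' D.kerm D.rtm D.τm_ne
  have hτ0 : D.τm⁻¹ ≠ 0 := inv_ne_zero D.τm_ne
  refine ⟨D.t⁻¹ ^ a * z, D.t⁻¹ ^ a' * z', D.τm⁻¹ ^ a * D.τm⁻¹ ^ a' * χ, ((mem_LL K).1 hz).2,
    Bj.mul_ball D hB (D.C12_ball_t_inv_pow a), ((mem_LL K).1 hz').2,
    Bj.mul_ball D hB' (D.C12_ball_t_inv_pow a'), ?_, ?_, ?_⟩
  · have h1 : D.t⁻¹ ^ a * z * (D.t⁻¹ ^ a' * z') / D.pi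
        = D.t⁻¹ ^ a * D.t⁻¹ ^ a' * (z * z' / D.pi) := by ring
    rw [h1]
    exact ((hτ.pow a).mul (hτ.pow a')).mul hχ1
  · exact mul_ne_zero (mul_ne_zero (pow_ne_zero _ hτ0) (pow_ne_zero _ hτ0)) hχ0
  · have h1 := congrArg HahnSeries.order hχ2
    rw [HahnSeries.order_mul hφ0 hφ0', HahnSeries.order_mul D.c0_ne hχ0] at h1
    rw [HahnSeries.order_mul (mul_ne_zero (pow_ne_zero _ hτ0) (pow_ne_zero _ hτ0)) hχ0,
      HahnSeries.order_mul (pow_ne_zero _ hτ0) (pow_ne_zero _ hτ0), C12_order_pow hτ0,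
      C12_order_pow hτ0, C12_order_inv D.τm_ne, D.oτm]
    linarith

end Dat

end Fermat.Agent.CAR.P1
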