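import Fermat.Agent.CAR.P1.Deg

/-!
# CAR / P1 : the numerical heart of the count   (package P1-C)
-/

set_option autoImplicit false

noncomputable section

namespace Fermat.Agent.CAR.P1

variable {k : Type*} [Field k]

/-- **The count, abstract form.**
PROOF.  Put `o = order c0`.
(1) `DegTh.powS` + `HasChi.le` + `HasChi.sm` (`T.chiR`, `IsFrac.Rs`): `n xI - (n-1) χ ≤ χ - h`, i.e. `n xI ≤ n χ - h`;
    in the same way (`order (H*H) = -2h`, `HahnSeries.order_mul`) `n x₀ ≤ n χ - 2 h`.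
(2) for `0 < j < e`: `T.mul` + `HasChi.le` + `HasChi.sm`: `x j + x (e-j) - χ ≤ x 0 + o`; with `hc`:
    `(x j - c j) + (x (e-j) - c (e-j)) ≤ x 0 + χ`.        (*)
(3) `∑_{j ∈ Ico 1 e} (x j - c j) = ∑_{j ∈ Ico 1 e} (x (e-j) - c (e-j))` (`Finset.sum_bij`/reflection `j ↦ e - j`), so
    `2 ∑ ≤ (e-1) (x 0 + χ)`, with equality only if (*) is an equality for every `j`.
(4) `2 n χ₂ ≤ 2 n χ + 2 n xI + 2 n x₀ + n (e-1)(x₀ + χ) ≤ 2 (e+2) (n χ - h) = 2 n χ₂`.  Hence all inequalities are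
    equalities (`n > 0`); in particular (*) for `j = 1`, which forces `x 1 + x (e-1) - χ = x 0 + o` and
    `c 1 + c (e-1) = o`.   `HasChi.eq_of_le` concludes.
Hint for (4): isolate the term `j = 1` of the sum: `S := ∑ ((x 0 + χ) - ((x j - c j) + (x (e-j) - c (e-j)))) ≥` its
term at `j = 1` `≥ 0` (`Finset.single_le_sum`) and show `n * S ≤ 0`. -/
theorem cnt_abs {R : Subring (LaurentSeries k)} {χ : ℤ} (T : DegTh R χ) {e n h : ℕ} (he : 2 ≤ e)
    (hn : 0 < n) {Iz : Submodule k (LaurentSeries k)} {N : ℕ → Submodule k (LaurentSeries k)}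
    {c0 H : LaurentSeries k} (hc0 : c0 ≠ 0) (hH : H ≠ 0) (oH : H.order = -(h : ℤ))
    (fI : IsFrac R Iz) (fN : ∀ j < e, IsFrac R (N j))
    (hI : powS Iz n ≤ sm H (Rs R)) (hN0 : powS (N 0) n ≤ sm (H * H) (Rs R))
    (hmul : ∀ j, 0 < j → j < e → mulS (N j) (N (e - j)) ≤ sm c0 (N 0))
    {xI : ℤ} {x c : ℕ → ℤ} (cI : HasChi Iz xI) (cN : ∀ j < e, HasChi (N j) (x j))
    (hc : ∀ j, 0 < j → j < e → c0.order ≤ c j + c (e - j))
    {χ₂ : ℤ} (hcount : χ₂ ≤ χ + xI + x 0 + ∑ j ∈ Finset.Ico 1 e, (x j - c j))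
    (num : (n : ℤ) * χ₂ = (e + 2) * (n * χ - h)) :
    mulS (N 1) (N (e - 1)) = sm c0 (N 0) ∧ c 1 + c (e - 1) = c0.order := by
  have he0 : 0 < e := by omega
  have hnZ : (0 : ℤ) < n := by exact_mod_cast hn
  have heZ : (2 : ℤ) ≤ e := by exact_mod_cast he
  -- (1)
  have hA : (n : ℤ) * xI ≤ n * χ - h := by
    have h1 := HasChi.le hI (T.powS fI cI hn) (T.chiR.sm hH)
    rw [oH] at h1
    linarith
  have hB : (n : ℤ) * x 0 ≤ n * χ - 2 * h := by
    have h1 := HasChi.le hN0 (T.powS (fN 0 he0) (cN 0 he0) hn) (T.chiR.sm (mul_ne_zero hH hH))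
    rw [HahnSeries.order_mul hH hH, oH] at h1
    linarith
  -- (2)
  have hchiM : ∀ j, 0 < j → j < e → HasChi (mulS (N j) (N (e - j))) (x j + x (e - j) - χ) :=
    fun j hj hje => T.mul _ _ _ _ (fN j hje) (fN (e - j) (by omega)) (cN j hje) (cN (e - j) (by omega))
  have hchiS : HasChi (sm c0 (N 0)) (x 0 + c0.order) := (cN 0 he0).sm hc0
  have hC : ∀ j, 0 < j → j < e → x j + x (e - j) - χ ≤ x 0 + c0.order :=
    fun j hj hje => HasChi.le (hmul j hj hje) (hchiM j hj hje) hchiS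
  set D : ℕ → ℤ := fun j => (x 0 + χ) - ((x j - c j) + (x (e - j) - c (e - j))) with hD
  have hD0 : ∀ j ∈ Finset.Ico 1 e, 0 ≤ D j := by
    intro j hj
    rw [Finset.mem_Ico] at hj
    have h1 := hC j (by omega) hj.2
    have h2 := hc j (by omega) hj.2
    simp only [hD]
    linarith
  -- (3)
  have hrefl : ∑ j ∈ Finset.Ico 1 e, (x (e - j) - c (e - j)) = ∑ j ∈ Finset.Ico 1 e, (x j - c j) := by
    have h1 := Finset.sum_Ico_reflect (fun j => x j - c j) 1 (m := e) (n := e) (Nat.le_succ e)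
    simpa using h1
  have hS : ∑ j ∈ Finset.Ico 1 e, D j =
      ((e : ℤ) - 1) * (x 0 + χ) - 2 * ∑ j ∈ Finset.Ico 1 e, (x j - c j) := by
    simp only [hD]
    rw [Finset.sum_sub_distrib, Finset.sum_const,
      Finset.sum_add_distrib (f := fun j => x j - c j) (g := fun j => x (e - j) - c (e - j)), hrefl,
      Nat.card_Ico, nsmul_eq_mul, Nat.cast_sub (by omega : 1 ≤ e), Nat.cast_one]
    ring
  -- (4)
  have hnS : (n : ℤ) * ∑ j ∈ Finset.Ico 1 e, D j ≤ 0 := by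
    rw [hS]
    have hB' : ((e : ℤ) + 1) * ((n : ℤ) * x 0) ≤ ((e : ℤ) + 1) * (n * χ - 2 * h) :=
      mul_le_mul_of_nonneg_left hB (by linarith)
    have hcnt' : (n : ℤ) * χ₂ ≤ n * (χ + xI + x 0 + ∑ j ∈ Finset.Ico 1 e, (x j - c j)) :=
      mul_le_mul_of_nonneg_left hcount hnZ.le
    generalize ∑ j ∈ Finset.Ico 1 e, (x j - c j) = sg at hcnt' ⊢
    nlinarith [hA, hB', hcnt', num]
  have hS0 : ∑ j ∈ Finset.Ico 1 e, D j ≤ 0 := by
    by_contra hpos
    rw [not_le] at hpos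
    have := mul_pos hnZ hpos
    linarith
  have h1mem : 1 ∈ Finset.Ico 1 e := Finset.mem_Ico.2 ⟨le_rfl, by omega⟩
  have hD1 : D 1 ≤ 0 := (Finset.single_le_sum hD0 h1mem).trans hS0
  have hC1 := hC 1 one_pos (by omega)
  have hc1 := hc 1 one_pos (by omega)
  simp only [hD] at hD1
  have hx : x 1 + x (e - 1) - χ = x 0 + c0.order := by linarith
  refine ⟨HasChi.eq_of_le (hmul 1 one_pos (by omega)) (hchiM 1 one_pos (by omega)) (hx ▸ hchiS), ?_⟩
  linarith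

end Fermat.Agent.CAR.P1
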