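import Fermat.Agent.CAR.P1.Deg

/-!
# CAR / P1 : the numerical heart of the count, second half: `I_0 ^ n = (H)` and `N_0 ^ n = (H²)`

Same hypotheses as `cnt_abs` but only `1 ≤ e` (so `q = 2` is allowed).  All the inequalities of the count are equalities;
here we extract the two equalities `n xI = n χ - h`, `n x₀ = n χ - 2 h`.
-/

set_option autoImplicit false

noncomputable section

namespace Fermat.Agent.CAR.P1

variable {k : Type*} [Field k]

theorem cnt_abs_oo {R : Subring (LaurentSeries k)} {χ : ℤ} (T : DegTh R χ) {e n h : ℕ} (he : 1 ≤ e)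
    (hn : 0 < n) {Iz : Submodule k (LaurentSeries k)} {N : ℕ → Submodule k (LaurentSeries k)}
    {c0 H : LaurentSeries k} (hc0 : c0 ≠ 0) (hH : H ≠ 0) (oH : H.order = -(h : ℤ))
    (fI : IsFrac R Iz) (fN : ∀ j < e, IsFrac R (N j))
    (hI : powS Iz n ≤ sm H (Rs R)) (hN0 : powS (N 0) n ≤ sm (H * H) (Rs R))
    (hmul : ∀ j, 0 < j → j < e → mulS (N j) (N (e - j)) ≤ sm c0 (N 0))
    {xI : ℤ} {x c : ℕ → ℤ} (cI : HasChi Iz xI) (cN : ∀ j < e, HasChi (N j) (x j))
    (hc : ∀ j, 0 < j → j < e → c0.order ≤ c j + c (e - j))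
    {χ₂ : ℤ} (hcount : χ₂ ≤ χ + xI + x 0 + ∑ j ∈ Finset.Ico 1 e, (x j - c j))
    (num : (n : ℤ) * χ₂ = (e + 2) * (n * χ - h)) :
    powS Iz n = sm H (Rs R) ∧ powS (N 0) n = sm (H * H) (Rs R) := by
  have he0 : 0 < e := by omega
  have hnZ : (0 : ℤ) < n := by exact_mod_cast hn
  have heZ : (1 : ℤ) ≤ e := by exact_mod_cast he
  -- (1)
  have chiI := T.powS fI cI hn
  have chiN := T.powS (fN 0 he0) (cN 0 he0) hn
  have chiH := T.chiR.sm hH
  have chiHH := T.chiR.sm (mul_ne_zero hH hH)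
  rw [oH] at chiH
  rw [HahnSeries.order_mul hH hH, oH] at chiHH
  have hA' := HasChi.le hI chiI chiH
  have hB' := HasChi.le hN0 chiN chiHH
  have hA : (n : ℤ) * xI ≤ n * χ - h := by linarith
  have hB : (n : ℤ) * x 0 ≤ n * χ - 2 * h := by linarith
  -- (2)
  have hchiM : ∀ j, 0 < j → j < e → HasChi (mulS (N j) (N (e - j))) (x j + x (e - j) - χ) :=
    fun j hj hje => T.mul _ _ _ _ (fN j hje) (fN (e - j) (by omega)) (cN j hje) (cN (e - j) (by omega))
  have hchiS : HasChi (sm c0 (N 0)) (x 0 + c0.order) := (cN 0 he0).sm hc0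
  have hC : ∀ j, 0 < j → j < e → x j + x (e - j) - χ ≤ x 0 + c0.order :=
    fun j hj hje => HasChi.le (hmul j hj hje) (hchiM j hj hje) hchiS
  set D : ℕ → ℤ := fun j => (x 0 + χ) - ((x j - c j) + (x (e - j) - c (e - j))) with hD
  have hD0 : ∀ j ∈ Finset.Ico 1 e, 0 ≤ D j := by
    intro j hj
    rw [Finset.mem_Ico] at hj
    have h1 := hC j (by omega) hj.2
    have h2 := hc j (by omega) hj.2
    simp only [hD]
    linarith
  -- (3)
  have hrefl : ∑ j ∈ Finset.Ico 1 e, (x (e - j) - c (e - j)) = ∑ j ∈ Finset.Ico 1 e, (x j - c j) := by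
    have h1 := Finset.sum_Ico_reflect (fun j => x j - c j) 1 (m := e) (n := e) (Nat.le_succ e)
    simpa using h1
  have hS : ∑ j ∈ Finset.Ico 1 e, D j =
      ((e : ℤ) - 1) * (x 0 + χ) - 2 * ∑ j ∈ Finset.Ico 1 e, (x j - c j) := by
    simp only [hD]
    rw [Finset.sum_sub_distrib, Finset.sum_const,
      Finset.sum_add_distrib (f := fun j => x j - c j) (g := fun j => x (e - j) - c (e - j)), hrefl,
      Nat.card_Ico, nsmul_eq_mul, Nat.cast_sub (by omega : 1 ≤ e), Nat.cast_one]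
    ring
  have hSnn : 0 ≤ ∑ j ∈ Finset.Ico 1 e, D j := Finset.sum_nonneg hD0
  -- (4)
  have hcnt' : (n : ℤ) * χ₂ ≤ n * (χ + xI + x 0 + ∑ j ∈ Finset.Ico 1 e, (x j - c j)) :=
    mul_le_mul_of_nonneg_left hcount hnZ.le
  rw [hS] at hSnn
  generalize ∑ j ∈ Finset.Ico 1 e, (x j - c j) = sg at hcnt' hSnn
  -- `2 sg ≤ (e-1)(x₀+χ)`
  have h2 : 2 * ((n : ℤ) * sg) ≤ ((e : ℤ) - 1) * ((n : ℤ) * x 0 + n * χ) := by
    have := mul_le_mul_of_nonneg_left (sub_nonneg.1 hSnn) hnZ.le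
    nlinarith [this]
  -- slack variables
  obtain ⟨sA, hsA⟩ : ∃ sA : ℤ, sA = n * χ - h - n * xI := ⟨_, rfl⟩
  obtain ⟨sB, hsB⟩ : ∃ sB : ℤ, sB = n * χ - 2 * h - n * x 0 := ⟨_, rfl⟩
  have hsA0 : 0 ≤ sA := by rw [hsA]; linarith
  have hsB0 : 0 ≤ sB := by rw [hsB]; linarith
  have key : 2 * sA + ((e : ℤ) + 1) * sB ≤ 0 := by
    have e1 : (n : ℤ) * xI = n * χ - h - sA := by rw [hsA]; ring
    have e2 : (n : ℤ) * x 0 = n * χ - 2 * h - sB := by rw [hsB]; ring
    have h3 : 2 * ((n : ℤ) * χ₂) ≤ 2 * (n * χ) + 2 * (n * xI) + 2 * (n * x 0) + 2 * (n * sg) := by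
      nlinarith [hcnt']
    rw [num] at h3
    rw [e2] at h2
    rw [e1, e2] at h3
    nlinarith [h2, h3]
  have hsB' : 0 ≤ ((e : ℤ) + 1) * sB := mul_nonneg (by linarith) hsB0
  have hsA1 : sA = 0 := by linarith
  have hsB1 : sB = 0 := by
    have h4 : ((e : ℤ) + 1) * sB = 0 := by linarith
    rcases mul_eq_zero.1 h4 with h5 | h5
    · linarith
    · exact h5
  constructor
  · refine HasChi.eq_of_le hI chiI ?_
    have : (n : ℤ) * (xI - χ) + χ = χ + -(h : ℤ) := by rw [hsA] at hsA1; linarith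
    first
      | exact this ▸ chiH
      | (convert chiH using 1; linarith)
  · refine HasChi.eq_of_le hN0 chiN ?_
    have : (n : ℤ) * (x 0 - χ) + χ = χ + (-(h : ℤ) + -(h : ℤ)) := by rw [hsB] at hsB1; linarith
    first
      | exact this ▸ chiHH
      | (convert chiHH using 1; linarith)

end Fermat.Agent.CAR.P1
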