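import Fermat.Agent.CAR.P1.Count
import Fermat.Agent.CAR.P1.CntOo

/-!
# CAR / P1 : the count, export (E-oo): `I_0 ^ n = (H)` and local generators of `p_∞` at the triple points

* `Dat.main_oo`   : `powS D.Iz D.n = sm D.H (Rs D.R)`, `powS (D.Nj 0) D.n = sm (D.H * D.H) (Rs D.R)`.
* `Dat.export_oo` : for a prime `P ⊇ p_∞ + p_m + p_0` of `B = B_t`: `ν β = y₀ π ^ n`, `y₀ ∉ P`, `|ν| = (|π|, 1, 1)`
  (`=` the hypotheses of `CAR.NS.genOn_of_dvd` for the branch `∞`, `N = n`).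
-/

set_option autoImplicit false

open Polynomial

noncomputable section

namespace Fermat.Agent.CAR.P1

open Fermat.Agent.GAL.KL Fermat.Agent.GAL.KLC Fermat.Agent.TOR.T1

/-- in a product of `card s` factors `≤ γ` which equals `γ ^ card s` every factor is `γ`. -/
theorem MainOo_eq_of_prod {Γ₀ ι : Type*} [LinearOrderedCommGroupWithZero Γ₀] [DecidableEq ι]
    (s : Finset ι) (f : ι → Γ₀) {γ : Γ₀} (hγ : γ ≠ 0) (h : ∀ i ∈ s, f i ≤ γ)
    (hp : ∏ i ∈ s, f i = γ ^ s.card) {i₀ : ι} (hi : i₀ ∈ s) : f i₀ = γ := by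
  refine le_antisymm (h i₀ hi) (not_lt.1 fun hlt => ?_)
  have h1 : ∏ i ∈ s.erase i₀, f i ≤ γ ^ (s.erase i₀).card := by
    have := Finset.prod_le_prod' (s := s.erase i₀) (f := f) (g := fun _ => γ)
      (fun i hi' => h i (Finset.mem_of_mem_erase hi'))
    rwa [Finset.prod_const] at this
  have h2 : ∏ i ∈ s, f i = f i₀ * ∏ i ∈ s.erase i₀, f i := (Finset.mul_prod_erase s f hi).symm
  have h3 : (s.erase i₀).card + 1 = s.card := Finset.card_erase_add_one hi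
  have h4 : f i₀ * ∏ i ∈ s.erase i₀, f i < γ ^ s.card := by
    calc f i₀ * ∏ i ∈ s.erase i₀, f i ≤ f i₀ * γ ^ (s.erase i₀).card := mul_le_mul_right h1 _
      _ < γ * γ ^ (s.erase i₀).card :=
        mul_lt_mul_of_pos_right hlt (zero_lt_iff.2 (pow_ne_zero _ hγ))
      _ = γ ^ s.card := by rw [← pow_succ', h3]
  rw [← h2, hp] at h4
  exact lt_irrefl _ h4

variable {K E k Γ₀ : Type*} [Field K] [Field E] [Algebra K E] [Field k]
  [LinearOrderedCommGroupWithZero Γ₀] (D : Dat K E k Γ₀)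

namespace Dat

/-- **(E-oo)** two more equalities forced by the count. -/
theorem main_oo : powS D.Iz D.n = sm D.H (Rs D.R) ∧
    powS (D.Nj 0) D.n = sm (D.H * D.H) (Rs D.R) := by
  classical
  have hex : ∀ j : ℕ, ∃ c : ℤ, 0 < j → j < D.e →
      (∀ a : ℕ, D.Sj j a ≤ Tr (D.Nj j) ((a : ℤ) * D.nm - c)) ∧
      ∃ (a : ℕ) (z : E) (φ : LaurentSeries k), z ∈ LL K D.t a ∧ D.Bj j z ∧
        Rd D.ρm (z / D.ν₀ ^ j) φ ∧ φ ≠ 0 ∧ φ.order + a * D.nm = c := by
    intro j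
    by_cases h : 0 < j ∧ j < D.e
    · obtain ⟨c, hc⟩ := D.exists_cj h.1 h.2
      exact ⟨c, fun _ _ => hc⟩
    · exact ⟨0, fun h1 h2 => absurd ⟨h1, h2⟩ h⟩
  choose c hc using hex
  obtain ⟨xI, cI⟩ := D.deg.ex _ D.isFrac_Iz
  have hx : ∀ j : ℕ, ∃ x : ℤ, j < D.e → HasChi (D.Nj j) x := by
    intro j
    by_cases h : j < D.e
    · obtain ⟨x, hx⟩ := D.deg.ex _ (D.isFrac_Nj h)
      exact ⟨x, fun _ => hx⟩
    · exact ⟨0, fun h1 => absurd h1 h⟩
  choose x cN using hx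
  have hcount := D.count cI cN (fun j h0 h1 => (hc j h0 h1).1)
  have hcc : ∀ j, 0 < j → j < D.e → D.c0.order ≤ c j + c (D.e - j) := by
    intro j h0 h1
    obtain ⟨-, a, z, φ, hz, hB, hR, hφ, e1⟩ := hc j h0 h1
    obtain ⟨-, a', z', φ', hz', hB', hR', hφ', e2⟩ := hc (D.e - j) (by omega) (by omega)
    have := D.order_pairing (by omega : j + (D.e - j) = D.e) hz hz' hB hB' hR hR' hφ hφ'
    rwa [e1, e2] at this
  exact cnt_abs_oo D.deg (by have := D.he; omega) D.n_pos D.c0_ne D.H_ne D.oH D.isFrac_Iz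
    (fun j hj => D.isFrac_Nj hj) D.Iz_pow_le D.N0_pow_le (fun j h0 h1 => D.Nj_mul_le h0 h1) cI cN hcc
    hcount D.num

/-- an element of `B_t ∩ p_∞`. -/
def Goo (z : E) : Prop := IsInt K D.t z ∧ D.vo z < 1 ∧ D.vm z ≤ 1 ∧ D.vz z ≤ 1

/-- reductions at `0` of products of `r` elements of `B_t ∩ p_∞`. -/
def PrS (r : ℕ) : Set (LaurentSeries k) :=
  {φ | ∃ ν : Fin r → E, (∀ i, D.Goo (ν i)) ∧ Rd D.ρz (∏ i, ν i) φ}

theorem powS_Iz_le {r : ℕ} (hr : 0 < r) : powS D.Iz r ≤ Submodule.span k (D.PrS r) := by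
  induction r, hr using Nat.le_induction with
  | base =>
    intro φ hφ
    obtain ⟨z, hz, ho, hm, hrd⟩ := D.mem_Iz.1 (show φ ∈ D.Iz from hφ)
    refine Submodule.subset_span ⟨fun _ => z, fun _ => ⟨hz, ho, hm, hrd.le_one⟩, ?_⟩
    simpa using hrd
  | succ r hr ih =>
    rw [powS_succ _ hr, mulS_le]
    intro ξ hξ η hη
    obtain ⟨z, hz, ho, hm, hrd⟩ := D.mem_Iz.1 hη
    have hξ' := ih hξ
    clear hξ
    induction hξ' using Submodule.span_induction with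
    | mem x hx =>
      obtain ⟨ν, hν, hνr⟩ := hx
      refine Submodule.subset_span ⟨Fin.cons z ν, fun i => ?_, ?_⟩
      · refine Fin.cases ?_ (fun j => ?_) i
        · rw [Fin.cons_zero]; exact ⟨hz, ho, hm, hrd.le_one⟩
        · rw [Fin.cons_succ]; exact hν j
      · rw [Fin.prod_univ_succ]
        simp only [Fin.cons_zero, Fin.cons_succ]
        rw [mul_comm x η]
        exact hrd.mul hνr
    | zero => rw [zero_mul]; exact Submodule.zero_mem _
    | add x y _ _ hx hy => rw [add_mul]; exact Submodule.add_mem _ hx hy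
    | smul a x _ hx => rw [DegB_smul_mul]; exact Submodule.smul_mem _ _ hx

theorem isInt_prod {ι : Type*} (s : Finset ι) (ν : ι → E) {u : E} (h : ∀ i ∈ s, IsInt K u (ν i)) :
    IsInt K u (∏ i ∈ s, ν i) :=
  Finset.prod_induction _ (fun z => IsInt K u z) (fun _ _ ha hb => ha.mul hb) IsInt.one h

theorem val_prod_le_one {ι : Type*} (v : Valuation E Γ₀) (s : Finset ι) (ν : ι → E)
    (h : ∀ i ∈ s, v (ν i) ≤ 1) : v (∏ i ∈ s, ν i) ≤ 1 := by
  rw [map_prod]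
  exact Finset.prod_le_one' h

theorem vm_Xo : D.vm D.Xo = 1 := Rd.val_eq_one D.kerm D.Xo_m D.H_ne

theorem vz_Xo : D.vz D.Xo = 1 := Rd.val_eq_one D.kerz D.Xo_z D.H_ne

theorem Xo_ne : D.Xo ≠ 0 := by
  intro h
  have := D.vm_Xo
  rw [h, map_zero] at this
  exact zero_ne_one this

/-- `∏ ν_i / X_∞ ∈ B_t`. -/
theorem prod_div_Xo (ν : Fin D.n → E) (hν : ∀ i, D.Goo (ν i)) :
    IsInt K D.t ((∏ i, ν i) / D.Xo) ∧ D.Ball ((∏ i, ν i) / D.Xo) := by
  refine ⟨?_, ?_, ?_, ?_⟩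
  · rw [div_eq_mul_inv]
    exact (isInt_prod _ ν fun i _ => (hν i).1).mul D.Xo_inv
  · rw [map_div₀, D.Xo_o, map_prod]
    have h1 : ∏ i, D.vo (ν i) ≤ D.vo (algebraMap K E D.ϖ) ^ D.n := by
      have := Finset.prod_le_prod' (s := (Finset.univ : Finset (Fin D.n)))
        (f := fun i => D.vo (ν i)) (g := fun _ => D.vo (algebraMap K E D.ϖ))
        (fun i _ => D.disco _ (hν i).2.1)
      rwa [Finset.prod_const, Finset.card_univ, Fintype.card_fin] at this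
    exact div_le_one_of_le₀ h1 zero_le
  · rw [map_div₀, D.vm_Xo, div_one]
    exact val_prod_le_one _ _ _ fun i _ => (hν i).2.2.1
  · rw [map_div₀, D.vz_Xo, div_one]
    exact val_prod_le_one _ _ _ fun i _ => (hν i).2.2.2

/-- **Export (E-oo), chart `t`.**  At a prime containing the three vertical primes, `p_∞` has a local generator. -/
theorem export_oo (B : Subring E) (hB : ∀ z, z ∈ B ↔ IsInt K D.t z ∧ D.Ball z)
    (P : Ideal B) (hP : P.IsPrime) (ho : ∀ z : B, D.vo (z : E) < 1 → z ∈ P)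
    (hm : ∀ z : B, D.vm (z : E) < 1 → z ∈ P) (hz : ∀ z : B, D.vz (z : E) < 1 → z ∈ P) :
    ∃ ν β y₀ : B, y₀ ∉ P ∧ (ν : E) * β = y₀ * D.pi ^ D.n ∧ D.vo (ν : E) = D.vo D.pi ∧
      D.vm (ν : E) = 1 ∧ D.vz (ν : E) = 1 := by
  classical
  -- a pure product which is not in `P`
  have key : ∃ ν : Fin D.n → E, (∀ i, D.Goo (ν i)) ∧
      ∀ h : (∏ i, ν i) / D.Xo ∈ B, (⟨_, h⟩ : B) ∉ P := by
    by_contra hcon
    push Not at hcon
    let W : Submodule k (LaurentSeries k) :=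
      { carrier := {φ | ∃ y : B, y ∈ P ∧ Rd D.ρz (y : E) (φ / D.H)}
        add_mem' := by
          rintro a b ⟨y, hy, hya⟩ ⟨y', hy', hyb⟩
          exact ⟨y + y', P.add_mem hy hy', by rw [add_div]; exact hya.add hyb⟩
        zero_mem' := ⟨0, P.zero_mem, by rw [zero_div]; exact Rd.zero⟩
        smul_mem' := by
          rintro c a ⟨y, hy, hya⟩
          obtain ⟨a', hball, -, -, hrz⟩ := D.exists_const c
          refine ⟨⟨algebraMap K E a', (hB _).2 ⟨IsInt.algebraMap _, hball⟩⟩ * y,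
            P.mul_mem_left _ hy, ?_⟩
          rw [← HahnSeries.C_mul_eq_smul, mul_div_assoc]
          exact hrz.mul hya }
    have hW : D.PrS D.n ⊆ W := by
      rintro φ ⟨ν, hν, hrd⟩
      obtain ⟨h, hmem⟩ := hcon ν hν
      exact ⟨⟨_, h⟩, hmem, Rd.div' D.kerz hrd D.Xo_z D.H_ne⟩
    have hH : D.H ∈ powS D.Iz D.n := by
      rw [D.main_oo.1]
      have := mul_mem_sm (ξ := D.H) ((mem_Rs D.deg.C_mem).2 D.R.one_mem)
      rwa [mul_one] at this
    obtain ⟨y, hy, hrd⟩ := (Submodule.span_le.2 hW) (D.powS_Iz_le D.n_pos hH)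
    rw [div_self D.H_ne] at hrd
    have h1 : D.vz (((y - 1 : B) : B) : E) < 1 := Rd.sub_lt' D.kerz hrd Rd.one
    have h2 := hz _ h1
    have h3 : (1 : B) ∈ P := by
      have := P.sub_mem hy h2
      rwa [sub_sub_cancel] at this
    exact hP.ne_top ((Ideal.eq_top_iff_one P).2 h3)
  obtain ⟨ν, hν, hnot⟩ := key
  have hyB := (hB _).2 (D.prod_div_Xo ν hν)
  have hyP := hnot hyB
  set y : E := (∏ i, ν i) / D.Xo with hy
  have hX := D.Xo_ne
  have hpi := D.pi_ne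
  -- `y` is a unit for the three valuations
  have hyo : D.vo y = 1 := le_antisymm (D.prod_div_Xo ν hν).2.1
    (not_lt.1 fun h => hyP (ho ⟨y, hyB⟩ h))
  have hym : D.vm y = 1 := le_antisymm (D.prod_div_Xo ν hν).2.2.1
    (not_lt.1 fun h => hyP (hm ⟨y, hyB⟩ h))
  have hyz : D.vz y = 1 := le_antisymm (D.prod_div_Xo ν hν).2.2.2
    (not_lt.1 fun h => hyP (hz ⟨y, hyB⟩ h))
  have hprod : ∏ i, ν i = y * D.Xo := by rw [hy, div_mul_cancel₀ _ hX]
  let i₀ : Fin D.n := ⟨0, D.n_pos⟩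
  have hcard : (Finset.univ : Finset (Fin D.n)).card = D.n := by
    rw [Finset.card_univ, Fintype.card_fin]
  have hvo : D.vo (ν i₀) = D.vo D.pi := by
    refine MainOo_eq_of_prod Finset.univ (fun i => D.vo (ν i))
      ((Valuation.ne_zero_iff _).2 hpi) (fun i _ => D.disco _ (hν i).2.1) ?_ (Finset.mem_univ i₀)
    rw [← map_prod, hprod, map_mul, hyo, one_mul, D.Xo_o, hcard]
    rfl
  have hvm : D.vm (ν i₀) = 1 := by
    refine MainOo_eq_of_prod Finset.univ (fun i => D.vm (ν i)) one_ne_zero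
      (fun i _ => (hν i).2.2.1) ?_ (Finset.mem_univ i₀)
    rw [← map_prod, hprod, map_mul, hym, one_mul, D.vm_Xo, one_pow]
  have hvz : D.vz (ν i₀) = 1 := by
    refine MainOo_eq_of_prod Finset.univ (fun i => D.vz (ν i)) one_ne_zero
      (fun i _ => (hν i).2.2.2) ?_ (Finset.mem_univ i₀)
    rw [← map_prod, hprod, map_mul, hyz, one_mul, D.vz_Xo, one_pow]
  -- the cofactor
  have hνB : ν i₀ ∈ B := (hB _).2 ⟨(hν i₀).1, (hν i₀).2.1.le, (hν i₀).2.2.1, (hν i₀).2.2.2⟩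
  have hpile : D.vo D.pi ≤ 1 := D.vo_pi_lt.le
  have hβB : (∏ i ∈ Finset.univ.erase i₀, ν i) * (D.pi ^ D.n / D.Xo) ∈ B := by
    refine (hB _).2 ⟨?_, ?_, ?_, ?_⟩
    · refine (isInt_prod _ ν fun i _ => (hν i).1).mul ?_
      rw [div_eq_mul_inv]
      exact ((D.isInt_pi _).pow _).mul D.Xo_inv
    · rw [map_mul, map_div₀, map_pow, D.Xo_o]
      have : D.vo D.pi ^ D.n / D.vo (algebraMap K E D.ϖ) ^ D.n = 1 :=
        div_self (pow_ne_zero _ ((Valuation.ne_zero_iff _).2 hpi))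
      rw [this, mul_one]
      exact val_prod_le_one _ _ _ fun i _ => (hν i).2.1.le
    · rw [map_mul, map_div₀, map_pow, D.vm_Xo, div_one, D.vm_pi]
      exact mul_le_one' (val_prod_le_one _ _ _ fun i _ => (hν i).2.2.1) (pow_le_one' hpile _)
    · rw [map_mul, map_div₀, map_pow, D.vz_Xo, div_one, D.vz_pi]
      exact mul_le_one' (val_prod_le_one _ _ _ fun i _ => (hν i).2.2.2) (pow_le_one' hpile _)
  refine ⟨⟨_, hνB⟩, ⟨_, hβB⟩, ⟨y, hyB⟩, hyP, ?_, hvo, hvm, hvz⟩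
  show ν i₀ * ((∏ i ∈ Finset.univ.erase i₀, ν i) * (D.pi ^ D.n / D.Xo)) = y * D.pi ^ D.n
  rw [← mul_assoc, Finset.mul_prod_erase _ _ (Finset.mem_univ i₀), hy]
  field_simp

end Dat

end Fermat.Agent.CAR.P1
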