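import Fermat.Agent.CAR.RP.Dim
import Fermat.Agent.CAR.BK.Red
import Fermat.Agent.TOR.T1.Basic

/-!
# CAR / P1 : the three hypotheses `intm'`, `surj'`, `uniq` of `P1.Dat.export_inv` (the point at infinity of `C_md`)

In BK language: `H : ON.Lvl2`, `X : T1.XDat`, `Ci : BK.ChartK .. x⁻¹ u ξ⁻¹` (`u = t⁻¹`), `τm = ξ ^ (1 + 1)`.
-/

set_option autoImplicit false

open Polynomial

noncomputable section

namespace Fermat.Agent.CAR.P1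

open Fermat.Agent.GAL Fermat.Agent.GAL.KL Fermat.Agent.GAL.KLC Fermat.Agent.TOR.T1 Fermat.Agent.CAR.ON
  Fermat.Agent.CAR.BK Fermat.Agent.CAR.RP

section Series

variable {k L : Type*} [Field k] [Field L] [Algebra k L]

/-- a polynomial in `η` is integral over `k[η ^ N]`. -/
theorem uniq_isInt_aeval {η : L} {N : ℕ} (hN : 0 < N) (r : k[X]) : IsInt k (η ^ N) (aeval η r) := by
  have h1 : IsInt k (η ^ N) (η ^ N) := by
    have := IsInt.aeval (L := k) (t := η ^ N) (X : k[X])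
    rwa [aeval_X] at this
  have h2 : IsInt k (η ^ N) η := IsInt.of_pow hN h1
  rw [aeval_eq_sum_range]
  refine IsInt.sum _ _ fun i _ => ?_
  rw [Algebra.smul_def]
  exact (IsInt.algebraMap _).mul (h2.pow i)

/-- integrality over `k[η]` implies integrality over `k[η ^ N]`, `N > 0`. -/
theorem isInt_pow_of_isInt {η φ : L} {N : ℕ} (hN : 0 < N) (h : IsInt k η φ) : IsInt k (η ^ N) φ :=
  closed_isIntegralElem_trans _ ((aeval η : k[X] →ₐ[k] L) : k[X] →+* L)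
    (fun r => uniq_isInt_aeval hN r) h

theorem isInt_pow_iff {η φ : L} {N : ℕ} (hN : 0 < N) : IsInt k (η ^ N) φ ↔ IsInt k η φ :=
  ⟨isInt_of_isInt_pow N, isInt_pow_of_isInt hN⟩

/-- the form used for `τm = ξ ^ (1 + 1)`. -/
theorem isInt_sq_inv_iff {ξ φ : L} : IsInt k (ξ ^ (1 + 1))⁻¹ φ ↔ IsInt k ξ⁻¹ φ := by
  rw [← inv_pow]
  exact isInt_pow_iff (by norm_num)

end Series

section Abs

variable {K F k Γ₀ : Type*} [Field K] [Field F] [Algebra K F] [Field k]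
  [LinearOrderedCommGroupWithZero Γ₀] {v : Valuation F Γ₀} {ρ : v.integer →+* LaurentSeries k}

/-- **unique pole**, in the form needed at the point at infinity: an element of the residue field which is integral over
`k[ξ⁻¹]` and vanishes at `Q = 0` has a power divisible by `ξ⁻²` in the integral closure of `k[ξ⁻¹]`. -/
theorem uniq_abs (hρ : IsRed K v ρ) {x x' : F} (hx : x ∈ v.integer) (hx' : x' ∈ v.integer)
    {m : ℕ} (hm : 0 < m) (hxo : (ρ ⟨x, hx⟩).order = -(m : ℤ))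
    (hxo' : (ρ ⟨x', hx'⟩).order = -(m : ℤ) + 1)
    (hSp : Spans K x (fun i : Fin m => x' ^ (i : ℕ))) {φ : LaurentSeries k}
    (hF : φ ∈ CTV.Fbar hρ) (hφ : IsInt k (ρ ⟨x, hx⟩)⁻¹ φ) (h0 : ∀ i : ℤ, i ≤ 0 → φ.coeff i = 0) :
    ∃ N : ℕ, IsInt k (ρ ⟨x, hx⟩)⁻¹ (φ ^ N * (ρ ⟨x, hx⟩) ^ (1 + 1)) := by
  set ξ := ρ ⟨x, hx⟩ with hξ
  have hξ0 : ξ ≠ 0 := by
    intro h
    rw [h, HahnSeries.order_zero] at hxo
    omega
  by_cases hφ0 : φ = 0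
  · exact ⟨1, by rw [hφ0, pow_one, zero_mul]; exact IsInt.zero⟩
  have hord : 1 ≤ φ.order := by
    by_contra hlt
    exact hφ0 (HahnSeries.coeff_order_eq_zero.1 (h0 _ (by omega)))
  obtain ⟨m₀, hm₀⟩ := IsInt.shift hξ0 hφ
  set D := m₀ + 1 with hD
  have hr : IsInt k ξ (ξ ^ D * φ) := hm₀ D (by omega)
  have hξF : ξ ∈ CTV.Fbar hρ := CTV.rho_mem_Fbar hρ _
  set N := 2 * m with hN
  have hrR : (ξ ^ D * φ) ^ N ∈ RR (CTV.Fbar hρ) ξ :=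
    (RR (CTV.Fbar hρ) ξ).pow_mem ⟨(CTV.Fbar hρ).mul_mem ((CTV.Fbar hρ).pow_mem hξF D) hF, hr⟩ N
  have hDN : 2 ≤ D * N := by
    have : 1 ≤ D := by omega
    have : 2 ≤ N := by omega
    nlinarith
  set a := D * N - 2 with ha
  have hr0 : (ξ ^ D * φ) ^ N ≠ 0 := pow_ne_zero _ (mul_ne_zero (pow_ne_zero _ hξ0) hφ0)
  have hordr : ((ξ ^ D * φ) ^ N).order = N * (D * (-(m : ℤ)) + φ.order) := by
    rw [HahnSeries.order_pow, HahnSeries.order_mul (pow_ne_zero _ hξ0) hφ0, HahnSeries.order_pow, hxo]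
    simp only [nsmul_eq_mul]
  have hc : ∀ n : ℤ, n < -((a * m : ℕ) : ℤ) → ((ξ ^ D * φ) ^ N).coeff n = 0 := by
    intro n hn
    refine HahnSeries.coeff_eq_zero_of_lt_order ?_
    rw [hordr]
    have h1 : ((a * m : ℕ) : ℤ) = ((D : ℤ) * N - 2) * m := by
      rw [ha]
      push_cast [Nat.cast_sub hDN]
      ring
    rw [h1] at hn
    have h2 : (N : ℤ) = 2 * m := by rw [hN]; push_cast; ring
    have h3 : (0 : ℤ) ≤ N := by positivity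
    nlinarith
  have key := isInt_inv_of_coeff hρ hx hx' hm hxo hxo' hSp a hrR hc
  refine ⟨N, ?_⟩
  have heq : ξ⁻¹ ^ a * (ξ ^ D * φ) ^ N = φ ^ N * ξ ^ (1 + 1) := by
    have h1 : ξ ^ (D * N) = ξ ^ a * ξ ^ (1 + 1) := by
      rw [← pow_add]
      congr 1
      omega
    rw [mul_pow, ← pow_mul, h1, inv_pow]
    field_simp
  rw [← heq]
  exact key

end Abs

section BKform

variable {K F₀ F k Γ' Γ₀ I : Type*} [Field K] [Field F₀] [Field F] [Algebra K F₀]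
  [Algebra K F] [Field k] [LinearOrderedCommGroupWithZero Γ'] [LinearOrderedCommGroupWithZero Γ₀]
  {v₀ : Valuation F₀ Γ'} {ρ₀ : v₀.integer →+* LaurentSeries k}
  {v : Idx I → Valuation F Γ₀} {ρ : ∀ i, (v i).integer →+* LaurentSeries k}
  {α β γ : F₀ →ₐ[K] F} {E₀ : Subfield F₀} {E : Subfield F} {q : ℕ} [NeZero q]
  {x x' : F₀} {u : F} {ξ ξ' : LaurentSeries k} {m : ℕ}

/-- `intm'`. -/
theorem intm_inf (Ci : ChartK K ρ₀ ρ α γ E₀ E q x⁻¹ u ξ⁻¹) (i₀ : I) {z : F} {φ : LaurentSeries k}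
    (hz : IsInt K u z) (hv : ∀ j, v j z ≤ 1) (hr : Rd (ρ (md i₀)) z φ) :
    IsInt k (ξ ^ (1 + 1))⁻¹ φ :=
  isInt_sq_inv_iff.2 (Ci.ir z (md i₀) φ hz hv hr)

/-- `surj'`. -/
theorem surj_inf (H : Lvl2 K ρ₀ v ρ α β γ q) (Ci : ChartK K ρ₀ ρ α γ E₀ E q x⁻¹ u ξ⁻¹) (i₀ : I)
    {z : F} (hzE : z ∈ E) {φ : LaurentSeries k} (hr : Rd (ρ (md i₀)) z φ)
    (hφ : IsInt k (ξ ^ (1 + 1))⁻¹ φ) :
    ∃ b ∈ E, IsInt K u b ∧ (∀ j, v j b ≤ 1) ∧ Rd (ρ (md i₀)) b φ := by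
  have h1 : φ ∈ RR (CTV.Fbar H.red₀) ξ⁻¹ :=
    ⟨(mem_Fbar_iff H.red₀).2 (Ci.res z hzE (md i₀) φ hr), isInt_sq_inv_iff.1 hφ⟩
  obtain ⟨b, hb⟩ := rK_surj H Ci i₀ (md ()) h1
  refine ⟨((b : E) : F), (b : E).2, b.2.1, b.2.2, ?_⟩
  have := rd_rK (K := K) E ρ u i₀ (md ()) b
  rwa [hb] at this

/-- `uniq`. -/
theorem uniq_inf (H : Lvl2 K ρ₀ v ρ α β γ q) (X : XDat K ρ₀ x x' ξ ξ' m q)
    (Ci : ChartK K ρ₀ ρ α γ E₀ E q x⁻¹ u ξ⁻¹) (i₀ : I)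
    {z : F} (hzE : z ∈ E) {φ : LaurentSeries k} (hr : Rd (ρ (md i₀)) z φ)
    (hφ : IsInt k (ξ ^ (1 + 1))⁻¹ φ) (h0 : ∀ i : ℤ, i ≤ 0 → φ.coeff i = 0) :
    ∃ N : ℕ, IsInt k (ξ ^ (1 + 1))⁻¹ (φ ^ N * ξ ^ (1 + 1)) := by
  obtain ⟨hx, hxξ⟩ := X.rx
  obtain ⟨hx', hxξ'⟩ := X.rx'
  have hF : φ ∈ CTV.Fbar H.red₀ := (mem_Fbar_iff H.red₀).2 (Ci.res z hzE (md i₀) φ hr)
  obtain ⟨N, hN⟩ := uniq_abs H.red₀ hx hx' X.m_pos (by rw [hxξ]; exact X.ox)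
    (by rw [hxξ']; exact X.ox') X.spans hF (by rw [hxξ]; exact isInt_sq_inv_iff.1 hφ) h0
  rw [hxξ] at hN
  exact ⟨N, isInt_sq_inv_iff.2 hN⟩

end BKform

end Fermat.Agent.CAR.P1
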