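import Fermat.Agent.CAR.P1.Defs
import Fermat.Agent.CAR.DEG.Mul

/-!
# CAR / P1 / DegBridge : the degree theory `P1.DegTh` of the chart ring `RR Fb ξ`, from `CAR/DEG`
-/

set_option autoImplicit false

noncomputable section

namespace Fermat.Agent.CAR.P1

open Fermat.Agent.CAR.RP

variable {k : Type*} [Field k]

theorem Tr_eq_DEG (N : Submodule k (LaurentSeries k)) (n : ℤ) : Tr N n = DEG.Tr N n := by
  ext φ
  exact Iff.rfl

theorem hasChi_iff_DEG {N : Submodule k (LaurentSeries k)} {c : ℤ} : HasChi N c ↔ DEG.HasChi N c := by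
  constructor
  · rintro ⟨n₀, h⟩
    refine ⟨n₀, fun n hn => ?_⟩
    have := h n hn
    rw [Tr_eq_DEG] at this
    exact this
  · rintro ⟨n₀, h⟩
    refine ⟨n₀, fun n hn => ?_⟩
    rw [Tr_eq_DEG]
    exact h n hn

theorem mulS_eq_DEG (N N' : Submodule k (LaurentSeries k)) : mulS N N' = DEG.mulS N N' := rfl

theorem Rs_eq_DEG (R : Subalgebra k (LaurentSeries k)) : Rs R.toSubring = DEG.ofAlg R := by
  apply le_antisymm
  · exact Submodule.span_le.2 fun x hx => hx
  · exact fun x hx => Submodule.subset_span hx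

theorem isFrac_iff_DEG {R : Subalgebra k (LaurentSeries k)} {N : Submodule k (LaurentSeries k)} :
    IsFrac R.toSubring N ↔ DEG.IsFrac R N :=
  ⟨fun h => ⟨h.ne, h.mul_mem, h.den⟩, fun h => ⟨h.1, h.2.1, h.2.2⟩⟩

/-- **the degree theory of the chart ring.** -/
theorem degTh_RR {Fb : IntermediateField k (LaurentSeries k)} {ξ : LaurentSeries k} {g : ℕ}
    (hC : IsCurve Fb ξ g) : DegTh (RR Fb ξ).toSubring (1 - g) where
  C_mem := fun c => by
    have h := (RR Fb ξ).algebraMap_mem c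
    rw [ModularCurve.algebraMap_laurentSeries_eq_single] at h
    exact h
  chiR := by
    rw [Rs_eq_DEG, hasChi_iff_DEG]
    exact DEG.hasChi_RR hC
  ex := fun N hN => by
    obtain ⟨c, hc⟩ := DEG.exists_hasChi hC (isFrac_iff_DEG.1 hN)
    exact ⟨c, hasChi_iff_DEG.2 hc⟩
  mul := fun N N' c c' hN hN' h h' => by
    rw [mulS_eq_DEG, hasChi_iff_DEG]
    exact DEG.hasChi_mulS hC (isFrac_iff_DEG.1 hN) (isFrac_iff_DEG.1 hN') (hasChi_iff_DEG.1 h)
      (hasChi_iff_DEG.1 h')

end Fermat.Agent.CAR.P1
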