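import Fermat.Agent.CAR.P1.Api
import Fermat.Agent.CAR.P1F.Chain

/-!
# CAR / P1 : the filtration inequality   (block P1F, helper55)

`dim_K LL_a ≤ dim So + dim Sz + ∑_{j<e} dim Sj`.
-/

set_option autoImplicit false

open Polynomial

noncomputable section

namespace Fermat.Agent.CAR.P1

open Fermat.Agent.GAL.KL Fermat.Agent.GAL.KLC Fermat.Agent.TOR.T1

variable {K E k Γ₀ : Type*} [Field K] [Field E] [Algebra K E] [Field k]
  [LinearOrderedCommGroupWithZero Γ₀] (D : Dat K E k Γ₀)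

namespace Dat

/-- every element of `LL_a` is `π^-N` times an element of the unit ball (`archo`, `archm`, `archz` applied to `π`,
`vm_pi`, `vz_pi`), hence `LL_a` is the `K`-span of `Λ_a = LL_a ∩ Ball`. -/
theorem span_ball (a : ℕ) :
    Submodule.span K {z : E | z ∈ LL K D.t a ∧ D.Ball z} = LL K D.t a := by
  refine le_antisymm (Submodule.span_le.2 fun z hz => hz.1) ?_
  intro z hz
  have key : ∀ v : Valuation E Γ₀, Arch v → v (algebraMap K E D.ϖ) < 1 →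
      ∃ m : ℕ, ∀ M, m ≤ M → v (D.ϖ ^ M • z) ≤ 1 := by
    intro v hA hlt
    by_cases h0 : v z = 0
    · refine ⟨0, fun M _ => ?_⟩
      rw [Algebra.smul_def, map_mul, h0, mul_zero]; exact zero_le
    · obtain ⟨m, hm⟩ := hA _ hlt (v z)⁻¹ (inv_ne_zero h0)
      refine ⟨m, fun M hM => ?_⟩
      rw [Algebra.smul_def, map_mul, map_pow, map_pow]
      have h1 : v (algebraMap K E D.ϖ) ^ M ≤ (v z)⁻¹ :=
        (pow_le_pow_right_of_le_one' hlt.le hM).trans hm.le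
      calc v (algebraMap K E D.ϖ) ^ M * v z ≤ (v z)⁻¹ * v z := mul_le_mul_left h1 _
        _ = 1 := inv_mul_cancel₀ h0
  obtain ⟨m₁, h₁⟩ := key D.vo D.archo D.ϖ_lt
  obtain ⟨m₂, h₂⟩ := key D.vm D.archm (by rw [D.eqm]; exact D.ϖ_lt)
  obtain ⟨m₃, h₃⟩ := key D.vz D.archz (by rw [D.eqz]; exact D.ϖ_lt)
  set M := m₁ + m₂ + m₃ with hM
  have hmem : D.ϖ ^ M • z ∈ {z : E | z ∈ LL K D.t a ∧ D.Ball z} :=
    ⟨Submodule.smul_mem _ _ hz, h₁ M (by omega), h₂ M (by omega), h₃ M (by omega)⟩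
  have e : z = (D.ϖ ^ M)⁻¹ • (D.ϖ ^ M • z) := by
    rw [smul_smul, inv_mul_cancel₀ (pow_ne_zero _ D.ϖ_ne), one_smul]
  rw [e]
  exact Submodule.smul_mem _ _ (Submodule.subset_span hmem)

/-! ### the data of `P1F.finrank_span_le` -/

/-- the filtration. -/
def filL (a : ℕ) : ℕ → Set E
  | 0 => {z | z ∈ LL K D.t a ∧ D.Ball z}
  | 1 => {z | z ∈ LL K D.t a ∧ D.vo z < 1 ∧ D.vm z ≤ 1 ∧ D.vz z ≤ 1}
  | (j + 2) => {z | z ∈ LL K D.t a ∧ D.Bj j z}

/-- the graded relations. -/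
def filG : ℕ → E → LaurentSeries k → Prop
  | 0 => fun z u => Rd D.ρo z u
  | 1 => fun z u => Rd D.ρz z u
  | (j + 2) => fun z u => Rd D.ρm (z / D.ν₀ ^ j) u

/-- the graded pieces. -/
def filV (a : ℕ) : ℕ → Submodule k (LaurentSeries k)
  | 0 => D.So a
  | 1 => D.Sz a
  | (j + 2) => D.Sj j a

/-- `x` is an integral constant reducing to `c`. -/
def filR (x : K) (c : k) : Prop :=
  Rd D.ρo (algebraMap K E x) (HahnSeries.C c) ∧ Rd D.ρm (algebraMap K E x) (HahnSeries.C c) ∧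
    Rd D.ρz (algebraMap K E x) (HahnSeries.C c)

omit [Field K] [Algebra K E] [Field k] in
theorem fil_mul_le {v : Valuation E Γ₀} {x z : E} {g : Γ₀} (hx : v x ≤ 1) (hz : v z ≤ g) :
    v (x * z) ≤ g := by
  rw [map_mul]; exact (mul_le_of_le_one_left' hx).trans hz

omit [Field K] [Algebra K E] [Field k] in
theorem fil_mul_lt {v : Valuation E Γ₀} {x z : E} {g : Γ₀} (hx : v x ≤ 1) (hz : v z < g) :
    v (x * z) < g := by
  rw [map_mul]; exact lt_of_le_of_lt (mul_le_of_le_one_left' hx) hz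

theorem fil_h0 (a s : ℕ) : (0 : E) ∈ D.filL a s ∧ D.filG s 0 0 := by
  have l0 : ∀ (v : Valuation E Γ₀) (g : Γ₀), v 0 ≤ g := fun v g => by rw [map_zero]; exact zero_le
  have l1 : ∀ v : Valuation E Γ₀, v 0 < 1 := fun v => by rw [map_zero]; exact zero_lt_one
  rcases s with _ | _ | j
  · exact ⟨⟨Submodule.zero_mem _, l0 _ _, l0 _ _, l0 _ _⟩, Rd.zero⟩
  · exact ⟨⟨Submodule.zero_mem _, l1 _, l0 _ _, l0 _ _⟩, Rd.zero⟩
  · refine ⟨⟨Submodule.zero_mem _, l1 _, l1 _, l0 _ _⟩, ?_⟩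
    show Rd D.ρm (0 / D.ν₀ ^ j) 0
    rw [zero_div]; exact Rd.zero

theorem fil_hsub (a s : ℕ) (z z' : E) (u u' : LaurentSeries k) (hz : z ∈ D.filL a s)
    (hz' : z' ∈ D.filL a s) (hu : D.filG s z u) (hu' : D.filG s z' u') :
    z - z' ∈ D.filL a s ∧ D.filG s (z - z') (u - u') := by
  rcases s with _ | _ | j
  · exact ⟨⟨Submodule.sub_mem _ hz.1 hz'.1, Valuation.map_sub_le _ hz.2.1 hz'.2.1,
      Valuation.map_sub_le _ hz.2.2.1 hz'.2.2.1, Valuation.map_sub_le _ hz.2.2.2 hz'.2.2.2⟩,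
      Rd.sub hu hu'⟩
  · exact ⟨⟨Submodule.sub_mem _ hz.1 hz'.1, Valuation.map_sub_lt _ hz.2.1 hz'.2.1,
      Valuation.map_sub_le _ hz.2.2.1 hz'.2.2.1, Valuation.map_sub_le _ hz.2.2.2 hz'.2.2.2⟩,
      Rd.sub hu hu'⟩
  · refine ⟨⟨Submodule.sub_mem _ hz.1 hz'.1, Valuation.map_sub_lt _ hz.2.1 hz'.2.1,
      Valuation.map_sub_lt _ hz.2.2.1 hz'.2.2.1, Valuation.map_sub_le _ hz.2.2.2 hz'.2.2.2⟩, ?_⟩
    show Rd D.ρm ((z - z') / D.ν₀ ^ j) (u - u')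
    rw [sub_div]; exact Rd.sub hu hu'

theorem fil_hsmul (a s : ℕ) (x : K) (c : k) (z : E) (u : LaurentSeries k) (hR : D.filR x c)
    (hz : z ∈ D.filL a s) (hu : D.filG s z u) :
    x • z ∈ D.filL a s ∧ D.filG s (x • z) (c • u) := by
  obtain ⟨ho, hm, hzz⟩ := hR
  rw [← HahnSeries.C_mul_eq_smul]
  rcases s with _ | _ | j
  · refine ⟨⟨Submodule.smul_mem _ _ hz.1, ?_⟩, ?_⟩
    · rw [Algebra.smul_def]
      exact ⟨fil_mul_le ho.le_one hz.2.1, fil_mul_le hm.le_one hz.2.2.1,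
        fil_mul_le hzz.le_one hz.2.2.2⟩
    · show Rd D.ρo (x • z) _
      rw [Algebra.smul_def]; exact ho.mul hu
  · refine ⟨⟨Submodule.smul_mem _ _ hz.1, ?_⟩, ?_⟩
    · rw [Algebra.smul_def]
      exact ⟨fil_mul_lt ho.le_one hz.2.1, fil_mul_le hm.le_one hz.2.2.1,
        fil_mul_le hzz.le_one hz.2.2.2⟩
    · show Rd D.ρz (x • z) _
      rw [Algebra.smul_def]; exact hzz.mul hu
  · refine ⟨⟨Submodule.smul_mem _ _ hz.1, ?_⟩, ?_⟩
    · rw [Algebra.smul_def]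
      exact ⟨fil_mul_lt ho.le_one hz.2.1, fil_mul_lt hzz.le_one hz.2.2.1,
        fil_mul_le hm.le_one hz.2.2.2⟩
    · show Rd D.ρm (x • z / D.ν₀ ^ j) _
      rw [Algebra.smul_def, mul_div_assoc]; exact hm.mul hu

theorem fil_hV (a s : ℕ) (z : E) (hz : z ∈ D.filL a s) : ∃ u ∈ D.filV a s, D.filG s z u := by
  rcases s with _ | _ | j
  · obtain ⟨u, hu⟩ := exists_rd (ρ := D.ρo) hz.2.1
    exact ⟨u, Submodule.subset_span ⟨z, hz.1, hz.2.2.1, hz.2.2.2, hu⟩, hu⟩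
  · obtain ⟨u, hu⟩ := exists_rd (ρ := D.ρz) hz.2.2.2
    exact ⟨u, Submodule.subset_span ⟨z, hz.1, hz.2.1, hz.2.2.1, hu⟩, hu⟩
  · obtain ⟨u, hu⟩ := exists_rd (ρ := D.ρm) (Bj.vm_div_le D hz.2)
    exact ⟨u, Submodule.subset_span ⟨z, hz.1, hz.2, hu⟩, hu⟩

theorem fil_hker (a s : ℕ) (z : E) (hz : z ∈ D.filL a s) (h0 : D.filG s z 0) :
    z ∈ D.filL a (s + 1) := by
  rcases s with _ | _ | j
  · exact ⟨hz.1, (rd_zero_iff' D.kero).1 h0, hz.2.2.1, hz.2.2.2⟩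
  · exact ⟨hz.1, hz.2.1, (rd_zero_iff' D.kerz).1 h0, by rw [pow_zero]; exact hz.2.2.1⟩
  · refine ⟨hz.1, hz.2.1, hz.2.2.1, ?_⟩
    have h1 : D.vm (z / D.ν₀ ^ j) ≤ D.vm D.ν₀ := D.discm _ ((rd_zero_iff' D.kerm).1 h0)
    rw [map_div₀, map_pow, div_le_iff₀ (zero_lt_iff.2 (pow_ne_zero _ D.vm_nu_ne))] at h1
    rw [pow_succ']
    exact h1

theorem fil_hlast (a : ℕ) (z : E) (hz : z ∈ D.filL a (D.e + 2)) :
    ∃ z' ∈ D.filL a 0, z = D.ϖ • z' := by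
  have hpos : ∀ v : Valuation E Γ₀, 0 < v (algebraMap K E D.ϖ) := fun v =>
    zero_lt_iff.2 ((Valuation.ne_zero_iff _).2 D.pi_ne)
  have key : ∀ v : Valuation E Γ₀, v z ≤ v (algebraMap K E D.ϖ) → v (D.ϖ⁻¹ • z) ≤ 1 := by
    intro v h
    rw [Algebra.smul_def, map_mul, map_inv₀, map_inv₀, inv_mul_le_iff₀ (hpos v), mul_one]
    exact h
  refine ⟨D.ϖ⁻¹ • z, ⟨Submodule.smul_mem _ _ hz.1, key _ (D.disco z hz.2.1), key _ ?_,
    key _ (D.discz z hz.2.2.1)⟩, ?_⟩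
  · rw [← D.ν_pow]; exact hz.2.2.2
  · rw [smul_smul, mul_inv_cancel₀ D.ϖ_ne, one_smul]

/-- **Filtration inequality.**  RECIPE: apply `P1F.finrank_span_le` (CAR/P1F/Chain.lean, landed, sorry-free) with
* `W := E`, `U := LaurentSeries k`, `J := ℤ`, `vK := D.vo.comap (algebraMap K E)`, `π := D.ϖ`, `hA` from `D.archo D.pi D.ϖ_lt`;
* `R a c := D.Ball (algebraMap K E a) ∧ Rd D.ρo (algebraMap K E a) (C c) ∧ Rd D.ρm (algebraMap K E a) (C c) ∧
  Rd D.ρz (algebraMap K E a) (C c)`  (`hR = D.exists_const`);   `a • z = algebraMap K E a * z` (`Algebra.smul_def`),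
  `c • u = C c * u` (`HahnSeries.C_mul_eq_smul`);
* `r := D.e + 2`;
* `L 0 := {z ∈ LL_a | Ball z}`, `L 1 := {z ∈ LL_a | vo z < 1 ∧ vm z ≤ 1 ∧ vz z ≤ 1}`, `L (j+2) := {z ∈ LL_a | Bj j z}`;
* `G 0 z u := Rd ρo z u`, `G 1 z u := Rd ρz z u`, `G (j+2) z u := Rd ρm (z / ν₀^j) u`;
* `V 0 := So a`, `V 1 := Sz a`, `V (j+2) := Sj j a`   (define the three families by `Nat.rec`/pattern matching);
* `hV`: `exists_rd` + `Submodule.subset_span`;
* `hker`: `rd_zero_iff'` with `kero`, `kerz`, `kerm`; at `s = j+2`: `vm (z/ν₀^j) < 1 ⇒ ≤ vm ν₀` (`discm`) `⇒ vm z ≤ vm ν₀^(j+1)`;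
* `hlast`: `z ∈ LL_a`, `Bj e z` ⇒ `z' := π⁻¹ z ∈ LL_a ∩ Ball` (`disco`, `discz`, `ν_pow`, `LL_const_mul`);
* `W₀ := LL K D.t a` (`D.fin a`), `c := D.cf`, `hc` from `cf_inj`, `hb` from `cf_int`.
Then `span_ball` and `Finset.sum_range_succ'` (twice) rewrite the two sides. -/
theorem fil (a : ℕ) (ho : FiniteDimensional k (D.So a)) (hz : FiniteDimensional k (D.Sz a))
    (hj : ∀ j < D.e, FiniteDimensional k (D.Sj j a)) :
    Module.finrank K (LL K D.t a) ≤ Module.finrank k (D.So a) + Module.finrank k (D.Sz a) +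
      ∑ j ∈ Finset.range D.e, Module.finrank k (D.Sj j a) := by
  have := D.fin a
  have h1 := P1F.finrank_span_le (D.vo.comap (algebraMap K E)) (π := D.ϖ)
    (fun γ hγ => D.archo _ D.ϖ_lt γ hγ) D.filR (fun c => D.cst c) (D.e + 2) (D.filL a) D.filG
    (D.filV a)
    (by
      intro s hs
      rcases s with _ | _ | j
      · exact ho
      · exact hz
      · exact hj j (by omega))
    (fun s _ => D.fil_h0 a s) (fun s _ => D.fil_hsub a s) (fun s _ => D.fil_hsmul a s)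
    (fun s _ => D.fil_hV a s) (fun s _ => D.fil_hker a s) (D.fil_hlast a)
    (LL K D.t a) (fun z hz => hz.1) D.cf (fun z _ h => D.cf_inj z h)
    (fun z hz j => D.cf_int z hz.1.1 hz.2.1 hz.2.2.1 hz.2.2.2 j)
  have h2 : Submodule.span K (D.filL a 0) = LL K D.t a := D.span_ball a
  rw [h2, Finset.sum_range_succ', Finset.sum_range_succ'] at h1
  have h3 : (∑ j ∈ Finset.range D.e, Module.finrank k (D.filV a (j + 1 + 1))) +
      Module.finrank k (D.filV a (0 + 1)) + Module.finrank k (D.filV a 0) =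
      Module.finrank k (D.So a) + Module.finrank k (D.Sz a) +
      ∑ j ∈ Finset.range D.e, Module.finrank k (D.Sj j a) := by
    show (∑ j ∈ Finset.range D.e, Module.finrank k (D.Sj j a)) +
      Module.finrank k (D.Sz a) + Module.finrank k (D.So a) = _
    ring
  rw [h3] at h1
  exact h1

end Dat

end Fermat.Agent.CAR.P1
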