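import Fermat.Agent.CAR.P1.Bounds
import Fermat.Agent.CAR.P1.Fil
import Fermat.Agent.CAR.P1.CntAbs

/-!
# CAR / P1 : the count   (package P1-M1)
-/

set_option autoImplicit false

open Polynomial

noncomputable section

namespace Fermat.Agent.CAR.P1

open Fermat.Agent.GAL.KL Fermat.Agent.GAL.KLC Fermat.Agent.TOR.T1

variable {K E k Γ₀ : Type*} [Field K] [Field E] [Algebra K E] [Field k]
  [LinearOrderedCommGroupWithZero Γ₀] (D : Dat K E k Γ₀)

namespace Dat

/-- the inequality `hcount` of `cnt_abs`.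
Take `a` so large that `a no`, `a nm`, `a nm - c j` (`0 < j < e`) are beyond the thresholds `n₀` of
`HasChi.finrank_le` for `Rs R`, `I_0`, `N_0`, `N_j` (finitely many; `no_pos`, `nm_pos`).  Then
`a (2 no + e nm) + χ₂ ≤ finrank LL_a` (`ri`) `≤ finrank So + finrank Sz + ∑_{j<e} finrank Sj` (`fil`)
`≤ (a no + χ) + (a no + xI) + (a nm + x 0) + ∑_{0<j<e} (a nm - c j + x j)` (`So_le`, `Sz_le`, `S0_le`, `hS`);
`Finset.range_eq_Ico`, `Finset.sum_eq_sum_Ico_succ_bot`, `Finset.sum_const`, `Nat.card_Ico`. -/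
theorem count {xI : ℤ} {x c : ℕ → ℤ} (cI : HasChi D.Iz xI) (cN : ∀ j < D.e, HasChi (D.Nj j) (x j))
    (hS : ∀ j, 0 < j → j < D.e → ∀ a : ℕ, D.Sj j a ≤ Tr (D.Nj j) ((a : ℤ) * D.nm - c j)) :
    D.χ₂ ≤ D.χ + xI + x 0 + ∑ j ∈ Finset.Ico 1 D.e, (x j - c j) := by
  classical
  have he : 0 < D.e := lt_of_lt_of_le (by norm_num) D.he
  obtain ⟨nR, hR⟩ := D.deg.chiR.finrank_le
  obtain ⟨nI, hI⟩ := cI.finrank_le
  have hex : ∀ j : ℕ, ∃ n₀ : ℤ, j < D.e → ∀ n, n₀ ≤ n → ∀ S : Submodule k (LaurentSeries k),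
      S ≤ Tr (D.Nj j) n → FiniteDimensional k S ∧ (Module.finrank k S : ℤ) ≤ n + x j := by
    intro j
    by_cases hj : j < D.e
    · obtain ⟨n₀, h⟩ := (cN j hj).finrank_le
      exact ⟨n₀, fun _ => h⟩
    · exact ⟨0, fun h => absurd h hj⟩
  choose th hth using hex
  -- the large integer
  set B : ℤ := |nR| + |nI| + ∑ j ∈ Finset.range D.e, (|th j| + |c j|) with hB
  have hsum0 : ∀ j ∈ Finset.range D.e, 0 ≤ |th j| + |c j| := fun j _ =>
    add_nonneg (abs_nonneg _) (abs_nonneg _)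
  have hB0 : 0 ≤ B := add_nonneg (add_nonneg (abs_nonneg _) (abs_nonneg _))
    (Finset.sum_nonneg hsum0)
  obtain ⟨a, ha⟩ : ∃ a : ℕ, (a : ℤ) = B := ⟨B.toNat, Int.toNat_of_nonneg hB0⟩
  have hno : (1 : ℤ) ≤ D.no := by exact_mod_cast D.no_pos
  have hnm : (1 : ℤ) ≤ D.nm := by exact_mod_cast D.nm_pos
  have hano : B ≤ (a : ℤ) * D.no := by
    rw [ha]; nlinarith
  have hanm : B ≤ (a : ℤ) * D.nm := by
    rw [ha]; nlinarith
  have hS0 : 0 ≤ ∑ j ∈ Finset.range D.e, (|th j| + |c j|) := Finset.sum_nonneg hsum0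
  have hBR : nR ≤ B := by
    have := le_abs_self nR
    have := abs_nonneg nI
    linarith
  have hBI : nI ≤ B := by
    have := le_abs_self nI
    have := abs_nonneg nR
    linarith
  have hBj : ∀ j, j < D.e → |th j| + |c j| ≤ B := by
    intro j hj
    have h1 := Finset.single_le_sum hsum0 (Finset.mem_range.mpr hj)
    have := abs_nonneg nR
    have := abs_nonneg nI
    linarith
  -- the four bounds
  have bo := hR _ (hBR.trans hano) _ (D.So_le a)
  have bz := hI _ (hBI.trans hano) _ (D.Sz_le a)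
  have b0 := hth 0 he _ (by
    have h1 := hBj 0 he
    have h2 := le_abs_self (th 0)
    have h3 := abs_nonneg (c 0)
    linarith) _ (D.S0_le a)
  have bj : ∀ j, 0 < j → j < D.e → FiniteDimensional k (D.Sj j a) ∧
      (Module.finrank k (D.Sj j a) : ℤ) ≤ (a : ℤ) * D.nm - c j + x j := by
    intro j hj0 hj
    refine hth j hj _ ?_ _ (hS j hj0 hj a)
    have h1 := hBj j hj
    have h2 := le_abs_self (th j)
    have h3 := le_abs_self (c j)
    linarith
  have hfin : ∀ j < D.e, FiniteDimensional k (D.Sj j a) := by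
    intro j hj
    rcases Nat.eq_zero_or_pos j with rfl | hj0
    · exact b0.1
    · exact (bj j hj0 hj).1
  have hfil := D.fil a bo.1 bz.1 hfin
  have hri := D.ri a
  have hfil' : (Module.finrank K (LL K D.t a) : ℤ) ≤ (Module.finrank k (D.So a) : ℤ) +
      (Module.finrank k (D.Sz a) : ℤ) +
      ((Module.finrank k (D.Sj 0 a) : ℤ) +
        ∑ j ∈ Finset.Ico 1 D.e, (Module.finrank k (D.Sj j a) : ℤ)) := by
    have h1 : ((Module.finrank K (LL K D.t a) : ℕ) : ℤ) ≤
        ((Module.finrank k (D.So a) + Module.finrank k (D.Sz a) +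
          ∑ j ∈ Finset.range D.e, Module.finrank k (D.Sj j a) : ℕ) : ℤ) := by exact_mod_cast hfil
    rw [Finset.range_eq_Ico, Finset.sum_eq_sum_Ico_succ_bot he] at h1
    push_cast at h1
    simpa using h1
  have hsum : ∑ j ∈ Finset.Ico 1 D.e, (Module.finrank k (D.Sj j a) : ℤ) ≤
      ∑ j ∈ Finset.Ico 1 D.e, ((a : ℤ) * D.nm + (x j - c j)) := by
    refine Finset.sum_le_sum fun j hj => ?_
    obtain ⟨h1, h2⟩ := Finset.mem_Ico.mp hj
    have := (bj j h1 h2).2
    linarith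
  rw [Finset.sum_add_distrib, Finset.sum_const, Nat.card_Ico, nsmul_eq_mul] at hsum
  have hcast : ((D.e - 1 : ℕ) : ℤ) = (D.e : ℤ) - 1 := by
    rw [Nat.cast_sub he]; simp
  rw [hcast] at hsum
  have e1 := bo.2
  have e2 := bz.2
  have e3 := b0.2
  nlinarith

end Dat

end Fermat.Agent.CAR.P1
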