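import Fermat.Agent.CAR.P1.DegA

/-!
# CAR / P1 : general API of `Tr`, `HasChi`, `sm`, `mulS`, `powS`, `Rs`, `IsFrac`   (package P1-D2: `sm`, `mulS`, `powS`, `Rs`, `IsFrac`)

Reminder: the `k`-module structure of `LaurentSeries k` is `HahnSeries.instModule`; `c • ξ = C c * ξ` is
`HahnSeries.C_mul_eq_smul`.  `HahnSeries.order 0 = 0`; `HahnSeries.order_mul` (domain), `HahnSeries.coeff_order_ne_zero`,
`HahnSeries.coeff_eq_zero_of_lt_order`, `HahnSeries.order_le_of_coeff_ne_zero`.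
-/

set_option autoImplicit false

noncomputable section

namespace Fermat.Agent.CAR.P1

variable {k : Type*} [Field k]

/-! ### P1-D2 : `sm`, `mulS`, `powS`, `Rs`, `IsFrac` -/

theorem DegB_mul_smul (c : k) (ξ η : LaurentSeries k) : ξ * (c • η) = c • (ξ * η) := by
  rw [← HahnSeries.C_mul_eq_smul, ← HahnSeries.C_mul_eq_smul]
  ring

theorem DegB_smul_mul (c : k) (ξ η : LaurentSeries k) : (c • ξ) * η = c • (ξ * η) := by
  rw [← HahnSeries.C_mul_eq_smul, ← HahnSeries.C_mul_eq_smul]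
  ring

/-- multiplication by `ξ` as a `k`-linear map. -/
def DegB_mulL (ξ : LaurentSeries k) : LaurentSeries k →ₗ[k] LaurentSeries k where
  toFun := fun η => ξ * η
  map_add' := mul_add ξ
  map_smul' := fun c η => DegB_mul_smul c ξ η

theorem mem_sm {ξ ζ : LaurentSeries k} {N : Submodule k (LaurentSeries k)} :
    ζ ∈ sm ξ N ↔ ∃ η ∈ N, ξ * η = ζ := by
  constructor
  · intro h
    induction h using Submodule.span_induction with
    | mem x hx => exact hx
    | zero => exact ⟨0, N.zero_mem, mul_zero _⟩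
    | add x y _ _ hx hy =>
      obtain ⟨a, ha, rfl⟩ := hx
      obtain ⟨b, hb, rfl⟩ := hy
      exact ⟨a + b, N.add_mem ha hb, mul_add _ _ _⟩
    | smul c x _ hx =>
      obtain ⟨a, ha, rfl⟩ := hx
      exact ⟨c • a, N.smul_mem c ha, DegB_mul_smul c ξ a⟩
  · intro h
    exact Submodule.subset_span h

theorem mul_mem_sm {ξ η : LaurentSeries k} {N : Submodule k (LaurentSeries k)} (h : η ∈ N) :
    ξ * η ∈ sm ξ N :=
  mem_sm.mpr ⟨η, h, rfl⟩

theorem sm_mono (ξ : LaurentSeries k) {N N' : Submodule k (LaurentSeries k)} (h : N ≤ N') :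
    sm ξ N ≤ sm ξ N' := by
  intro ζ hζ
  obtain ⟨η, hη, rfl⟩ := mem_sm.mp hζ
  exact mul_mem_sm (h hη)

theorem sm_sm (ξ ξ' : LaurentSeries k) (N : Submodule k (LaurentSeries k)) :
    sm ξ (sm ξ' N) = sm (ξ * ξ') N := by
  ext ζ
  constructor
  · intro h
    obtain ⟨η, hη, rfl⟩ := mem_sm.mp h
    obtain ⟨μ, hμ, rfl⟩ := mem_sm.mp hη
    rw [← mul_assoc]
    exact mul_mem_sm hμ
  · intro h
    obtain ⟨η, hη, rfl⟩ := mem_sm.mp h
    rw [mul_assoc]
    exact mul_mem_sm (mul_mem_sm hη)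

theorem sm_one (N : Submodule k (LaurentSeries k)) : sm 1 N = N := by
  ext ζ
  constructor
  · intro h
    obtain ⟨η, hη, rfl⟩ := mem_sm.mp h
    rwa [one_mul]
  · intro h
    exact mem_sm.mpr ⟨ζ, h, one_mul _⟩

/-- multiplication by `ξ` is a linear isomorphism `Tr N (n + order ξ) ≃ Tr (sm ξ N) n`. -/
theorem HasChi.sm {N : Submodule k (LaurentSeries k)} {c : ℤ} {ξ : LaurentSeries k} (hξ : ξ ≠ 0)
    (h : HasChi N c) : HasChi (sm ξ N) (c + ξ.order) := by
  have hinj : Function.Injective (DegB_mulL ξ) := fun a b hab => mul_left_cancel₀ hξ hab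
  have hmap : ∀ n : ℤ, Tr (P1.sm ξ N) n = (Tr N (n + ξ.order)).map (DegB_mulL ξ) := by
    intro n
    ext ζ
    rw [Submodule.mem_map]
    constructor
    · intro hζ
      obtain ⟨η, hη, rfl⟩ := mem_sm.mp (Tr_le _ _ hζ)
      refine ⟨η, ?_, rfl⟩
      rcases eq_or_ne η 0 with rfl | hη0
      · exact Submodule.zero_mem _
      · have h1 := order_ge_of_mem_Tr hζ (mul_ne_zero hξ hη0)
        rw [HahnSeries.order_mul hξ hη0] at h1
        exact mem_Tr_of_order hη (by omega)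
    · rintro ⟨η, hη, rfl⟩
      show ξ * η ∈ _
      rcases eq_or_ne η 0 with rfl | hη0
      · rw [mul_zero]; exact Submodule.zero_mem _
      · have h1 := order_ge_of_mem_Tr hη hη0
        refine mem_Tr_of_order (mul_mem_sm (Tr_le _ _ hη)) ?_
        rw [HahnSeries.order_mul hξ hη0]
        omega
  obtain ⟨n₀, hn₀⟩ := h
  refine ⟨n₀ - ξ.order, fun n hn => ?_⟩
  obtain ⟨hfin, hrank⟩ := hn₀ (n + ξ.order) (by omega)
  rw [hmap n]
  have e := Submodule.equivMapOfInjective (DegB_mulL ξ) hinj (Tr N (n + ξ.order))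
  refine ⟨Module.Finite.equiv e, ?_⟩
  rw [← e.finrank_eq, hrank]
  ring

theorem mul_mem_mulS {N N' : Submodule k (LaurentSeries k)} {ξ η : LaurentSeries k} (h : ξ ∈ N)
    (h' : η ∈ N') : ξ * η ∈ mulS N N' :=
  Submodule.subset_span ⟨ξ, h, η, h', rfl⟩

theorem mulS_le {N N' P : Submodule k (LaurentSeries k)} :
    mulS N N' ≤ P ↔ ∀ ξ ∈ N, ∀ η ∈ N', ξ * η ∈ P := by
  constructor
  · intro h ξ hξ η hη
    exact h (mul_mem_mulS hξ hη)
  · intro h
    refine Submodule.span_le.mpr ?_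
    rintro _ ⟨ξ, hξ, η, hη, rfl⟩
    exact h ξ hξ η hη

theorem mulS_comm (N N' : Submodule k (LaurentSeries k)) : mulS N N' = mulS N' N := by
  apply le_antisymm
  · exact mulS_le.mpr fun ξ hξ η hη => by rw [mul_comm]; exact mul_mem_mulS hη hξ
  · exact mulS_le.mpr fun ξ hξ η hη => by rw [mul_comm]; exact mul_mem_mulS hη hξ

theorem mulS_mono {N N' P P' : Submodule k (LaurentSeries k)} (h : N ≤ P) (h' : N' ≤ P') :
    mulS N N' ≤ mulS P P' :=
  mulS_le.mpr fun _ hξ _ hη => mul_mem_mulS (h hξ) (h' hη)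

theorem sm_mulS (ξ : LaurentSeries k) (N N' : Submodule k (LaurentSeries k)) :
    mulS (sm ξ N) N' = sm ξ (mulS N N') := by
  apply le_antisymm
  · refine mulS_le.mpr fun a ha b hb => ?_
    obtain ⟨η, hη, rfl⟩ := mem_sm.mp ha
    rw [mul_assoc]
    exact mul_mem_sm (mul_mem_mulS hη hb)
  · intro ζ hζ
    obtain ⟨μ, hμ, rfl⟩ := mem_sm.mp hζ
    induction hμ using Submodule.span_induction with
    | mem x hx =>
      obtain ⟨a, ha, b, hb, rfl⟩ := hx
      rw [← mul_assoc]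
      exact mul_mem_mulS (mul_mem_sm ha) hb
    | zero => rw [mul_zero]; exact Submodule.zero_mem _
    | add x y hx' hy' hx hy =>
      rw [mul_add]
      exact Submodule.add_mem _ (hx (mul_mem_sm hx')) (hy (mul_mem_sm hy'))
    | smul c x hx' hx =>
      rw [DegB_mul_smul]
      exact Submodule.smul_mem _ _ (hx (mul_mem_sm hx'))

/-- every element of `mulS N N'` is a finite sum of products. -/
theorem exists_sum_of_mem_mulS {N N' : Submodule k (LaurentSeries k)} {ζ : LaurentSeries k}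
    (h : ζ ∈ mulS N N') : ∃ (r : ℕ) (ξ η : Fin r → LaurentSeries k), (∀ i, ξ i ∈ N) ∧ (∀ i, η i ∈ N') ∧
      ζ = ∑ i, ξ i * η i := by
  obtain ⟨r, f, g, hfg⟩ := Submodule.mem_span_set'.mp h
  have hg : ∀ i, ∃ a ∈ N, ∃ b ∈ N', a * b = (g i : LaurentSeries k) := fun i => (g i).2
  choose a ha b hb hab using hg
  refine ⟨r, fun i => f i • a i, b, fun i => N.smul_mem _ (ha i), hb, ?_⟩
  rw [← hfg]
  exact Finset.sum_congr rfl fun i _ => by rw [DegB_smul_mul, hab]

theorem powS_succ (N : Submodule k (LaurentSeries k)) {n : ℕ} (hn : 0 < n) :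
    powS N (n + 1) = mulS (powS N n) N := by
  obtain ⟨m, rfl⟩ := Nat.exists_eq_succ_of_ne_zero hn.ne'
  rfl

theorem mem_Rs {R : Subring (LaurentSeries k)} (hC : ∀ c : k, HahnSeries.C c ∈ R)
    {ξ : LaurentSeries k} : ξ ∈ Rs R ↔ ξ ∈ R := by
  constructor
  · intro h
    induction h using Submodule.span_induction with
    | mem x hx => exact hx
    | zero => exact R.zero_mem
    | add x y _ _ hx hy => exact R.add_mem hx hy
    | smul c x _ hx =>
      rw [← HahnSeries.C_mul_eq_smul]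
      exact R.mul_mem (hC c) hx
  · intro h
    exact Submodule.subset_span h

theorem IsFrac.Rs {R : Subring (LaurentSeries k)} (hC : ∀ c : k, HahnSeries.C c ∈ R) :
    IsFrac R (Rs R) := by
  refine ⟨?_, fun r hr η hη => ?_, ⟨1, one_ne_zero, fun η hη => ?_⟩⟩
  · intro h
    have h1 : (1 : LaurentSeries k) ∈ P1.Rs R := (mem_Rs hC).mpr R.one_mem
    rw [h, Submodule.mem_bot] at h1
    exact one_ne_zero h1
  · exact (mem_Rs hC).mpr (R.mul_mem hr ((mem_Rs hC).mp hη))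
  · rw [one_mul]
    exact (mem_Rs hC).mp hη

theorem IsFrac.sm {R : Subring (LaurentSeries k)} {N : Submodule k (LaurentSeries k)}
    (h : IsFrac R N) {ξ : LaurentSeries k} (hξ : ξ ≠ 0) : IsFrac R (sm ξ N) := by
  obtain ⟨ξ₀, hξ₀, hden⟩ := h.den
  refine ⟨?_, fun r hr ζ hζ => ?_, ⟨ξ₀ * ξ⁻¹, mul_ne_zero hξ₀ (inv_ne_zero hξ), fun ζ hζ => ?_⟩⟩
  · obtain ⟨η, hη, hη0⟩ := (Submodule.ne_bot_iff _).mp h.ne
    exact (Submodule.ne_bot_iff _).mpr ⟨ξ * η, mul_mem_sm hη, mul_ne_zero hξ hη0⟩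
  · obtain ⟨η, hη, rfl⟩ := mem_sm.mp hζ
    rw [mul_left_comm]
    exact mul_mem_sm (h.mul_mem r hr η hη)
  · obtain ⟨η, hη, rfl⟩ := mem_sm.mp hζ
    have e : ξ₀ * ξ⁻¹ * (ξ * η) = ξ₀ * η := by
      rw [mul_assoc, inv_mul_cancel_left₀ hξ]
    rw [e]
    exact hden η hη

theorem IsFrac.mulS {R : Subring (LaurentSeries k)} {N N' : Submodule k (LaurentSeries k)}
    (h : IsFrac R N) (h' : IsFrac R N') : IsFrac R (mulS N N') := by
  obtain ⟨ξ₀, hξ₀, hden⟩ := h.den
  obtain ⟨ξ₁, hξ₁, hden'⟩ := h'.den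
  refine ⟨?_, fun r hr ζ hζ => ?_, ⟨ξ₀ * ξ₁, mul_ne_zero hξ₀ hξ₁, fun ζ hζ => ?_⟩⟩
  · obtain ⟨η, hη, hη0⟩ := (Submodule.ne_bot_iff _).mp h.ne
    obtain ⟨η', hη', hη0'⟩ := (Submodule.ne_bot_iff _).mp h'.ne
    exact (Submodule.ne_bot_iff _).mpr ⟨η * η', mul_mem_mulS hη hη', mul_ne_zero hη0 hη0'⟩
  · obtain ⟨m, a, b, ha, hb, rfl⟩ := exists_sum_of_mem_mulS hζ
    rw [Finset.mul_sum]
    refine Submodule.sum_mem _ fun i _ => ?_
    rw [← mul_assoc]
    exact mul_mem_mulS (h.mul_mem r hr _ (ha i)) (hb i)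
  · obtain ⟨m, a, b, ha, hb, rfl⟩ := exists_sum_of_mem_mulS hζ
    rw [Finset.mul_sum]
    refine R.sum_mem fun i _ => ?_
    have e : ξ₀ * ξ₁ * (a i * b i) = (ξ₀ * a i) * (ξ₁ * b i) := by ring
    rw [e]
    exact R.mul_mem (hden _ (ha i)) (hden' _ (hb i))

theorem IsFrac.powS {R : Subring (LaurentSeries k)} {N : Submodule k (LaurentSeries k)}
    (h : IsFrac R N) {n : ℕ} (hn : 0 < n) : IsFrac R (powS N n) := by
  induction n, hn using Nat.le_induction with
  | base => exact h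
  | succ n hn ih =>
    rw [powS_succ N hn]
    exact ih.mulS h

/-- induction on `n` with `DegTh.mul`. -/
theorem DegTh.powS {R : Subring (LaurentSeries k)} {χ : ℤ} (T : DegTh R χ)
    {N : Submodule k (LaurentSeries k)} (h : IsFrac R N) {c : ℤ} (hc : HasChi N c) {n : ℕ}
    (hn : 0 < n) : HasChi (powS N n) (n * c - (n - 1) * χ) := by
  induction n, hn using Nat.le_induction with
  | base =>
    have e : ((0 + 1 : ℕ) : ℤ) * c - (((0 + 1 : ℕ) : ℤ) - 1) * χ = c := by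
      push_cast; ring
    rw [e]
    exact hc
  | succ n hn ih =>
    rw [powS_succ N hn]
    have h1 := T.mul _ _ _ _ (h.powS hn) h ih hc
    have e : ((n + 1 : ℕ) : ℤ) * c - (((n + 1 : ℕ) : ℤ) - 1) * χ =
        (n : ℤ) * c - ((n : ℤ) - 1) * χ + c - χ := by
      push_cast; ring
    rw [e]
    exact h1

end Fermat.Agent.CAR.P1
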