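import Fermat.Agent.CAR.P1.Defs

/-!
# CAR / P1 : general API of `Tr`, `HasChi`, `sm`, `mulS`, `powS`, `Rs`, `IsFrac`   (package P1-D1: `Tr`, `HasChi`)

Reminder: the `k`-module structure of `LaurentSeries k` is `HahnSeries.instModule`; `c • ξ = C c * ξ` is
`HahnSeries.C_mul_eq_smul`.  `HahnSeries.order 0 = 0`; `HahnSeries.order_mul` (domain), `HahnSeries.coeff_order_ne_zero`,
`HahnSeries.coeff_eq_zero_of_lt_order`, `HahnSeries.order_le_of_coeff_ne_zero`.
-/

set_option autoImplicit false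

noncomputable section

namespace Fermat.Agent.CAR.P1

variable {k : Type*} [Field k]

/-! ### P1-D1 : `Tr`, `HasChi` -/

theorem Tr_le (N : Submodule k (LaurentSeries k)) (n : ℤ) : Tr N n ≤ N := by
  intro ξ h
  exact h.1

theorem Tr_mono {N N' : Submodule k (LaurentSeries k)} (h : N ≤ N') (n : ℤ) : Tr N n ≤ Tr N' n := by
  intro ξ hξ
  exact ⟨h hξ.1, hξ.2⟩

theorem Tr_mono_right (N : Submodule k (LaurentSeries k)) {n n' : ℤ} (h : n ≤ n') :
    Tr N n ≤ Tr N n' := by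
  intro ξ hξ
  exact ⟨hξ.1, fun i hi => hξ.2 i (by omega)⟩

theorem mem_Tr_of_order {N : Submodule k (LaurentSeries k)} {ξ : LaurentSeries k} {n : ℤ} (h : ξ ∈ N)
    (ho : -n ≤ ξ.order) : ξ ∈ Tr N n := by
  exact ⟨h, fun i hi => HahnSeries.coeff_eq_zero_of_lt_order (lt_of_lt_of_le hi ho)⟩

theorem order_ge_of_mem_Tr {N : Submodule k (LaurentSeries k)} {ξ : LaurentSeries k} {n : ℤ}
    (h : ξ ∈ Tr N n) (h0 : ξ ≠ 0) : -n ≤ ξ.order := by
  by_contra hlt
  rw [not_le] at hlt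
  exact h0 (HahnSeries.coeff_order_eq_zero.1 (h.2 _ hlt))

theorem exists_mem_Tr {N : Submodule k (LaurentSeries k)} {ξ : LaurentSeries k} (h : ξ ∈ N) :
    ∃ n₀ : ℤ, ∀ n, n₀ ≤ n → ξ ∈ Tr N n := by
  exact ⟨-ξ.order, fun n hn => mem_Tr_of_order h (by omega)⟩

theorem HasChi.unique {N : Submodule k (LaurentSeries k)} {c c' : ℤ} (h : HasChi N c)
    (h' : HasChi N c') : c = c' := by
  obtain ⟨n₀, h⟩ := h
  obtain ⟨n₁, h'⟩ := h'
  have e1 := (h (max n₀ n₁) (le_max_left _ _)).2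
  have e2 := (h' (max n₀ n₁) (le_max_right _ _)).2
  omega

/-- `Tr N n ≤ Tr N (max n n₀)`. -/
theorem HasChi.finite {N : Submodule k (LaurentSeries k)} {c : ℤ} (h : HasChi N c) (n : ℤ) :
    FiniteDimensional k (Tr N n) := by
  obtain ⟨n₀, h⟩ := h
  have := (h (max n n₀) (le_max_right _ _)).1
  exact Submodule.finiteDimensional_of_le (Tr_mono_right N (le_max_left n n₀))

theorem HasChi.le {N N' : Submodule k (LaurentSeries k)} {c c' : ℤ} (hN : N ≤ N') (h : HasChi N c)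
    (h' : HasChi N' c') : c ≤ c' := by
  obtain ⟨n₀, h⟩ := h
  obtain ⟨n₁, h'⟩ := h'
  have e1 := (h (max n₀ n₁) (le_max_left _ _)).2
  obtain ⟨f2, e2⟩ := h' (max n₀ n₁) (le_max_right _ _)
  have := Submodule.finrank_mono (Tr_mono hN (max n₀ n₁))
  omega

/-- for `n` large `Tr N n ≤ Tr N' n` have the same finite dimension, so they are equal; every element of `N'` lies
in some `Tr N' n`. -/
theorem HasChi.eq_of_le {N N' : Submodule k (LaurentSeries k)} {c : ℤ} (hN : N ≤ N') (h : HasChi N c)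
    (h' : HasChi N' c) : N = N' := by
  obtain ⟨n₀, h⟩ := h
  obtain ⟨n₁, h'⟩ := h'
  refine le_antisymm hN fun ξ hξ => ?_
  obtain ⟨n₂, h2⟩ := exists_mem_Tr hξ
  set n := max (max n₀ n₁) n₂ with hn
  have e1 := (h n ((le_max_left _ _).trans (le_max_left _ _))).2
  obtain ⟨f2, e2⟩ := h' n ((le_max_right _ _).trans (le_max_left _ _))
  have heq : Tr N n = Tr N' n :=
    Submodule.eq_of_le_of_finrank_eq (Tr_mono hN n) (by omega)
  have : ξ ∈ Tr N n := by
    rw [heq]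
    exact h2 n (le_max_right _ _)
  exact this.1

/-- convenient form of the upper bound. -/
theorem HasChi.finrank_le {N : Submodule k (LaurentSeries k)} {c : ℤ} (h : HasChi N c) :
    ∃ n₀ : ℤ, ∀ n, n₀ ≤ n → ∀ S : Submodule k (LaurentSeries k), S ≤ Tr N n →
      FiniteDimensional k S ∧ (Module.finrank k S : ℤ) ≤ n + c := by
  obtain ⟨n₀, h⟩ := h
  refine ⟨n₀, fun n hn S hS => ?_⟩
  obtain ⟨f, e⟩ := h n hn
  refine ⟨Submodule.finiteDimensional_of_le hS, ?_⟩
  have := Submodule.finrank_mono hS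
  omega

end Fermat.Agent.CAR.P1
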