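import Fermat.Agent.CAR.P1.Deg

/-!
# CAR / P1 : the degree theory of a Dedekind subring of `k((Q))`   (package P1-G2)

`R ⊆ k((Q))` a Dedekind domain containing the constants with `dim {ξ ∈ R | -n ≤ order ξ} = n + χ` for `n` large.
Then every fractional ideal has an Euler characteristic and it is additive on products.
-/

set_option autoImplicit false

noncomputable section

namespace Fermat.Agent.CAR.P1

variable {k : Type*} [Field k]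

/-! ### P1-G2 -/

theorem g2_Tr_inf (A B : Submodule k (LaurentSeries k)) (n : ℤ) :
    Tr A n ⊓ Tr B n = Tr (A ⊓ B) n := by
  ext ξ
  simp only [Submodule.mem_inf, mem_Tr]
  tauto

theorem g2_Tr_inf_Tr {A N : Submodule k (LaurentSeries k)} (h : A ≤ N) {n₀ n₁ : ℤ}
    (hn : n₀ ≤ n₁) : Tr N n₀ ⊓ Tr A n₁ = Tr A n₀ := by
  ext ξ
  simp only [Submodule.mem_inf, mem_Tr]
  constructor
  · rintro ⟨⟨_, h1⟩, h2, _⟩
    exact ⟨h2, h1⟩
  · rintro ⟨h1, h2⟩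
    exact ⟨⟨h h1, h2⟩, h1, fun i hi => h2 i (by omega)⟩

theorem g2_exists_le (A B : Submodule k (LaurentSeries k)) (S : Finset (LaurentSeries k))
    (hS : ∀ x ∈ S, x ∈ A ⊔ B) :
    ∃ n₁ : ℤ, ∀ n, n₁ ≤ n → ∀ x ∈ S, x ∈ Tr A n ⊔ Tr B n := by
  classical
  induction S using Finset.induction_on with
  | empty => exact ⟨0, fun _ _ x hx => absurd hx (Finset.notMem_empty x)⟩
  | insert x S hx ih =>
    obtain ⟨n₁, h₁⟩ := ih fun y hy => hS y (Finset.mem_insert_of_mem hy)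
    obtain ⟨y, hy, z, hz, hyz⟩ := Submodule.mem_sup.1 (hS x (Finset.mem_insert_self x S))
    obtain ⟨n₂, h₂⟩ := exists_mem_Tr hy
    obtain ⟨n₃, h₃⟩ := exists_mem_Tr hz
    refine ⟨max n₁ (max n₂ n₃), fun n hn w hw => ?_⟩
    rcases Finset.mem_insert.1 hw with rfl | hw
    · rw [← hyz]
      exact Submodule.add_mem_sup (h₂ n (by omega)) (h₃ n (by omega))
    · exact h₁ n (by omega) w hw

/-- **Modular law.**
`U n := Tr A n ⊔ Tr B n ≤ V n := Tr (A ⊔ B) n`, `Tr A n ⊓ Tr B n = Tr (A ⊓ B) n`, so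
`finrank (U n) = n + (a + b - i)` (`Submodule.finrank_sup_add_finrank_inf_eq`) and `δ := s - (a + b - i) ≥ 0`.
Suppose `δ > 0`, fix `n₀` beyond all thresholds.  (i) `V n₁ = V n₀ ⊔ U n₁` for `n₁ ≥ n₀` (induction on `n₁`:
`finrank (U (n+1)) = finrank (U n) + 1` gives an element of `U (n+1)` with non zero coefficient at `-(n+1)`; subtract a
multiple of it).  (ii) choose a basis of a complement of `U n₀` in `V n₀` (or just: finitely many generators of `V n₀`);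
each generator is `x + y`, `x ∈ A`, `y ∈ B`, so lies in `U n₁` for `n₁` large (`exists_mem_Tr`).  Hence `V n₀ ≤ U n₁`,
`V n₁ = U n₁`, `δ = 0`. -/
theorem HasChi.modular {A B : Submodule k (LaurentSeries k)} {a b i s : ℤ} (hA : HasChi A a)
    (hB : HasChi B b) (hi : HasChi (A ⊓ B) i) (hs : HasChi (A ⊔ B) s) : a + b = i + s := by
  obtain ⟨nA, hA⟩ := hA
  obtain ⟨nB, hB⟩ := hB
  obtain ⟨ni, hi⟩ := hi
  obtain ⟨ns, hs⟩ := hs
  obtain ⟨n₀, hn₀⟩ : ∃ n₀ : ℤ, n₀ = max (max nA nB) (max ni ns) := ⟨_, rfl⟩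
  obtain ⟨fs0, ds0⟩ := hs n₀ (by omega)
  obtain ⟨fA0, dA0⟩ := hA n₀ (by omega)
  obtain ⟨S, hS⟩ : (Tr (A ⊔ B) n₀).FG := (Submodule.fg_iff_finiteDimensional _).2 fs0
  have hSmem : ∀ x ∈ S, x ∈ A ⊔ B := fun x hx =>
    Tr_le _ n₀ (hS ▸ Submodule.subset_span (Finset.mem_coe.2 hx))
  obtain ⟨n₁', h₁⟩ := g2_exists_le A B S hSmem
  obtain ⟨n₁, hn₁⟩ : ∃ n₁ : ℤ, n₁ = max n₀ n₁' := ⟨_, rfl⟩
  have hn01 : n₀ ≤ n₁ := by omega
  obtain ⟨fA, dA⟩ := hA n₁ (by omega)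
  obtain ⟨fB, dB⟩ := hB n₁ (by omega)
  obtain ⟨fi, di⟩ := hi n₁ (by omega)
  obtain ⟨fs, ds⟩ := hs n₁ (by omega)
  have hV0 : Tr (A ⊔ B) n₀ ≤ Tr A n₁ ⊔ Tr B n₁ := by
    rw [← hS, Submodule.span_le]
    exact fun x hx => h₁ n₁ (by omega) x (Finset.mem_coe.1 hx)
  have hU : Module.finrank k ↥(Tr A n₁ ⊔ Tr B n₁) + Module.finrank k (Tr (A ⊓ B) n₁)
      = Module.finrank k (Tr A n₁) + Module.finrank k (Tr B n₁) := by
    rw [← g2_Tr_inf]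
    exact Submodule.finrank_sup_add_finrank_inf_eq _ _
  have hUV : Tr A n₁ ⊔ Tr B n₁ ≤ Tr (A ⊔ B) n₁ :=
    sup_le (Tr_mono le_sup_left _) (Tr_mono le_sup_right _)
  have hW : Module.finrank k ↥(Tr (A ⊔ B) n₀ ⊔ Tr A n₁) + Module.finrank k (Tr A n₀)
      = Module.finrank k (Tr (A ⊔ B) n₀) + Module.finrank k (Tr A n₁) := by
    rw [← g2_Tr_inf_Tr (le_sup_left : A ≤ A ⊔ B) hn01]
    exact Submodule.finrank_sup_add_finrank_inf_eq _ _
  have hWV : Tr (A ⊔ B) n₀ ⊔ Tr A n₁ ≤ Tr (A ⊔ B) n₁ :=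
    sup_le (Tr_mono_right _ hn01) (Tr_mono le_sup_left _)
  have hWeq : Tr (A ⊔ B) n₀ ⊔ Tr A n₁ = Tr (A ⊔ B) n₁ :=
    Submodule.eq_of_le_of_finrank_eq hWV (by omega)
  have hVU : Tr (A ⊔ B) n₁ ≤ Tr A n₁ ⊔ Tr B n₁ := by
    rw [← hWeq]
    exact sup_le hV0 le_sup_left
  have e : Module.finrank k ↥(Tr A n₁ ⊔ Tr B n₁) = Module.finrank k (Tr (A ⊔ B) n₁) := by
    rw [le_antisymm hUV hVU]
  omega

end Fermat.Agent.CAR.P1
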