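import Fermat.Agent.CAR.P1.Deg

/-!
# CAR / P1 : the degree theory of a Dedekind subring of `k((Q))`   (package P1-G3)

`R ⊆ k((Q))` a Dedekind domain containing the constants with `dim {ξ ∈ R | -n ≤ order ξ} = n + χ` for `n` large.
Then every fractional ideal has an Euler characteristic and it is additive on products.
-/

set_option autoImplicit false

noncomputable section

namespace Fermat.Agent.CAR.P1

variable {k : Type*} [Field k]

/-! ### P1-G3 -/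

/-- the pure Dedekind statement. -/
theorem G3_ideal {R : Type*} [CommRing R] [IsDedekindDomain R] {I J : Ideal R} (hI : I ≠ ⊥)
    (hJ : J ≠ ⊥) :
    ∃ a ∈ I, a ≠ 0 ∧ Ideal.span {a} ⊔ I * J = I ∧ ∀ r, r * a ∈ I * J → r ∈ J := by
  by_cases hJt : J = ⊤
  · obtain ⟨a, haI, ha0⟩ := Submodule.exists_mem_ne_zero_of_ne_bot hI
    refine ⟨a, haI, ha0, ?_, fun r _ => by rw [hJt]; exact Submodule.mem_top⟩
    rw [hJt, Ideal.mul_top]
    exact sup_eq_right.2 ((Ideal.span_singleton_le_iff_mem I).2 haI)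
  have hIJ0 : I * J ≠ 0 := mul_ne_zero hI hJ
  obtain ⟨a, ha⟩ := IsDedekindDomain.exists_sup_span_eq (Ideal.mul_le_left : I * J ≤ I) hIJ0
  have hale : Ideal.span {a} ≤ I := by
    rw [← ha]
    exact le_sup_right
  have haI : a ∈ I := (Ideal.span_singleton_le_iff_mem I).1 hale
  obtain ⟨Lc, hL⟩ := Ideal.dvd_iff_le.2 hale
  have htop : J ⊔ Lc = ⊤ := by
    have h1 : I * (J ⊔ Lc) = I * ⊤ := by rw [Ideal.mul_sup, ← hL, ha, Ideal.mul_top]
    exact mul_left_cancel₀ hI h1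
  refine ⟨a, haI, ?_, by rw [sup_comm]; exact ha, fun r hr => ?_⟩
  · rintro rfl
    apply hJt
    have h1 : I * J = I * ⊤ := by
      rw [Ideal.mul_top]
      have h2 : Ideal.span {(0 : R)} = ⊥ := Ideal.span_singleton_eq_bot.2 rfl
      rw [h2, sup_bot_eq] at ha
      exact ha
    exact mul_left_cancel₀ hI h1
  · have h1 : I * (Ideal.span {r} * Lc) ≤ I * J := by
      have h2 : I * (Ideal.span {r} * Lc) = Ideal.span {r * a} := by
        rw [← Ideal.span_singleton_mul_span_singleton, hL]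
        ring
      rw [h2]
      exact (Ideal.span_singleton_le_iff_mem _).2 hr
    have h3 : Ideal.span {r} * Lc ≤ J := by
      rw [← Ideal.dvd_iff_le] at h1 ⊢
      exact (mul_dvd_mul_iff_left hI).1 h1
    have h4 : Ideal.span {r} ≤ J := by
      calc Ideal.span {r} = Ideal.span {r} * (J ⊔ Lc) := by rw [htop, Ideal.mul_top]
        _ = Ideal.span {r} * J ⊔ Ideal.span {r} * Lc := Ideal.mul_sup _ _ _
        _ ≤ J := sup_le Ideal.mul_le_right h3
    exact (Ideal.span_singleton_le_iff_mem J).1 h4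

/-- the ideal of `R` with underlying set `N ∩ R`. -/
def G3_id (R : Subring (LaurentSeries k)) {N : Submodule k (LaurentSeries k)} (f : IsFrac R N) :
    Ideal R where
  carrier := {r | (r : LaurentSeries k) ∈ N}
  add_mem' := fun h h' => N.add_mem h h'
  zero_mem' := N.zero_mem
  smul_mem' := fun c _ h => f.mul_mem c c.2 _ h

theorem G3_mem_id {R : Subring (LaurentSeries k)} {N : Submodule k (LaurentSeries k)}
    (f : IsFrac R N) {r : R} : r ∈ G3_id R f ↔ (r : LaurentSeries k) ∈ N := Iff.rfl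

theorem G3_id_ne_bot {R : Subring (LaurentSeries k)} (hC : ∀ c : k, HahnSeries.C c ∈ R)
    {N : Submodule k (LaurentSeries k)} (f : IsFrac R N) (hN : N ≤ Rs R) : G3_id R f ≠ ⊥ := by
  obtain ⟨ξ, hξ, hξ0⟩ := Submodule.exists_mem_ne_zero_of_ne_bot f.ne
  intro h
  have h1 : (⟨ξ, (mem_Rs hC).1 (hN hξ)⟩ : R) ∈ G3_id R f := hξ
  rw [h, Ideal.mem_bot] at h1
  exact hξ0 (congrArg Subtype.val h1)

/-- an ideal of `R` as a `k`-subspace. -/
def G3_sub {R : Subring (LaurentSeries k)} (hC : ∀ c : k, HahnSeries.C c ∈ R) (𝔞 : Ideal R) :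
    Submodule k (LaurentSeries k) where
  carrier := {ξ | ∃ r ∈ 𝔞, (r : LaurentSeries k) = ξ}
  add_mem' := by
    rintro _ _ ⟨r, hr, rfl⟩ ⟨r', hr', rfl⟩
    exact ⟨r + r', 𝔞.add_mem hr hr', rfl⟩
  zero_mem' := ⟨0, 𝔞.zero_mem, rfl⟩
  smul_mem' := by
    rintro c _ ⟨r, hr, rfl⟩
    refine ⟨⟨HahnSeries.C c, hC c⟩ * r, 𝔞.mul_mem_left _ hr, ?_⟩
    show HahnSeries.C c * (r : LaurentSeries k) = c • (r : LaurentSeries k)
    exact HahnSeries.C_mul_eq_smul

theorem G3_mem_mulS {R : Subring (LaurentSeries k)} (hC : ∀ c : k, HahnSeries.C c ∈ R)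
    {I J : Submodule k (LaurentSeries k)} (fI : IsFrac R I) (hI : I ≤ Rs R) (fJ : IsFrac R J)
    (hJ : J ≤ Rs R) {ξ : LaurentSeries k} :
    ξ ∈ mulS I J ↔ ∃ r ∈ G3_id R fI * G3_id R fJ, (r : LaurentSeries k) = ξ := by
  constructor
  · intro h
    have h1 : mulS I J ≤ G3_sub hC (G3_id R fI * G3_id R fJ) := by
      rw [mulS_le]
      intro x hx y hy
      have hx' : (⟨x, (mem_Rs hC).1 (hI hx)⟩ : R) ∈ G3_id R fI := hx
      have hy' : (⟨y, (mem_Rs hC).1 (hJ hy)⟩ : R) ∈ G3_id R fJ := hy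
      exact ⟨_, Ideal.mul_mem_mul hx' hy', rfl⟩
    exact h1 h
  · rintro ⟨r, hr, rfl⟩
    refine Submodule.mul_induction_on hr (fun x hx y hy => ?_) (fun x y hx hy => ?_)
    · exact mul_mem_mulS hx hy
    · exact (mulS I J).add_mem hx hy

/-- **The Dedekind input.**
Let `I' J' : Ideal R` be the ideals with underlying sets `I`, `J` (`mem_Rs`).  If `J' = ⊤` take any `a ≠ 0` in `I`.
Otherwise `IsDedekindDomain.exists_sup_span_eq (I' * J' ≤ I') (I' * J' ≠ 0)` gives `a` with `I' * J' ⊔ span {a} = I'`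
(`a ≠ 0`, else `I' J' = I'`, `J' = ⊤`).  `span {a} = I' * L` (`Ideal.dvd_iff_le`), so `I' (J' ⊔ L) = I'`, `J' ⊔ L = ⊤`.
If `r a ∈ I' J'` then `span {r} * I' * L ≤ I' * J'`, cancel `I'`: `span {r} * L ≤ J'`, so
`r ∈ span {r} * (J' ⊔ L) ≤ J'`. -/
theorem exists_gen_mod (R : Subring (LaurentSeries k)) [IsDedekindDomain R]
    (hC : ∀ c : k, HahnSeries.C c ∈ R) {I J : Submodule k (LaurentSeries k)} (fI : IsFrac R I)
    (hI : I ≤ Rs R) (fJ : IsFrac R J) (hJ : J ≤ Rs R) :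
    ∃ a ∈ I, a ≠ 0 ∧ sm a (Rs R) ⊔ mulS I J = I ∧ sm a (Rs R) ⊓ mulS I J = sm a J := by
  obtain ⟨a, haI, ha0, hsup, hcan⟩ := G3_ideal (G3_id_ne_bot hC fI hI) (G3_id_ne_bot hC fJ hJ)
  have haI' : (a : LaurentSeries k) ∈ I := haI
  refine ⟨a, haI', fun h => ha0 (Subtype.ext h), le_antisymm ?_ ?_, le_antisymm ?_ ?_⟩
  · refine sup_le ?_ ?_
    · intro ζ hζ
      obtain ⟨η, hη, rfl⟩ := mem_sm.1 hζ
      rw [mul_comm]
      exact fI.mul_mem η ((mem_Rs hC).1 hη) _ haI'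
    · rw [mulS_le]
      intro x hx y hy
      rw [mul_comm]
      exact fI.mul_mem y ((mem_Rs hC).1 (hJ hy)) _ hx
  · intro ξ hξ
    have h1 : (⟨ξ, (mem_Rs hC).1 (hI hξ)⟩ : R) ∈ Ideal.span {a} ⊔ G3_id R fI * G3_id R fJ := by
      rw [hsup]
      exact hξ
    obtain ⟨x, hx, y, hy, hxy⟩ := Submodule.mem_sup.1 h1
    have h2 : ξ = (x : LaurentSeries k) + (y : LaurentSeries k) := by
      have := congrArg Subtype.val hxy
      exact this.symm
    rw [h2]
    refine Submodule.add_mem_sup ?_ ((G3_mem_mulS hC fI hI fJ hJ).2 ⟨y, hy, rfl⟩)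
    obtain ⟨c, rfl⟩ := Ideal.mem_span_singleton'.1 hx
    rw [mem_sm]
    exact ⟨c, (mem_Rs hC).2 c.2, mul_comm _ _⟩
  · rintro ζ ⟨h1, h2⟩
    obtain ⟨η, hη, rfl⟩ := mem_sm.1 h1
    obtain ⟨r, hr, hrη⟩ := (G3_mem_mulS hC fI hI fJ hJ).1 h2
    have h3 : (⟨η, (mem_Rs hC).1 hη⟩ : R) * a = r := by
      apply Subtype.ext
      rw [hrη]
      exact mul_comm _ _
    have h4 : (⟨η, (mem_Rs hC).1 hη⟩ : R) ∈ G3_id R fJ := hcan _ (h3 ▸ hr)
    exact mul_mem_sm h4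
  · refine le_inf (sm_mono _ hJ) ?_
    intro ζ hζ
    obtain ⟨η, hη, rfl⟩ := mem_sm.1 hζ
    exact mul_mem_mulS haI' hη

end Fermat.Agent.CAR.P1
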