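import Fermat.Agent.CAR.P1.G1
import Fermat.Agent.CAR.P1.G2
import Fermat.Agent.CAR.P1.G3

/-!
# CAR / P1 : the degree theory of a Dedekind subring of `k((Q))`   (package P1-G4)

`R ⊆ k((Q))` a Dedekind domain containing the constants with `dim {ξ ∈ R | -n ≤ order ξ} = n + χ` for `n` large.
Then every fractional ideal has an Euler characteristic and it is additive on products.
-/

set_option autoImplicit false

noncomputable section

namespace Fermat.Agent.CAR.P1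

variable {k : Type*} [Field k]

/-! ### P1-G4 -/

theorem degDed_sm_inv_sm {ξ : LaurentSeries k} (hξ : ξ ≠ 0) (N : Submodule k (LaurentSeries k)) :
    sm ξ⁻¹ (sm ξ N) = N := by
  rw [sm_sm, inv_mul_cancel₀ hξ, sm_one]

theorem degDed_order_inv {ξ : LaurentSeries k} (hξ : ξ ≠ 0) : ξ⁻¹.order = - ξ.order := by
  have h := HahnSeries.order_mul hξ (inv_ne_zero hξ)
  rw [mul_inv_cancel₀ hξ, HahnSeries.order_one] at h
  linarith

theorem degDed_sm_le_Rs {R : Subring (LaurentSeries k)} (hC : ∀ c : k, HahnSeries.C c ∈ R)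
    {N : Submodule k (LaurentSeries k)} {ξ : LaurentSeries k} (h : ∀ η ∈ N, ξ * η ∈ R) :
    sm ξ N ≤ Rs R := by
  intro ζ hζ
  obtain ⟨η, hη, rfl⟩ := mem_sm.1 hζ
  exact (mem_Rs hC).2 (h η hη)

/-- existence of the Euler characteristic: `ξ N ⊆ R` contains `η R` (`η ≠ 0` in `ξ N`): `HasChi.of_sandwich`,
`HasChi.sm`; then `N = sm ξ⁻¹ (sm ξ N)`. -/
theorem exists_hasChi {R : Subring (LaurentSeries k)} (hC : ∀ c : k, HahnSeries.C c ∈ R) {χ : ℤ}
    (h0 : HasChi (Rs R) χ) {N : Submodule k (LaurentSeries k)} (fN : IsFrac R N) :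
    ∃ c, HasChi N c := by
  obtain ⟨ξ, hξ, hden⟩ := fN.den
  obtain ⟨η₀, hη₀, hη₀0⟩ := (Submodule.ne_bot_iff N).1 fN.ne
  have hη : ξ * η₀ ≠ 0 := mul_ne_zero hξ hη₀0
  have h1 : sm (ξ * η₀) (Rs R) ≤ sm ξ N := by
    intro ζ hζ
    obtain ⟨r, hr, rfl⟩ := mem_sm.1 hζ
    have hr' : r ∈ R := (mem_Rs hC).1 hr
    have e : ξ * η₀ * r = ξ * (r * η₀) := by ring
    rw [e]
    exact mul_mem_sm (fN.mul_mem r hr' η₀ hη₀)
  obtain ⟨c, hc⟩ := HasChi.of_sandwich h1 (degDed_sm_le_Rs hC hden) (h0.sm hη) h0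
  refine ⟨c + ξ⁻¹.order, ?_⟩
  have := hc.sm (inv_ne_zero hξ)
  rwa [degDed_sm_inv_sm hξ] at this

/-- additivity for integral ideals: `exists_gen_mod` + `HasChi.modular` with `A = a R`, `B = I J`. -/
theorem hasChi_mulS_of_le (R : Subring (LaurentSeries k)) [IsDedekindDomain R]
    (hC : ∀ c : k, HahnSeries.C c ∈ R) {χ : ℤ} (h0 : HasChi (Rs R) χ)
    {I J : Submodule k (LaurentSeries k)} (fI : IsFrac R I) (hI : I ≤ Rs R) (fJ : IsFrac R J)
    (hJ : J ≤ Rs R) {c c' : ℤ} (hc : HasChi I c) (hc' : HasChi J c') :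
    HasChi (mulS I J) (c + c' - χ) := by
  obtain ⟨a, -, ha0, hsup, hinf⟩ := exists_gen_mod R hC fI hI fJ hJ
  obtain ⟨b, hb⟩ := exists_hasChi hC h0 (fI.mulS fJ)
  have hA : HasChi (sm a (Rs R)) (χ + a.order) := h0.sm ha0
  have hi : HasChi (sm a (Rs R) ⊓ mulS I J) (c' + a.order) := by
    rw [hinf]
    exact hc'.sm ha0
  have hs : HasChi (sm a (Rs R) ⊔ mulS I J) c := by
    rw [hsup]
    exact hc
  have key := HasChi.modular hA hb hi hs
  have e : c + c' - χ = b := by linarith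
  rw [e]
  exact hb

/-- **Degree theory of a Dedekind ring.**  General fractional ideals: scale by the denominators (`sm_mulS`, `mulS_comm`,
`sm_sm`, `HasChi.sm`, `HasChi.unique`, `HahnSeries.order_mul`, `HahnSeries.order_inv`-type lemma:
`order ξ⁻¹ = - order ξ` from `order_mul` and `ξ * ξ⁻¹ = 1`). -/
theorem degTh_of_dedekind (R : Subring (LaurentSeries k)) [IsDedekindDomain R]
    (hC : ∀ c : k, HahnSeries.C c ∈ R) {χ : ℤ} (h0 : HasChi (Rs R) χ) : DegTh R χ := by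
  refine ⟨hC, h0, fun N fN => exists_hasChi hC h0 fN, ?_⟩
  intro N N' c c' fN fN' hc hc'
  obtain ⟨ξ, hξ, hden⟩ := fN.den
  obtain ⟨ξ', hξ', hden'⟩ := fN'.den
  have h1 := hasChi_mulS_of_le R hC h0 (fN.sm hξ) (degDed_sm_le_Rs hC hden) (fN'.sm hξ')
    (degDed_sm_le_Rs hC hden') (hc.sm hξ) (hc'.sm hξ')
  have e1 : mulS (sm ξ N) (sm ξ' N') = sm (ξ * ξ') (mulS N N') := by
    rw [sm_mulS, mulS_comm N (sm ξ' N'), sm_mulS, sm_sm, mulS_comm N' N]
  rw [e1] at h1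
  have hξξ : ξ * ξ' ≠ 0 := mul_ne_zero hξ hξ'
  have h2 := h1.sm (inv_ne_zero hξξ)
  rw [degDed_sm_inv_sm hξξ, degDed_order_inv hξξ, HahnSeries.order_mul hξ hξ'] at h2
  have e2 : c + ξ.order + (c' + ξ'.order) - χ + -(ξ.order + ξ'.order) = c + c' - χ := by ring
  rwa [e2] at h2

end Fermat.Agent.CAR.P1
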