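import Fermat.Agent.CAR.P1.C12

/-!
# CAR / P1 : export: local generators of the middle vertical prime   (package P1-E1)

The conclusions are in the shape of the hypotheses of `CAR.NS.genOn_of_dvd` (`ν * β = y₀ * π ^ 1`, `y₀ ∉ P`,
`ν` uniformiser of `vm`).
-/

set_option autoImplicit false

open Polynomial

noncomputable section

namespace Fermat.Agent.CAR.P1

open Fermat.Agent.GAL.KL Fermat.Agent.GAL.KLC Fermat.Agent.TOR.T1

variable {K E k Γ₀ : Type*} [Field K] [Field E] [Algebra K E] [Field k]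
  [LinearOrderedCommGroupWithZero Γ₀] (D : Dat K E k Γ₀)

namespace Dat

/-- valuation bookkeeping: if `b ∈ 𝔟_1`, `b' ∈ 𝔟_(e-1)` and `vm (b b'/π) = 1` then `vm b = vm ν₀`. -/
theorem vm_eq_of_unit {b b' : E} (h : D.Bj 1 b) (h' : D.Bj (D.e - 1) b')
    (hu : D.vm (b * b' / D.pi) = 1) : D.vm b = D.vm D.ν₀ := by
  have h1 : D.vm b ≤ D.vm D.ν₀ := by simpa using h.2.2
  have h2 : D.vm b' ≤ D.vm D.ν₀ ^ (D.e - 1) := h'.2.2
  have hpi : D.vm D.pi = D.vm D.ν₀ ^ D.e := D.ν_pow.symm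
  have hν : D.vm D.ν₀ ≠ 0 := D.vm_nu_ne
  have hpi0 : D.vm D.pi ≠ 0 := by rw [hpi]; exact pow_ne_zero _ hν
  have h3 : D.vm b * D.vm b' = D.vm D.ν₀ ^ D.e := by
    rw [map_div₀, map_mul, div_eq_one_iff_eq hpi0] at hu
    rw [hu, hpi]
  refine le_antisymm h1 (not_lt.1 fun hlt => ?_)
  have he : D.e = 1 + (D.e - 1) := by have := D.he; omega
  have h4 : D.vm b * D.vm b' < D.vm D.ν₀ ^ D.e := by
    calc D.vm b * D.vm b' ≤ D.vm b * D.vm D.ν₀ ^ (D.e - 1) := mul_le_mul_right h2 _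
      _ < D.vm D.ν₀ * D.vm D.ν₀ ^ (D.e - 1) :=
          mul_lt_mul_of_pos_right hlt (zero_lt_iff.2 (pow_ne_zero _ hν))
      _ = D.vm D.ν₀ ^ D.e := by rw [← pow_succ', Nat.sub_add_cancel (by have := D.he; omega)]
  exact absurd h3 h4.ne

/-- common end of the three exports: `u : E` any chart parameter, `B` the chart ring, `P` a prime containing `p_m`;
if a sum of elements `b_i b_i'/π` is congruent mod `p_m` to an element `y ∉ P` then one of them does the job. -/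
theorem export_of_sum {u : E} (B : Subring E) (hB : ∀ z, z ∈ B ↔ IsInt K u z ∧ D.Ball z)
    (P : Ideal B) (hP : P.IsPrime) (hm : ∀ z : B, D.vm (z : E) < 1 → z ∈ P) {y : B} (hy : y ∉ P)
    {r : ℕ} {b b' : Fin r → E} (hb : ∀ i, IsInt K u (b i) ∧ D.Bj 1 (b i))
    (hb' : ∀ i, IsInt K u (b' i) ∧ D.Bj (D.e - 1) (b' i))
    (hs : D.vm ((y : E) - ∑ i, b i * b' i / D.pi) < 1) :
    ∃ ν β y₀ : B, y₀ ∉ P ∧ (ν : E) * β = y₀ * D.pi ∧ D.vm (ν : E) = D.vm D.ν₀ := by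
  have he : 1 + (D.e - 1) = D.e := by have := D.he; omega
  have hc : ∀ i, b i * b' i / D.pi ∈ B := fun i => by
    rw [hB]
    refine ⟨?_, (Bj.mul_div_pi D he (hb i).2 (hb' i).2).ball⟩
    rw [div_eq_mul_inv]
    exact ((hb i).1.mul (hb' i).1).mul (D.isInt_pi_inv u)
  set c : Fin r → B := fun i => ⟨b i * b' i / D.pi, hc i⟩ with hcdef
  have hsum : ((∑ i, c i : B) : E) = ∑ i, b i * b' i / D.pi := by
    rw [AddSubmonoidClass.coe_finsetSum]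
  have h1 : y - ∑ i, c i ∈ P := by
    apply hm
    rw [AddSubgroupClass.coe_sub, hsum]
    exact hs
  have h2 : ∑ i, c i ∉ P := fun h => hy (by
    have := P.add_mem h1 h
    rwa [sub_add_cancel] at this)
  have h3 : ∃ i, c i ∉ P := by
    by_contra hcon
    refine h2 (P.sum_mem fun i _ => ?_)
    by_contra hi
    exact hcon ⟨i, hi⟩
  obtain ⟨i, hi⟩ := h3
  have h4 : D.vm (b i * b' i / D.pi) = 1 := by
    refine le_antisymm ((hB _).1 (hc i)).2.2.1 (not_lt.1 fun hlt => hi (hm (c i) hlt))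
  refine ⟨⟨b i, (hB _).2 ⟨(hb i).1, (hb i).2.ball⟩⟩, ⟨b' i, (hB _).2 ⟨(hb' i).1, (hb' i).2.ball⟩⟩,
    c i, hi, ?_, D.vm_eq_of_unit (hb i).2 (hb' i).2 h4⟩
  show b i * b' i = b i * b' i / D.pi * D.pi
  rw [div_mul_cancel₀ _ D.pi_ne]

/-- **The case `e = 1`** (`q = 2`): `π` itself generates (`ν = π`, `β = y₀ = 1`), on any chart `u`. -/
theorem export_e1 (he1 : D.e = 1) {u : E} (B : Subring E) (hB : ∀ z, z ∈ B ↔ IsInt K u z ∧ D.Ball z)
    (P : Ideal B) (hP : P.IsPrime) :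
    ∃ ν β y₀ : B, y₀ ∉ P ∧ (ν : E) * β = y₀ * D.pi ∧ D.vm (ν : E) = D.vm D.ν₀ := by
  have hpi : D.pi ∈ B :=
    (hB _).2 ⟨D.isInt_pi u, D.vo_pi_lt.le, D.vm_pi.trans_le D.vo_pi_lt.le, D.vz_pi.trans_le D.vo_pi_lt.le⟩
  refine ⟨⟨D.pi, hpi⟩, 1, 1, fun h => hP.ne_top ((Ideal.eq_top_iff_one _).2 h), ?_, ?_⟩
  · show D.pi * ((1 : B) : E) = ((1 : B) : E) * D.pi
    rw [mul_comm]
  · show D.vm D.pi = D.vm D.ν₀
    have h := D.ν_pow
    rw [he1, pow_one] at h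
    exact h.symm

/-- **Export, chart `t`.**  `y := y_o y_z ∉ P`, `y ∈ 𝔟_0`; `c1`; `export_of_sum`.  (`e = 1`: `export_e1`.) -/
theorem export_t (B : Subring E) (hB : ∀ z, z ∈ B ↔ IsInt K D.t z ∧ D.Ball z)
    (P : Ideal B) (hP : P.IsPrime) (hm : ∀ z : B, D.vm (z : E) < 1 → z ∈ P)
    (ho : ∃ z : B, D.vo (z : E) < 1 ∧ z ∉ P) (hz : ∃ z : B, D.vz (z : E) < 1 ∧ z ∉ P) :
    ∃ ν β y₀ : B, y₀ ∉ P ∧ (ν : E) * β = y₀ * D.pi ∧ D.vm (ν : E) = D.vm D.ν₀ := by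
  by_cases he1 : D.e = 1
  · exact D.export_e1 he1 B hB P hP
  have he2 : 2 ≤ D.e := by have := D.he; omega
  obtain ⟨yo, hyo, hyoP⟩ := ho
  obtain ⟨yz, hyz, hyzP⟩ := hz
  have hy : yo * yz ∉ P := fun h => (hP.mem_or_mem h).elim hyoP hyzP
  have ho' := (hB _).1 yo.2
  have hz' := (hB _).1 yz.2
  have hBj : D.Bj 0 ((yo * yz : B) : E) := by
    refine ⟨?_, ?_, ?_⟩
    · rw [Subring.coe_mul, map_mul]
      exact mul_lt_one_of_lt_of_le hyo hz'.2.1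
    · rw [Subring.coe_mul, map_mul]
      rw [mul_comm]
      exact mul_lt_one_of_lt_of_le hyz ho'.2.2.2
    · rw [pow_zero]
      exact ((hB _).1 (yo * yz).2).2.2.1
  obtain ⟨r, b, b', hb, hb', hs⟩ := D.c1 he2 ((hB _).1 (yo * yz).2).1 hBj
  exact D.export_of_sum B hB P hP hm hy hb hb' hs

end Dat

end Fermat.Agent.CAR.P1
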