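import Fermat.Agent.CAR.P1.ExpA

/-!
# CAR / P1 : export: local generators of the middle vertical prime   (package P1-E2)

The conclusions are in the shape of the hypotheses of `CAR.NS.genOn_of_dvd` (`ν * β = y₀ * π ^ 1`, `y₀ ∉ P`,
`ν` uniformiser of `vm`).
-/

set_option autoImplicit false

open Polynomial

noncomputable section

namespace Fermat.Agent.CAR.P1

open Fermat.Agent.GAL.KL Fermat.Agent.GAL.KLC Fermat.Agent.TOR.T1

variable {K E k Γ₀ : Type*} [Field K] [Field E] [Algebra K E] [Field k]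
  [LinearOrderedCommGroupWithZero Γ₀] (D : Dat K E k Γ₀)

namespace Dat

/-- **Export, chart `t⁻¹`, points with `t ≠ ∞`.**
`y' := y_o y_z ∉ P`.  `IsInt.shift`: `y'' := t^m y'` is integral over `K[t]`, `∈ 𝔟_0`.  `c1` gives `b_i, b_i'`;
`exists_mem_LL`: for `A` large (`m ≤ 2A`) all `t⁻¹^A b_i`, `t⁻¹^A b_i'` are integral over `K[t⁻¹]`;
`t⁻¹^(2A) y'' = t⁻¹^(2A-m) y' ∉ P`; `export_of_sum`. -/
theorem export_inv_fin (B : Subring E) (hB : ∀ z, z ∈ B ↔ IsInt K D.t⁻¹ z ∧ D.Ball z)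
    (P : Ideal B) (hP : P.IsPrime) (hm : ∀ z : B, D.vm (z : E) < 1 → z ∈ P)
    (ho : ∃ z : B, D.vo (z : E) < 1 ∧ z ∉ P) (hz : ∃ z : B, D.vz (z : E) < 1 ∧ z ∉ P)
    (ht : ∀ s : B, (s : E) = D.t⁻¹ → s ∉ P) :
    ∃ ν β y₀ : B, y₀ ∉ P ∧ (ν : E) * β = y₀ * D.pi ∧ D.vm (ν : E) = D.vm D.ν₀ := by
  by_cases he1 : D.e = 1
  · exact D.export_e1 he1 B hB P hP
  have he2 : 2 ≤ D.e := by have := D.he; omega
  obtain ⟨yo, hyo, hyoP⟩ := ho
  obtain ⟨yz, hyz, hyzP⟩ := hz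
  have hBo := (hB yo).1 yo.2
  have hBz := (hB yz).1 yz.2
  have ballT : ∀ N : ℕ, D.Ball (D.t⁻¹ ^ N) := fun N =>
    ⟨by rw [map_pow, map_inv₀, D.vo_t, inv_one, one_pow],
      by rw [map_pow, map_inv₀, D.vm_t, inv_one, one_pow],
      by rw [map_pow, map_inv₀, D.vz_t, inv_one, one_pow]⟩
  have ballT' : ∀ N : ℕ, D.Ball (D.t ^ N) := fun N =>
    ⟨by rw [map_pow, D.vo_t, one_pow], by rw [map_pow, D.vm_t, one_pow],
      by rw [map_pow, D.vz_t, one_pow]⟩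
  have hsB : D.t⁻¹ ∈ B := by
    refine (hB _).2 ⟨?_, by simpa using ballT 1⟩
    have h1 := IsInt.aeval (L := K) (t := D.t⁻¹) (X : K[X])
    rwa [aeval_X] at h1
  have hsP : (⟨D.t⁻¹, hsB⟩ : B) ∉ P := ht _ rfl
  have hy'P : yo * yz ∉ P := fun h => (hP.mem_or_mem h).elim hyoP hyzP
  have hy'Bj : D.Bj 0 ((yo : E) * yz) := by
    refine ⟨?_, ?_, ?_⟩
    · rw [map_mul]
      exact mul_lt_one_of_lt_of_le hyo hBz.2.1
    · rw [map_mul, mul_comm]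
      exact mul_lt_one_of_lt_of_le hyz hBo.2.2.2
    · rw [map_mul, pow_zero]
      exact mul_le_one' hBo.2.2.1 hBz.2.2.1
  obtain ⟨m₀, hm₀⟩ := IsInt.shift D.t_ne (hBo.1.mul hBz.1)
  have hy''Bj : D.Bj 0 (D.t ^ m₀ * ((yo : E) * yz)) := Bj.mul_ball D hy'Bj (ballT' m₀)
  obtain ⟨r, b, b', hb, hb', hs⟩ := D.c1 he2 (hm₀ m₀ le_rfl) hy''Bj
  choose a ha using fun i => D.exists_mem_LL (hb i).1
  choose a' ha' using fun i => D.exists_mem_LL (hb' i).1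
  set A := max m₀ (max (Finset.univ.sup a) (Finset.univ.sup a')) with hA
  have hA1 : ∀ i, a i ≤ A := fun i =>
    (Finset.le_sup (f := a) (Finset.mem_univ i)).trans ((le_max_left _ _).trans (le_max_right _ _))
  have hA2 : ∀ i, a' i ≤ A := fun i =>
    (Finset.le_sup (f := a') (Finset.mem_univ i)).trans ((le_max_right _ _).trans (le_max_right _ _))
  have hA3 : m₀ ≤ A := le_max_left _ _
  refine D.export_of_sum (u := D.t⁻¹) B hB P hP hm
    (y := (⟨D.t⁻¹, hsB⟩ : B) ^ (2 * A - m₀) * (yo * yz)) ?_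
    (b := fun i => D.t⁻¹ ^ A * b i) (b' := fun i => D.t⁻¹ ^ A * b' i) ?_ ?_ ?_
  · intro h
    rcases hP.mem_or_mem h with h | h
    · exact hsP (hP.mem_of_pow_mem _ h)
    · exact hy'P h
  · intro i
    exact ⟨(ha i A (hA1 i)).2, Bj.mul_ball D (hb i).2 (ballT A)⟩
  · intro i
    exact ⟨(ha' i A (hA2 i)).2, Bj.mul_ball D (hb' i).2 (ballT A)⟩
  · have h1 : (((⟨D.t⁻¹, hsB⟩ : B) ^ (2 * A - m₀) * (yo * yz) : B) : E) -
        ∑ i, (D.t⁻¹ ^ A * b i) * (D.t⁻¹ ^ A * b' i) / D.pi =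
        D.t⁻¹ ^ (2 * A) * (D.t ^ m₀ * ((yo : E) * yz) - ∑ i, b i * b' i / D.pi) := by
      rw [mul_sub, Finset.mul_sum]
      congr 1
      · have h2 : D.t⁻¹ ^ (2 * A) = D.t⁻¹ ^ (2 * A - m₀) * D.t⁻¹ ^ m₀ := by
          rw [← pow_add]
          congr 1
          omega
        have h3 : D.t⁻¹ ^ m₀ * D.t ^ m₀ = 1 := by
          rw [← mul_pow, inv_mul_cancel₀ D.t_ne, one_pow]
        have h4 : (((⟨D.t⁻¹, hsB⟩ : B) ^ (2 * A - m₀) * (yo * yz) : B) : E) =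
            D.t⁻¹ ^ (2 * A - m₀) * ((yo : E) * yz) := rfl
        rw [h4, h2]
        linear_combination (-(D.t⁻¹ ^ (2 * A - m₀) * ((yo : E) * yz))) * h3
      · refine Finset.sum_congr rfl fun i _ => ?_
        rw [two_mul, pow_add]
        ring
    rw [h1, map_mul, map_pow, map_inv₀, D.vm_t, inv_one, one_pow, one_mul]
    exact hs

end Dat

end Fermat.Agent.CAR.P1
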