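import Fermat.Agent.CAR.P1.Api

/-!
# CAR / P1 : export: local generators of the middle vertical prime   (package P1-E3)

The conclusions are in the shape of the hypotheses of `CAR.NS.genOn_of_dvd` (`ν * β = y₀ * π ^ 1`, `y₀ ∉ P`,
`ν` uniformiser of `vm`).
-/

set_option autoImplicit false

open Polynomial

noncomputable section

namespace Fermat.Agent.CAR.P1

open Fermat.Agent.GAL.KL Fermat.Agent.GAL.KLC Fermat.Agent.TOR.T1

variable {K E k Γ₀ : Type*} [Field K] [Field E] [Algebra K E] [Field k]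
  [LinearOrderedCommGroupWithZero Γ₀] (D : Dat K E k Γ₀)

namespace Dat

/-- the point at infinity of the middle component is the only point of `Spec B_(1/t)` on `C_m` over `t = ∞`:
an element `u` of `B` whose reduction has order `0` is not in `P`.
PROOF.  Suppose `u ∈ P`.  `c := ψ.coeff 0 ≠ 0`, `α` a lift (`exists_const`), `w := u - α ∈ B`, `φ := ψ - C c` has all
coefficients of index `≤ 0` equal to `0` (`polm`).  `uniq`: `φ^N τm` integral over `k[τm⁻¹]`; `surj'`: it is `r_m β`, `β ∈ B`.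
`r_m (w^N - β t⁻¹) = 0`, so `w^N - β t⁻¹ ∈ P`, `w^N ∈ P`, `w ∈ P`, `α = u - w ∈ P`; but `α⁻¹ ∈ B` (`vm α = 1`, so
`vo α = vz α = 1`): contradiction. -/
theorem notMem_of_order_zero (B : Subring E) (hB : ∀ z, z ∈ B ↔ IsInt K D.t⁻¹ z ∧ D.Ball z)
    (intm' : ∀ z φ, IsInt K D.t⁻¹ z → D.Ball z → Rd D.ρm z φ → IsInt k D.τm⁻¹ φ)
    (surj' : ∀ z φ, Rd D.ρm z φ → IsInt k D.τm⁻¹ φ → ∃ β, IsInt K D.t⁻¹ β ∧ D.Ball β ∧ Rd D.ρm β φ)
    (uniq : ∀ z φ, Rd D.ρm z φ → IsInt k D.τm⁻¹ φ → (∀ i : ℤ, i ≤ 0 → φ.coeff i = 0) →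
      ∃ N : ℕ, IsInt k D.τm⁻¹ (φ ^ N * D.τm))
    (P : Ideal B) (hP : P.IsPrime) (hm : ∀ z : B, D.vm (z : E) < 1 → z ∈ P)
    {s : B} (hs : (s : E) = D.t⁻¹) (hsP : s ∈ P) {u : B} {ψ : LaurentSeries k}
    (hu : Rd D.ρm (u : E) ψ) (hψ : ψ ≠ 0) (oψ : ψ.order = 0) : u ∉ P := by
  intro huP
  -- the constant term
  have hc : ψ.coeff 0 ≠ 0 := by
    have := mt HahnSeries.coeff_order_eq_zero.1 hψ
    rwa [oψ] at this
  set c := ψ.coeff 0 with hcdef
  obtain ⟨a, haB, -, ham, -⟩ := D.exists_const c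
  have hCc : (HahnSeries.C c : LaurentSeries k) ≠ 0 := by
    intro h0
    apply hc
    have := congrArg (fun ξ : LaurentSeries k => ξ.coeff 0) h0
    simpa using this
  have haBm : algebraMap K E a ∈ B := (hB _).2 ⟨IsInt.algebraMap a, haB⟩
  set αB : B := ⟨algebraMap K E a, haBm⟩ with hαB
  set w : B := u - αB with hw
  set φ : LaurentSeries k := ψ - HahnSeries.C c with hφ
  have hwE : (w : E) = (u : E) - algebraMap K E a := rfl
  have hwR : Rd D.ρm (w : E) φ := by rw [hwE]; exact hu.sub ham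
  have hwB := (hB _).1 w.2
  have hφ0 : ∀ i : ℤ, i ≤ 0 → φ.coeff i = 0 := by
    intro i hi
    rw [hφ, HahnSeries.coeff_sub]
    rcases hi.lt_or_eq with hi | rfl
    · rw [HahnSeries.coeff_eq_zero_of_lt_order (by rw [oψ]; exact hi), HahnSeries.C_apply,
        HahnSeries.coeff_single_of_ne hi.ne, sub_zero]
    · rw [HahnSeries.C_apply, HahnSeries.coeff_single_same, sub_self]
  have hφI : IsInt k D.τm⁻¹ φ := intm' _ _ hwB.1 hwB.2 hwR
  obtain ⟨N, hN⟩ := uniq _ _ hwR hφI hφ0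
  obtain ⟨β, hβI, hβB, hβR⟩ := surj' ((w : E) ^ N * D.t) _ ((hwR.pow N).mul D.rtm) hN
  set βB : B := ⟨β, (hB _).2 ⟨hβI, hβB⟩⟩ with hβBdef
  have htinv : Rd D.ρm D.t⁻¹ D.τm⁻¹ := Rd.inv' D.kerm D.rtm D.τm_ne
  have h0 : Rd D.ρm ((w : E) ^ N - β * D.t⁻¹) 0 := by
    have h1 := (hwR.pow N).sub (hβR.mul htinv)
    rwa [mul_assoc, mul_inv_cancel₀ D.τm_ne, mul_one, sub_self] at h1
  have h1 : w ^ N - βB * s ∈ P := by
    apply hm
    have e : ((w ^ N - βB * s : B) : E) = (w : E) ^ N - β * D.t⁻¹ := by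
      rw [← hs]; rfl
    rw [e]
    exact (rd_zero_iff' D.kerm).1 h0
  have h2 : w ^ N ∈ P := by
    have := P.add_mem h1 (P.mul_mem_left βB hsP)
    rwa [sub_add_cancel] at this
  have h3 : w ∈ P := hP.mem_of_pow_mem N h2
  have h4 : αB ∈ P := by
    have := P.sub_mem huP h3
    rwa [hw, sub_sub_cancel] at this
  -- `α` is a unit of `B`
  have hvm : D.vm (algebraMap K E a) = 1 := Rd.val_eq_one D.kerm ham hCc
  have hvo : D.vo (algebraMap K E a) = 1 := by rw [← D.eqm, hvm]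
  have hinv : D.Ball (algebraMap K E a⁻¹) := D.ball_const (by rw [map_inv₀, map_inv₀, hvo, inv_one])
  have ha0 : algebraMap K E a ≠ 0 := by
    intro h
    rw [h, map_zero] at hvm
    exact zero_ne_one hvm
  set αB' : B := ⟨algebraMap K E a⁻¹, (hB _).2 ⟨IsInt.algebraMap _, hinv⟩⟩ with hαB'
  have h5 : αB' * αB = 1 := by
    apply Subtype.ext
    show algebraMap K E a⁻¹ * algebraMap K E a = 1
    rw [map_inv₀, inv_mul_cancel₀ ha0]
  apply hP.ne_top
  rw [Ideal.eq_top_iff_one, ← h5]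
  exact P.mul_mem_left _ h4

end Dat

end Fermat.Agent.CAR.P1
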