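import Fermat.Agent.CAR.P1.ExpB
import Fermat.Agent.CAR.P1.ExpC

/-!
# CAR / P1 : export: local generators of the middle vertical prime   (assembly)

The conclusions are in the shape of the hypotheses of `CAR.NS.genOn_of_dvd` (`ν * β = y₀ * π ^ 1`, `y₀ ∉ P`,
`ν` uniformiser of `vm`).
-/

set_option autoImplicit false

open Polynomial

noncomputable section

namespace Fermat.Agent.CAR.P1

open Fermat.Agent.GAL.KL Fermat.Agent.GAL.KLC Fermat.Agent.TOR.T1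

variable {K E k Γ₀ : Type*} [Field K] [Field E] [Algebra K E] [Field k]
  [LinearOrderedCommGroupWithZero Γ₀] (D : Dat K E k Γ₀)

namespace Dat

/-- **Export, chart `t⁻¹`.**  Case `t⁻¹ ∉ P`: `export_inv_fin`.  Case `t⁻¹ ∈ P`: `c2` + `notMem_of_order_zero` +
`vm_eq_of_unit`. -/
theorem export_inv (B : Subring E) (hB : ∀ z, z ∈ B ↔ IsInt K D.t⁻¹ z ∧ D.Ball z)
    (intm' : ∀ z φ, IsInt K D.t⁻¹ z → D.Ball z → Rd D.ρm z φ → IsInt k D.τm⁻¹ φ)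
    (surj' : ∀ z φ, Rd D.ρm z φ → IsInt k D.τm⁻¹ φ → ∃ β, IsInt K D.t⁻¹ β ∧ D.Ball β ∧ Rd D.ρm β φ)
    (uniq : ∀ z φ, Rd D.ρm z φ → IsInt k D.τm⁻¹ φ → (∀ i : ℤ, i ≤ 0 → φ.coeff i = 0) →
      ∃ N : ℕ, IsInt k D.τm⁻¹ (φ ^ N * D.τm))
    (P : Ideal B) (hP : P.IsPrime) (hm : ∀ z : B, D.vm (z : E) < 1 → z ∈ P)
    (ho : ∃ z : B, D.vo (z : E) < 1 ∧ z ∉ P) (hz : ∃ z : B, D.vz (z : E) < 1 ∧ z ∉ P) :
    ∃ ν β y₀ : B, y₀ ∉ P ∧ (ν : E) * β = y₀ * D.pi ∧ D.vm (ν : E) = D.vm D.ν₀ := by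
  by_cases ht : ∀ s : B, (s : E) = D.t⁻¹ → s ∉ P
  · exact D.export_inv_fin B hB P hP hm ho hz ht
  push Not at ht
  obtain ⟨s, hs, hsP⟩ := ht
  by_cases he1 : D.e = 1
  · exact D.export_e1 he1 B hB P hP
  have he2 : 2 ≤ D.e := by have := D.he; omega
  obtain ⟨b, b', ψ, hbI, hbB, hbI', hbB', hR, hψ, oψ⟩ := D.c2 he2
  have he : 1 + (D.e - 1) = D.e := by have := D.he; omega
  have hc : b * b' / D.pi ∈ B := by
    rw [hB]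
    refine ⟨?_, (Bj.mul_div_pi D he hbB hbB').ball⟩
    rw [div_eq_mul_inv]
    exact (hbI.mul hbI').mul (D.isInt_pi_inv _)
  have hu : (⟨b * b' / D.pi, hc⟩ : B) ∉ P :=
    D.notMem_of_order_zero B hB intm' surj' uniq P hP hm hs hsP (u := ⟨b * b' / D.pi, hc⟩) hR hψ oψ
  refine ⟨⟨b, (hB _).2 ⟨hbI, hbB.ball⟩⟩, ⟨b', (hB _).2 ⟨hbI', hbB'.ball⟩⟩, ⟨b * b' / D.pi, hc⟩, hu,
    ?_, D.vm_eq_of_unit hbB hbB' (Rd.val_eq_one D.kerm hR hψ)⟩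
  show b * b' = b * b' / D.pi * D.pi
  rw [div_mul_cancel₀ _ D.pi_ne]

end Dat

end Fermat.Agent.CAR.P1
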