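import Fermat.Agent.CAR.P1.FracA

/-!
# CAR / P1 : `I_0`, `N_j` are fractional ideals of `R`; the three inclusions   (package P1-F2)
-/

set_option autoImplicit false

open Polynomial

noncomputable section

namespace Fermat.Agent.CAR.P1

open Fermat.Agent.GAL.KL Fermat.Agent.GAL.KLC Fermat.Agent.TOR.T1

variable {K E k Γ₀ : Type*} [Field K] [Field E] [Algebra K E] [Field k]
  [LinearOrderedCommGroupWithZero Γ₀] (D : Dat K E k Γ₀)

namespace Dat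

/-! ### P1-F2 : the modular units -/

/-- by induction on `r ≥ 1` (`powS_succ`, `Submodule.span_induction` or `exists_sum_of_mem_mulS`, `mem_Iz`):
an element of `I_0 ^ r` is the reduction of an element of `B` with `vo ≤ |π|^r` (discreteness `disco`). -/
theorem mem_Iz_pow {r : ℕ} (hr : 0 < r) {φ : LaurentSeries k} (h : φ ∈ powS D.Iz r) :
    ∃ z, IsInt K D.t z ∧ D.vo z ≤ D.vo D.pi ^ r ∧ D.vm z ≤ 1 ∧ Rd D.ρz z φ := by
  induction r, hr using Nat.le_induction generalizing φ with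
  | base =>
    obtain ⟨z, hz, ho, hm, hrd⟩ := D.mem_Iz.1 (show φ ∈ D.Iz from h)
    exact ⟨z, hz, by rw [pow_one]; exact D.disco z ho, hm, hrd⟩
  | succ r hr ih =>
    rw [powS_succ _ hr] at h
    obtain ⟨m, ξ, η, hξ, hη, rfl⟩ := exists_sum_of_mem_mulS h
    choose z hz ho hm hrd using fun i => ih (hξ i)
    choose w hw ho' hm' hrd' using fun i => D.mem_Iz.1 (hη i)
    refine ⟨∑ i, z i * w i, IsInt.sum _ _ fun i _ => (hz i).mul (hw i), ?_, ?_,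
      Rd.sum _ fun i _ => (hrd i).mul (hrd' i)⟩
    · refine Valuation.map_sum_le _ fun i _ => ?_
      rw [map_mul, pow_succ]
      exact mul_le_mul' (ho i) (D.disco _ (ho' i))
    · refine Valuation.map_sum_le _ fun i _ => ?_
      rw [map_mul]
      exact mul_le_one' (hm i) (hm' i)

/-- `I_0 ^ n ⊆ H R`:  `z / X_∞ ∈ B`, `φ = H * r_0 (z / X_∞)`. -/
theorem Iz_pow_le : powS D.Iz D.n ≤ sm D.H (Rs D.R) := by
  intro φ h
  obtain ⟨z, hz, ho, hm, hrd⟩ := D.mem_Iz_pow D.n_pos h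
  have hpi : D.vo D.pi ^ D.n ≠ 0 := pow_ne_zero _ ((Valuation.ne_zero_iff _).2 D.pi_ne)
  have hXm : D.vm D.Xo = 1 := Rd.val_eq_one D.kerm D.Xo_m D.H_ne
  have hXo : D.vo D.Xo = D.vo D.pi ^ D.n := D.Xo_o
  have h1 : IsInt K D.t (z / D.Xo) := by rw [div_eq_mul_inv]; exact hz.mul D.Xo_inv
  have h2 : D.vo (z / D.Xo) ≤ 1 := by
    rw [map_div₀, hXo]
    exact (div_le_one₀ (zero_lt_iff.2 hpi)).2 ho
  have h3 : D.vm (z / D.Xo) ≤ 1 := by
    rw [map_div₀, hXm, div_one]; exact hm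
  have h4 : Rd D.ρz (z / D.Xo) (φ / D.H) := Rd.div' D.kerz hrd D.Xo_z D.H_ne
  exact mem_sm.2 ⟨φ / D.H, (mem_Rs D.deg.C_mem).2 (D.intz _ _ h1 h2 h3 h4),
    mul_div_cancel₀ _ D.H_ne⟩

theorem mem_N0_pow {r : ℕ} (hr : 0 < r) {φ : LaurentSeries k} (h : φ ∈ powS (D.Nj 0) r) :
    ∃ z, IsInt K D.t z ∧ D.vo z ≤ D.vo D.pi ^ r ∧ D.vz z ≤ D.vz D.pi ^ r ∧ Rd D.ρm z φ := by
  have key : ∀ {φ : LaurentSeries k}, φ ∈ D.Nj 0 →
      ∃ z, IsInt K D.t z ∧ D.vo z ≤ D.vo D.pi ∧ D.vz z ≤ D.vz D.pi ∧ Rd D.ρm z φ := by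
    intro φ h
    obtain ⟨z, hz, ⟨ho, hzz, _⟩, hrd⟩ := D.mem_Nj.1 h
    rw [pow_zero, div_one] at hrd
    exact ⟨z, hz, D.disco z ho, D.discz z hzz, hrd⟩
  induction r, hr using Nat.le_induction generalizing φ with
  | base =>
    obtain ⟨z, hz, ho, hzz, hrd⟩ := key (show φ ∈ D.Nj 0 from h)
    exact ⟨z, hz, by rwa [pow_one], by rwa [pow_one], hrd⟩
  | succ r hr ih =>
    rw [powS_succ _ hr] at h
    obtain ⟨m, ξ, η, hξ, hη, rfl⟩ := exists_sum_of_mem_mulS h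
    choose z hz ho hm hrd using fun i => ih (hξ i)
    choose w hw ho' hm' hrd' using fun i => key (hη i)
    refine ⟨∑ i, z i * w i, IsInt.sum _ _ fun i _ => (hz i).mul (hw i), ?_, ?_,
      Rd.sum _ fun i _ => (hrd i).mul (hrd' i)⟩
    · refine Valuation.map_sum_le _ fun i _ => ?_
      rw [map_mul, pow_succ]
      exact mul_le_mul' (ho i) (ho' i)
    · refine Valuation.map_sum_le _ fun i _ => ?_
      rw [map_mul, pow_succ]
      exact mul_le_mul' (hm i) (hm' i)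

/-- `N_0 ^ n ⊆ H² R`:  `z / (X_∞ X_0) ∈ B`  (`vz X_∞ = 1`, `vm X_∞ = vm X_0 = 1` because `H ≠ 0`; `vo X_0 = 1`). -/
theorem N0_pow_le : powS (D.Nj 0) D.n ≤ sm (D.H * D.H) (Rs D.R) := by
  intro φ h
  obtain ⟨z, hz, ho, hzz, hrd⟩ := D.mem_N0_pow D.n_pos h
  have hpio : D.vo D.pi ^ D.n ≠ 0 := pow_ne_zero _ ((Valuation.ne_zero_iff _).2 D.pi_ne)
  have hpiz : D.vz D.pi ^ D.n ≠ 0 := pow_ne_zero _ ((Valuation.ne_zero_iff _).2 D.pi_ne)
  have hHH : D.H * D.H ≠ 0 := mul_ne_zero D.H_ne D.H_ne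
  have hXoz : D.vz D.Xo = 1 := Rd.val_eq_one D.kerz D.Xo_z D.H_ne
  have hXo : D.vo D.Xo = D.vo D.pi ^ D.n := D.Xo_o
  have hXz : D.vz D.Xz = D.vz D.pi ^ D.n := D.Xz_z
  have h1 : IsInt K D.t (z / (D.Xo * D.Xz)) := by
    rw [div_eq_mul_inv, mul_inv]; exact hz.mul (D.Xo_inv.mul D.Xz_inv)
  have h2 : D.vo (z / (D.Xo * D.Xz)) ≤ 1 := by
    rw [map_div₀, map_mul, hXo, D.Xz_o, mul_one]
    exact (div_le_one₀ (zero_lt_iff.2 hpio)).2 ho
  have h3 : D.vz (z / (D.Xo * D.Xz)) ≤ 1 := by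
    rw [map_div₀, map_mul, hXoz, hXz, one_mul]
    exact (div_le_one₀ (zero_lt_iff.2 hpiz)).2 hzz
  have h4 : Rd D.ρm (z / (D.Xo * D.Xz)) (φ / (D.H * D.H)) :=
    Rd.div' D.kerm hrd (D.Xo_m.mul D.Xz_m) hHH
  exact mem_sm.2 ⟨φ / (D.H * D.H), (mem_Rs D.deg.C_mem).2 (D.intm _ _ h1 h2 h3 h4),
    mul_div_cancel₀ _ hHH⟩

end Dat

end Fermat.Agent.CAR.P1
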