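import Fermat.Agent.CAR.P1.Api

/-!
# CAR / P1 : `I_0`, `N_j` are fractional ideals of `R`; the three inclusions   (package P1-F1)
-/

set_option autoImplicit false

open Polynomial

noncomputable section

namespace Fermat.Agent.CAR.P1

open Fermat.Agent.GAL.KL Fermat.Agent.GAL.KLC Fermat.Agent.TOR.T1

variable {K E k Γ₀ : Type*} [Field K] [Field E] [Algebra K E] [Field k]
  [LinearOrderedCommGroupWithZero Γ₀] (D : Dat K E k Γ₀)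

namespace Dat

/-! ### P1-F1 -/

/-- the pairing: `λ_i(z) λ_j(z') = c0 * r_m (z z' / π)` for `i + j = e`.
(`z/ν₀^i * (z'/ν₀^j) = (π/ν₀^e) * (z z'/π)`, `Rd.mul`, `Rd.unique`, `exists_rd` with `Bj.mul_div_pi`.) -/
theorem pairing {i j : ℕ} (hij : i + j = D.e) {z z' : E} (h : D.Bj i z) (h' : D.Bj j z')
    {φ φ' : LaurentSeries k} (hφ : Rd D.ρm (z / D.ν₀ ^ i) φ) (hφ' : Rd D.ρm (z' / D.ν₀ ^ j) φ') :
    ∃ ψ, Rd D.ρm (z * z' / D.pi / D.ν₀ ^ 0) ψ ∧ φ * φ' = D.c0 * ψ := by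
  obtain ⟨ψ, hψ⟩ := exists_rd (ρ := D.ρm) (Bj.vm_div_le D (Bj.mul_div_pi D hij h h'))
  refine ⟨ψ, hψ, ?_⟩
  have h1 := hφ.mul hφ'
  have h2 := D.rc0.mul hψ
  have hpi : algebraMap K E D.ϖ ≠ 0 := D.pi_ne
  have hnu : D.ν₀ ≠ 0 := D.nu_ne
  have e1 : z / D.ν₀ ^ i * (z' / D.ν₀ ^ j)
      = algebraMap K E D.ϖ / D.ν₀ ^ D.e * (z * z' / D.pi / D.ν₀ ^ 0) := by
    rw [← hij, pow_add, Dat.pi]
    field_simp
  rw [e1] at h1
  exact h1.unique h2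

/-- `N_j N_(e-j) ⊆ c0 N_0`  (`mulS_le`, `mem_Nj`, `pairing`, `mem_sm`). -/
theorem Nj_mul_le {j : ℕ} (hj0 : 0 < j) (hj : j < D.e) :
    mulS (D.Nj j) (D.Nj (D.e - j)) ≤ sm D.c0 (D.Nj 0) := by
  rw [mulS_le]
  intro ξ hξ η hη
  obtain ⟨z, hzi, hzb, hzr⟩ := (mem_Nj D).1 hξ
  obtain ⟨z', hzi', hzb', hzr'⟩ := (mem_Nj D).1 hη
  have hij : j + (D.e - j) = D.e := by omega
  obtain ⟨ψ, hψ, heq⟩ := pairing D hij hzb hzb' hzr hzr'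
  refine mem_sm.2 ⟨ψ, (mem_Nj D).2 ⟨z * z' / D.pi, ?_, Bj.mul_div_pi D hij hzb hzb', hψ⟩, heq.symm⟩
  rw [div_eq_mul_inv]
  exact (hzi.mul hzi').mul (D.isInt_pi_inv _)

/-- `I_0 ⊆ R`. -/
theorem Iz_le : D.Iz ≤ Rs D.R := by
  intro φ hφ
  obtain ⟨z, hzi, hzo, hzm, hzr⟩ := (mem_Iz D).1 hφ
  exact (mem_Rs D.deg.C_mem).2 (D.intz z φ hzi hzo.le hzm hzr)

/-- `N_0 ⊆ R`. -/
theorem N0_le : D.Nj 0 ≤ Rs D.R := by
  intro φ hφ
  obtain ⟨z, hzi, hzb, hzr⟩ := (mem_Nj D).1 hφ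
  rw [pow_zero, div_one] at hzr
  exact (mem_Rs D.deg.C_mem).2 (D.intm z φ hzi hzb.1.le hzb.2.1.le hzr)

/-- `ne`: `H = r_0 (X_∞) ∈ I_0`.  `mul_mem`: `surjz`.  `den`: `ξ = 1`, `intz`. -/
theorem isFrac_Iz : IsFrac D.R D.Iz := by
  refine ⟨?_, ?_, ?_⟩
  · have hmem : D.H ∈ D.Iz := by
      refine (mem_Iz D).2 ⟨D.Xo, D.Xo_int, ?_, D.Xo_m.le_one, D.Xo_z⟩
      rw [D.Xo_o]
      exact pow_lt_one₀ zero_le D.ϖ_lt D.n_pos.ne'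
    intro h
    rw [h, Submodule.mem_bot] at hmem
    exact D.H_ne hmem
  · intro r hr η hη
    obtain ⟨b, hbi, hbo, hbm, hbr⟩ := D.surjz r hr
    obtain ⟨z, hzi, hzo, hzm, hzr⟩ := (mem_Iz D).1 hη
    refine (mem_Iz D).2 ⟨b * z, hbi.mul hzi, ?_, ?_, hbr.mul hzr⟩
    · rw [map_mul]
      exact lt_of_le_of_lt (mul_le_of_le_one_left' hbo) hzo
    · rw [map_mul]
      exact mul_le_one' hbm hzm
  · refine ⟨1, one_ne_zero, fun η hη => ?_⟩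
    rw [one_mul]
    exact (mem_Rs D.deg.C_mem).1 (Iz_le D hη)

/-- `ne`: `j = 0`: `H * H = r_m (X_∞ X_0)`; `j > 0`: `1 = λ_j (ν₀ ^ j)`.   `mul_mem`: `surjm`, `Bj.mul_ball`.
`den`: `j = 0`: `ξ = 1`, `intm`; `j > 0`: `ξ = c0⁻¹` because `η = η * λ_(e-j)(ν₀^(e-j)) ∈ c0 N_0 ⊆ c0 R` (`pairing`). -/
theorem isFrac_Nj {j : ℕ} (hj : j < D.e) : IsFrac D.R (D.Nj j) := by
  have hone : ∀ i : ℕ, 0 < i → (1 : LaurentSeries k) ∈ D.Nj i := by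
    intro i hi
    refine (mem_Nj D).2 ⟨D.ν₀ ^ i, D.ν_int.pow i, D.bj_nu_pow i hi, ?_⟩
    rw [div_self (pow_ne_zero _ D.nu_ne)]
    exact Rd.one
  refine ⟨?_, ?_, ?_⟩
  · rcases Nat.eq_zero_or_pos j with rfl | hj0
    · have hmem : D.H * D.H ∈ D.Nj 0 := by
        refine (mem_Nj D).2 ⟨D.Xo * D.Xz, D.Xo_int.mul D.Xz_int, ⟨?_, ?_, ?_⟩, ?_⟩
        · rw [map_mul, D.Xo_o, D.Xz_o, mul_one]
          exact pow_lt_one₀ zero_le D.ϖ_lt D.n_pos.ne'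
        · rw [map_mul, D.Xz_z]
          refine lt_of_le_of_lt (mul_le_of_le_one_left' D.Xo_z.le_one) ?_
          refine pow_lt_one₀ zero_le ?_ D.n_pos.ne'
          rw [D.eqz]
          exact D.ϖ_lt
        · rw [pow_zero]
          exact (D.Xo_m.mul D.Xz_m).le_one
        · rw [pow_zero, div_one]
          exact D.Xo_m.mul D.Xz_m
      intro h
      rw [h, Submodule.mem_bot] at hmem
      exact mul_ne_zero D.H_ne D.H_ne hmem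
    · intro h
      have hmem := hone j hj0
      rw [h, Submodule.mem_bot] at hmem
      exact one_ne_zero hmem
  · intro r hr η hη
    obtain ⟨b, hbi, hbo, hbz, hbr⟩ := D.surjm r hr
    obtain ⟨z, hzi, hzb, hzr⟩ := (mem_Nj D).1 hη
    refine (mem_Nj D).2 ⟨b * z, hbi.mul hzi, Bj.mul_ball D hzb ⟨hbo, hbr.le_one, hbz⟩, ?_⟩
    rw [mul_div_assoc]
    exact hbr.mul hzr
  · rcases Nat.eq_zero_or_pos j with rfl | hj0
    · refine ⟨1, one_ne_zero, fun η hη => ?_⟩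
      rw [one_mul]
      exact (mem_Rs D.deg.C_mem).1 (N0_le D hη)
    · refine ⟨D.c0⁻¹, inv_ne_zero D.c0_ne, fun η hη => ?_⟩
      have h1 : η * 1 ∈ sm D.c0 (D.Nj 0) :=
        Nj_mul_le D hj0 hj (mul_mem_mulS hη (hone (D.e - j) (by omega)))
      obtain ⟨ψ, hψ, heq⟩ := mem_sm.1 h1
      rw [mul_one] at heq
      rw [← heq, inv_mul_cancel_left₀ D.c0_ne]
      exact (mem_Rs D.deg.C_mem).1 (N0_le D hψ)

end Dat

end Fermat.Agent.CAR.P1
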