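import Fermat.Agent.CAR.P1.Deg

/-!
# CAR / P1 : the degree theory of a Dedekind subring of `k((Q))`   (package P1-G1)

`R ⊆ k((Q))` a Dedekind domain containing the constants with `dim {ξ ∈ R | -n ≤ order ξ} = n + χ` for `n` large.
Then every fractional ideal has an Euler characteristic and it is additive on products.
-/

set_option autoImplicit false

noncomputable section

namespace Fermat.Agent.CAR.P1

variable {k : Type*} [Field k]

/-! ### P1-G1 -/

/-- `Tr N n` is the kernel of the coefficient functional `ξ ↦ ξ.coeff (-(n+1))` on `Tr N (n+1)`. -/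
theorem finrank_Tr_succ_le (N : Submodule k (LaurentSeries k)) (n : ℤ)
    (h : FiniteDimensional k (Tr N (n + 1))) :
    Module.finrank k (Tr N (n + 1)) ≤ Module.finrank k (Tr N n) + 1 := by
  classical
  let cf : LaurentSeries k →ₗ[k] k :=
    { toFun := fun ξ => ξ.coeff (-(n + 1))
      map_add' := fun _ _ => HahnSeries.coeff_add ..
      map_smul' := fun _ _ => HahnSeries.coeff_smul .. }
  let f : Tr N (n + 1) →ₗ[k] k := cf.comp (Tr N (n + 1)).subtype
  have h1 := f.finrank_range_add_finrank_ker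
  have h2 : Module.finrank k (LinearMap.range f) ≤ 1 := by
    have h := Submodule.finrank_le (LinearMap.range f)
    rwa [Module.finrank_self] at h
  have h3 : Module.finrank k (LinearMap.ker f) = Module.finrank k (Tr N n) := by
    have h4 : (LinearMap.ker f).map (Tr N (n + 1)).subtype = Tr N n := by
      ext ξ
      constructor
      · rintro ⟨⟨η, hη⟩, hker, rfl⟩
        refine ⟨hη.1, fun i hi => ?_⟩
        rcases eq_or_lt_of_le (show i ≤ -(n + 1) by omega) with rfl | hlt
        · exact hker
        · exact hη.2 i hlt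
      · intro hξ
        exact ⟨⟨ξ, Tr_mono_right N (by omega) hξ⟩, hξ.2 _ (by omega), rfl⟩
    rw [← h4]
    exact LinearEquiv.finrank_eq
      (Submodule.equivMapOfInjective _ (Submodule.injective_subtype _) _)
  omega

/-- **Sandwich.**  `d n := finrank (Tr N n) - n` is non increasing (`finrank_Tr_succ_le`) and `≥ c₁` for `n` large, hence
eventually constant (finite dimensionality from `Tr N n ≤ Tr N₂ n`). -/
theorem HasChi.of_sandwich {N₁ N N₂ : Submodule k (LaurentSeries k)} {c₁ c₂ : ℤ} (h₁ : N₁ ≤ N)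
    (h₂ : N ≤ N₂) (hc₁ : HasChi N₁ c₁) (hc₂ : HasChi N₂ c₂) : ∃ c, HasChi N c := by
  have hfin : ∀ n, FiniteDimensional k (Tr N n) := fun n =>
    have := hc₂.finite n
    Submodule.finiteDimensional_of_le (Tr_mono h₂ n)
  set d : ℤ → ℤ := fun n => (Module.finrank k (Tr N n) : ℤ) - n with hd
  have hanti : Antitone d := by
    apply antitone_int_of_succ_le
    intro n
    have h := finrank_Tr_succ_le N n (hfin (n + 1))
    simp only [hd]
    omega
  obtain ⟨n₁, hn₁⟩ := hc₁
  have hlow : ∀ n, n₁ ≤ n → c₁ ≤ d n := by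
    intro n hn
    have := hfin n
    have h := Submodule.finrank_mono (Tr_mono h₁ n)
    have h' := (hn₁ n hn).2
    simp only [hd]
    omega
  obtain ⟨c, ⟨m, hm, hmc⟩, hmin⟩ := Int.exists_least_of_bdd (P := fun z => ∃ n, n₁ ≤ n ∧ d n = z)
    ⟨c₁, by rintro z ⟨n, hn, rfl⟩; exact hlow n hn⟩ ⟨d n₁, n₁, le_refl _, rfl⟩
  refine ⟨c, m, fun n hn => ⟨hfin n, ?_⟩⟩
  have e1 : d n ≤ c := hmc ▸ hanti hn
  have e2 : c ≤ d n := hmin _ ⟨n, hm.trans hn, rfl⟩
  have e3 : d n = c := le_antisymm e1 e2
  simp only [hd] at e3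
  omega

end Fermat.Agent.CAR.P1
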