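import Fermat.Agent.CAR.P1.Count

/-!
# CAR / P1 : the count   (package P1-M2)
-/

set_option autoImplicit false

open Polynomial

noncomputable section

namespace Fermat.Agent.CAR.P1

open Fermat.Agent.GAL.KL Fermat.Agent.GAL.KLC Fermat.Agent.TOR.T1

variable {K E k Γ₀ : Type*} [Field K] [Field E] [Algebra K E] [Field k]
  [LinearOrderedCommGroupWithZero Γ₀] (D : Dat K E k Γ₀)

namespace Dat

/-- **Main theorem of the count.**
`exists_cj` (choose `c j` and the witnesses), `order_pairing` on the witnesses gives `hc`, `D.deg.ex` gives `xI`, `x j`;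
`count`; `cnt_abs` with `isFrac_Iz`, `isFrac_Nj`, `Iz_pow_le`, `N0_pow_le`, `Nj_mul_le`, `c0_ne`, `H_ne`, `oH`, `num`. -/
theorem main (he2 : 2 ≤ D.e) : mulS (D.Nj 1) (D.Nj (D.e - 1)) = sm D.c0 (D.Nj 0) ∧
    ∃ (a a' : ℕ) (z z' : E) (φ φ' : LaurentSeries k),
      z ∈ LL K D.t a ∧ D.Bj 1 z ∧ Rd D.ρm (z / D.ν₀ ^ 1) φ ∧ φ ≠ 0 ∧
      z' ∈ LL K D.t a' ∧ D.Bj (D.e - 1) z' ∧ Rd D.ρm (z' / D.ν₀ ^ (D.e - 1)) φ' ∧ φ' ≠ 0 ∧
      (φ.order + a * D.nm) + (φ'.order + a' * D.nm) = D.c0.order := by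
  classical
  have he := he2
  -- the exact orders `c j`
  have hex : ∀ j : ℕ, ∃ c : ℤ, 0 < j → j < D.e →
      ((∀ a : ℕ, D.Sj j a ≤ Tr (D.Nj j) ((a : ℤ) * D.nm - c)) ∧
      ∃ (a : ℕ) (z : E) (φ : LaurentSeries k), z ∈ LL K D.t a ∧ D.Bj j z ∧
        Rd D.ρm (z / D.ν₀ ^ j) φ ∧ φ ≠ 0 ∧ φ.order + a * D.nm = c) := by
    intro j
    by_cases h : 0 < j ∧ j < D.e
    · obtain ⟨c, hc⟩ := D.exists_cj h.1 h.2
      exact ⟨c, fun _ _ => hc⟩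
    · exact ⟨0, fun h0 h1 => absurd ⟨h0, h1⟩ h⟩
  choose c hc using hex
  -- the Euler characteristics
  obtain ⟨xI, cI⟩ := D.deg.ex _ D.isFrac_Iz
  have hxx : ∀ j : ℕ, ∃ x : ℤ, j < D.e → HasChi (D.Nj j) x := by
    intro j
    by_cases h : j < D.e
    · obtain ⟨x, hx⟩ := D.deg.ex _ (D.isFrac_Nj h)
      exact ⟨x, fun _ => hx⟩
    · exact ⟨0, fun h1 => absurd h1 h⟩
  choose x cN using hxx
  have hcount := D.count (xI := xI) (x := x) (c := c) cI cN (fun j h0 h1 => (hc j h0 h1).1)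
  have hcc : ∀ j, 0 < j → j < D.e → D.c0.order ≤ c j + c (D.e - j) := by
    intro j h0 h1
    obtain ⟨a, z, φ, hz, hB, hφ, hne, hcj⟩ := (hc j h0 h1).2
    obtain ⟨a', z', φ', hz', hB', hφ', hne', hcj'⟩ :=
      (hc (D.e - j) (by omega) (by omega)).2
    rw [← hcj, ← hcj']
    exact D.order_pairing (by omega) hz hz' hB hB' hφ hφ' hne hne'
  obtain ⟨h1, h2⟩ := cnt_abs D.deg he2 D.n_pos D.c0_ne D.H_ne D.oH D.isFrac_Iz
    (fun j hj => D.isFrac_Nj hj) D.Iz_pow_le D.N0_pow_le (fun j h0 h1 => D.Nj_mul_le h0 h1)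
    cI cN hcc hcount D.num
  refine ⟨h1, ?_⟩
  obtain ⟨a, z, φ, hz, hB, hφ, hne, hcj⟩ := (hc 1 (by omega) (by omega)).2
  obtain ⟨a', z', φ', hz', hB', hφ', hne', hcj'⟩ :=
    (hc (D.e - 1) (by omega) (by omega)).2
  exact ⟨a, a', z, z', φ, φ', hz, hB, hφ, hne, hz', hB', hφ', hne', by rw [hcj, hcj', h2]⟩

end Dat

end Fermat.Agent.CAR.P1
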